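/-
MLT / [L2] / P6 (helper8), part 8: **the closed points of the special fibre of a chart** (abstract).

`C : DlxChart g₁ g₂ σ` over `B : DlBase L k`, `k` algebraically closed.
* `mltj6_max_place`   : a maximal ideal of a ring `R` mapping ONTO `IntCl(k[z]) ⊆ κ` (containing the
  kernel) is the set of functions vanishing at a place `Q` with `z` regular at `Q`;
* `mltj6_place_ext`   : a place is determined by the functions of `IntCl(k[z])` vanishing at it;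
* `mltj6_rad`         : `ker res₁ ∩ ker res₂ = ϖ B`;
* `mltj6_max_cases`   : every maximal ideal of the chart ring containing `ϖ` is `n₁ Q` or `n₂ Q'`;
* `mltj6_n₁_inj`, `mltj6_n₂_inj`.
-/
import Mathlib
import Fermat.Agent.Lib.Delta.NodeX.Fin
import Fermat.Agent.Lib.T3.Red.Eval

set_option autoImplicit false
set_option linter.unusedSectionVars false
set_option linter.unusedVariables false
set_option linter.style.haveILetI false

namespace Fermat.Agent.MLT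

open AlgebraicCurve IntermediateField Fermat.Agent.Curve Fermat.Agent.Curve.PlaceAux
  Fermat.Agent.T1 Fermat.Agent.T2 Fermat.Agent.T3 Fermat.Agent.T4 Fermat.Agent.Delta
  IsDedekindDomain

section OneComp

variable {k κ : Type*} [Field k] [Field κ] [Algebra k κ] {z : κ}
  (hz : IsFunctionFieldGen k κ z) [Algebra.IsSeparable k⟮z⟯ κ]

include hz in
/-- a maximal ideal of a ring mapping onto `IntCl(k[z])`, containing the kernel, is the ideal of a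
place at which `z` is regular -/
theorem mltj6_max_place (P₀ : Place k κ) (hP₀ : 0 ≤ P₀.ord z) {R : Type*} [CommRing R]
    (ρ : R →+* κ) (hint : ∀ r, IsIntegral ↥(Algebra.adjoin k {z}) (ρ r))
    (hsurj : ∀ f : κ, IsIntegral ↥(Algebra.adjoin k {z}) f → ∃ r, ρ r = f)
    (𝔪 : Ideal R) [h𝔪 : 𝔪.IsMaximal] (hker : RingHom.ker ρ ≤ 𝔪) :
    ∃ Q : Place k κ, 0 ≤ Q.ord z ∧ ∀ r, r ∈ 𝔪 ↔ (ρ r = 0 ∨ 0 < Q.ord (ρ r)) := by
  haveI : Fact (IsFunctionFieldGen k κ z) := ⟨hz⟩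
  haveI : IsDedekindDomain (CurveP.Bx k z) := CurveP.Bx.isDedekindDomain
  haveI : IsFractionRing (CurveP.Bx k z) κ := CurveP.Bx.isFractionRing
  let ρ' : R →+* ↥(CurveP.Bx k z) := ρ.codRestrict (CurveP.Bx k z).toSubring hint
  have hρ' : ∀ r, ((ρ' r : ↥(CurveP.Bx k z)) : κ) = ρ r := fun r => rfl
  have hsurj' : Function.Surjective ρ' := by
    intro b
    obtain ⟨r, hr⟩ := hsurj (b : κ) b.2
    exact ⟨r, Subtype.ext hr⟩
  have hker' : RingHom.ker ρ' ≤ 𝔪 := by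
    intro r hr
    apply hker
    rw [RingHom.mem_ker] at hr ⊢
    rw [← hρ', hr]
    rfl
  set 𝔮 : Ideal ↥(CurveP.Bx k z) := Ideal.map ρ' 𝔪 with h𝔮
  have hcomap : Ideal.comap ρ' 𝔮 = 𝔪 := by
    rw [h𝔮, Ideal.comap_map_of_surjective ρ' hsurj']
    exact sup_eq_left.mpr hker'
  have h𝔮max : 𝔮.IsMaximal := by
    rcases Ideal.map_eq_top_or_isMaximal_of_surjective ρ' hsurj' h𝔪 with h | h
    · exfalso
      apply h𝔪.ne_top
      rw [← hcomap, h𝔮, h, Ideal.comap_top]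
    · exact h
  -- `IntCl(k[z])` is not a field
  have hP₀z : z ∈ P₀.toValuationSubring := mem_of_ord_nonneg P₀ hP₀
  have h𝔮ne : 𝔮 ≠ ⊥ := by
    intro hbot
    set c := centre P₀ (CurveP.PlaceAux.Bx_le P₀ hP₀z) with hc
    have h1 : 𝔮 = c.asIdeal := h𝔮max.eq_of_le c.isPrime.ne_top (by rw [hbot]; exact bot_le)
    exact c.ne_bot (by rw [← h1, hbot])
  set Q : Place k κ := t3aPlaceOf 𝔮 h𝔮max.isPrime h𝔮ne with hQ
  have hBQ : ∀ b : ↥(CurveP.Bx k z), (b : κ) ∈ Q.toValuationSubring := by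
    intro b
    show algebraMap ↥(CurveP.Bx k z) κ b ∈
      ((⟨𝔮, h𝔮max.isPrime, h𝔮ne⟩ : HeightOneSpectrum ↥(CurveP.Bx k z)).valuation κ).valuationSubring
    rw [Valuation.mem_valuationSubring_iff]
    exact HeightOneSpectrum.valuation_le_one _ b
  have hzB : z ∈ CurveP.Bx k z := isIntegral_algebraMap
    (x := (⟨z, Algebra.self_mem_adjoin_singleton k z⟩ : ↥(CurveP.Ax k z)))
  refine ⟨Q, ord_nonneg_of_mem Q (hBQ ⟨z, hzB⟩), fun r => ?_⟩
  rw [← hcomap, Ideal.mem_comap, t3a_mem_iff_ordGE 𝔮 h𝔮max.isPrime h𝔮ne, ordGE_iff]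
  show (ρ r = 0 ∨ 1 ≤ Q.ord (ρ r)) ↔ _
  constructor
  · rintro (h | h)
    · exact Or.inl h
    · exact Or.inr (by omega)
  · rintro (h | h)
    · exact Or.inl h
    · exact Or.inr (by omega)

include hz in
/-- a place at which `z` is regular is determined by the functions of `IntCl(k[z])` vanishing
at it -/
theorem mltj6_place_ext {P P' : Place k κ} (hP : 0 ≤ P.ord z) (hP' : 0 ≤ P'.ord z)
    (h : ∀ f : κ, IsIntegral ↥(Algebra.adjoin k {z}) f → (f = 0 ∨ 0 < P.ord f) →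
      (f = 0 ∨ 0 < P'.ord f)) : P = P' := by
  haveI : Fact (IsFunctionFieldGen k κ z) := ⟨hz⟩
  haveI : IsDedekindDomain (CurveP.Bx k z) := CurveP.Bx.isDedekindDomain
  haveI : IsFractionRing (CurveP.Bx k z) κ := CurveP.Bx.isFractionRing
  have hPz : z ∈ P.toValuationSubring := mem_of_ord_nonneg P hP
  have hP'z : z ∈ P'.toValuationSubring := mem_of_ord_nonneg P' hP'
  set c := centre P (CurveP.PlaceAux.Bx_le P hPz) with hc
  have h1 : P = t3aPlaceOf c.asIdeal c.isPrime c.ne_bot := by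
    refine t3a_placeOf_unique _ _ _ P hPz fun b hb => ?_
    rw [mem_centre_iff] at hb
    rw [ordGE_iff]
    rcases hb with hb | hb
    · left
      rw [hb, map_zero]
    · right
      omega
  have h2 : P' = t3aPlaceOf c.asIdeal c.isPrime c.ne_bot := by
    refine t3a_placeOf_unique _ _ _ P' hP'z fun b hb => ?_
    rw [mem_centre_iff] at hb
    have hb' : ((b : κ) = 0 ∨ 0 < P.ord (b : κ)) := by
      rcases hb with hb | hb
      · left
        rw [hb]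
        rfl
      · right
        exact hb
    rw [ordGE_iff]
    rcases h (b : κ) b.2 hb' with h3 | h3
    · left
      exact h3
    · right
      show 1 ≤ P'.ord (b : κ)
      omega
  rw [h1, ← h2]

end OneComp

section Chart

variable {L k : Type*} [Field L] [Field k] {B : DlBase L k} {F κ₁ κ₂ : Type*} [Field F]
  [Algebra L F] [Field κ₁] [Algebra k κ₁] [Field κ₂] [Algebra k κ₂]
  {g₁ : DlPlace B F κ₁} {g₂ : DlPlace B F κ₂} {σ : Type*} [Fintype σ]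
  (C : DlxChart g₁ g₂ σ)

/-- **`ker res₁ ∩ ker res₂ = ϖ B`** (the special fibre is reduced) -/
theorem mltj6_rad {b : ↥C.P.B} (h₁ : C.res₁ b = 0) (h₂ : C.res₂ b = 0) :
    ∃ c : ↥C.P.B, b = C.ofA B.ϖA * c := by
  have hπ0 : algebraMap L F B.ϖ ≠ 0 := (_root_.map_ne_zero _).mpr B.hϖ
  obtain ⟨b₁, hb₁, e₁⟩ := g₁.exists_eq_pi_mul (C.B_le₁ b.2) h₁
  obtain ⟨b₂, hb₂, e₂⟩ := g₂.exists_eq_pi_mul (C.B_le₂ b.2) h₂
  have hmem : (algebraMap L F B.ϖ)⁻¹ * (b : F) ∈ C.P.B := by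
    rw [C.P.mem_iff]
    intro V hV
    rcases C.vals_cases hV with rfl | rfl | h
    · rw [dlx_mem_iff g₁ _ C.hV₁]
      have : (algebraMap L F B.ϖ)⁻¹ * (b : F) = b₁ := by
        rw [e₁]
        show (algebraMap L F B.ϖ)⁻¹ * (algebraMap L F B.ϖ * b₁) = b₁
        rw [← mul_assoc, inv_mul_cancel₀ hπ0, one_mul]
      rw [this]
      exact hb₁
    · rw [dlx_mem_iff g₂ _ C.hV₂]
      have : (algebraMap L F B.ϖ)⁻¹ * (b : F) = b₂ := by
        rw [e₂]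
        show (algebraMap L F B.ϖ)⁻¹ * (algebraMap L F B.ϖ * b₂) = b₂
        rw [← mul_assoc, inv_mul_cancel₀ hπ0, one_mul]
      rw [this]
      exact hb₂
    · refine V.mul_mem _ _ ?_ (C.P.B_le hV b.2)
      rw [← map_inv₀]
      exact t4vp_algebraMap_mem_hor h _
  refine ⟨⟨_, hmem⟩, Subtype.ext ?_⟩
  show (b : F) = algebraMap L F B.ϖ * ((algebraMap L F B.ϖ)⁻¹ * (b : F))
  rw [← mul_assoc, mul_inv_cancel₀ hπ0, one_mul]

/-- a prime ideal of the chart ring containing `ϖ` contains the ideal of one of the two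
components -/
theorem mltj6_ker_res_cases (𝔪 : Ideal ↥C.P.B) [h𝔪 : 𝔪.IsPrime] (hϖ : C.ofA B.ϖA ∈ 𝔪) :
    RingHom.ker C.res₁ ≤ 𝔪 ∨ RingHom.ker C.res₂ ≤ 𝔪 := by
  by_contra hcon
  push Not at hcon
  obtain ⟨h1, h2⟩ := hcon
  obtain ⟨a, ha, ha'⟩ := SetLike.not_le_iff_exists.mp h1
  obtain ⟨b, hb, hb'⟩ := SetLike.not_le_iff_exists.mp h2
  rw [RingHom.mem_ker] at ha hb
  obtain ⟨c, hc⟩ := mltj6_rad C (b := a * b) (by rw [map_mul, ha, zero_mul])
    (by rw [map_mul, hb, mul_zero])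
  have : a * b ∈ 𝔪 := by
    rw [hc]
    exact 𝔪.mul_mem_right _ hϖ
  rcases h𝔪.mem_or_mem this with h | h
  · exact ha' h
  · exact hb' h

variable [IsAlgClosed k]

theorem mltj6_res₁_surj (f : κ₁) (hf : IsIntegral ↥(Algebra.adjoin k {C.G.x.1}) f) :
    ∃ b : ↥C.P.B, C.res₁ b = f := by
  obtain ⟨g, hg⟩ := C.G.hα f hf
  obtain ⟨b, hb, -⟩ := C.exists_lift hg
  exact ⟨b, hb⟩

theorem mltj6_res₂_surj (g : κ₂) (hg : IsIntegral ↥(Algebra.adjoin k {C.G.x.2}) g) :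
    ∃ b : ↥C.P.B, C.res₂ b = g := by
  obtain ⟨f, hf⟩ := C.G.hβ g hg
  obtain ⟨b, -, hb⟩ := C.exists_lift hf
  exact ⟨b, hb⟩

theorem mltj6_mem_ker_ev₂ {Q : Place k κ₂} (hQ : 0 ≤ Q.ord C.G.x.2) {b : ↥C.P.B} :
    b ∈ RingHom.ker (C.ev₂ Q hQ) ↔ C.res₂ b = 0 ∨ 0 < Q.ord (C.res₂ b) := by
  rw [RingHom.mem_ker]
  exact dlxEval_eq_zero_iff _ _ _ _

/-- **the closed points of the special fibre of a chart** -/
theorem mltj6_max_cases (𝔪 : Ideal ↥C.P.B) [h𝔪 : 𝔪.IsMaximal] (hϖ : C.ofA B.ϖA ∈ 𝔪)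
    (P₀ : Place k κ₁) (hP₀ : 0 ≤ P₀.ord C.G.x.1) (Q₀ : Place k κ₂) (hQ₀ : 0 ≤ Q₀.ord C.G.x.2) :
    (∃ (Q : Place k κ₁) (hQ : 0 ≤ Q.ord C.G.x.1), 𝔪 = C.n₁ Q hQ) ∨
      (∃ (Q' : Place k κ₂) (hQ' : 0 ≤ Q'.ord C.G.x.2), 𝔪 = RingHom.ker (C.ev₂ Q' hQ')) := by
  haveI := C.G.sep₁
  haveI := C.G.sep₂
  haveI : 𝔪.IsPrime := h𝔪.isPrime
  rcases mltj6_ker_res_cases C 𝔪 hϖ with h | h
  · left
    obtain ⟨Q, hQ, hmem⟩ := mltj6_max_place C.G.gen₁ P₀ hP₀ C.res₁ C.res₁_integral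
      (mltj6_res₁_surj C) 𝔪 h
    refine ⟨Q, hQ, ?_⟩
    ext b
    rw [hmem, C.mem_n₁_iff]
  · right
    obtain ⟨Q, hQ, hmem⟩ := mltj6_max_place C.G.gen₂ Q₀ hQ₀ C.res₂ C.res₂_integral
      (mltj6_res₂_surj C) 𝔪 h
    refine ⟨Q, hQ, ?_⟩
    ext b
    rw [hmem, mltj6_mem_ker_ev₂]

/-- the closed points of the first component are distinct -/
theorem mltj6_n₁_inj {P P' : Place k κ₁} (hP : 0 ≤ P.ord C.G.x.1) (hP' : 0 ≤ P'.ord C.G.x.1)
    (h : C.n₁ P hP ≤ C.n₁ P' hP') : P = P' := by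
  haveI := C.G.sep₁
  refine mltj6_place_ext C.G.gen₁ hP hP' fun f hf hfP => ?_
  obtain ⟨b, rfl⟩ := mltj6_res₁_surj C f hf
  exact (C.mem_n₁_iff P' hP').mp (h ((C.mem_n₁_iff P hP).mpr hfP))

/-- the closed points of the second component are distinct -/
theorem mltj6_n₂_inj {Q Q' : Place k κ₂} (hQ : 0 ≤ Q.ord C.G.x.2) (hQ' : 0 ≤ Q'.ord C.G.x.2)
    (h : RingHom.ker (C.ev₂ Q hQ) ≤ RingHom.ker (C.ev₂ Q' hQ')) : Q = Q' := by
  haveI := C.G.sep₂
  refine mltj6_place_ext C.G.gen₂ hQ hQ' fun f hf hfP => ?_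
  obtain ⟨b, rfl⟩ := mltj6_res₂_surj C f hf
  exact (mltj6_mem_ker_ev₂ C hQ').mp (h ((mltj6_mem_ker_ev₂ C hQ).mpr hfP))

end Chart

end Fermat.Agent.MLT
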