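/-
MLT / [L2] / P6 (helper8), part 9: **the centre of a horizontal valuation ring and the change of
level** (abstract, for a morphism of charts `h : DlxHom C₁ C`).

* `mltj6_val_comap_lt`      : `(V.comap ι).valuation f < 1 ↔ V.valuation (ι f) < 1`;
* `mltj6_through_comap`     : (EASY) `V` through the point `P` at the upper level ⇒ `V.comap ιF`
  through `P` at the lower level;
* **`mltj6_through_of_comap`** : (HARD) `V` horizontal at the upper level, `V.comap ιF` through the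
  node `P` at the lower level ⇒ `V` through the node `P` at the upper level.
  [the centre of `V.comap ιF` gives a monic equation of the chart coordinate; hence `B ⧸ 𝔭_V` is
  finite over the henselian base, hence local; its maximal ideal contains `ϖ`, so it is a closed
  point of one of the two components of the special fibre (`mltj6_max_cases`); its contraction to
  the lower level contains `𝔭_{V.comap ιF}` whose only closed point is `P`.]
-/
import Mathlib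
import Fermat.Agent.Lib.Delta.NodeX.Hom
import Fermat.Agent.Lib.MLT.L2.P6.ChartPts

set_option autoImplicit false
set_option linter.unusedSectionVars false
set_option linter.unusedVariables false
set_option linter.style.haveILetI false
set_option maxHeartbeats 1000000

namespace Fermat.Agent.MLT

open AlgebraicCurve IntermediateField Fermat.Agent.Curve Fermat.Agent.Curve.PlaceAux
  Fermat.Agent.T1 Fermat.Agent.T2 Fermat.Agent.T3 Fermat.Agent.T4 Fermat.Agent.Delta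

/-- the valuation of the restriction of a valuation ring -/
theorem mltj6_val_comap_lt {F₁ F₂ : Type*} [Field F₁] [Field F₂] (ι : F₁ →+* F₂)
    (V : ValuationSubring F₂) (f : F₁) : (V.comap ι).valuation f < 1 ↔ V.valuation (ι f) < 1 := by
  by_cases hf : f = 0
  · rw [hf, map_zero, map_zero, map_zero]
    simp
  · have hf' : ι f ≠ 0 := (_root_.map_ne_zero ι).mpr hf
    rw [t4vp_valuation_lt_one_iff _ hf, t4vp_valuation_lt_one_iff _ hf', ValuationSubring.mem_comap,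
      map_inv₀]

theorem mltj6_val_comap_eq_one {F₁ F₂ : Type*} [Field F₁] [Field F₂] (ι : F₁ →+* F₂)
    (V : ValuationSubring F₂) {f : F₁} (hf : f ≠ 0) :
    (V.comap ι).valuation f = 1 ↔ V.valuation (ι f) = 1 := by
  have hf' : ι f ≠ 0 := (_root_.map_ne_zero ι).mpr hf
  rw [t4vp_valuation_eq_one_iff _ hf, t4vp_valuation_eq_one_iff _ hf', ValuationSubring.mem_comap,
    ValuationSubring.mem_comap, map_inv₀]

variable {L₁ L₂ k : Type*} [Field L₁] [Field L₂] [Field k] {B₁ : DlBase L₁ k} {B₂ : DlBase L₂ k}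
  {F₁ F₂ κ₁ κ₂ : Type*} [Field F₁] [Field F₂] [Algebra L₁ F₁] [Algebra L₂ F₂]
  [Field κ₁] [Algebra k κ₁] [Field κ₂] [Algebra k κ₂] [IsAlgClosed k]
  {g₁ : DlPlace B₁ F₁ κ₁} {g₂ : DlPlace B₁ F₁ κ₂} {g₁' : DlPlace B₂ F₂ κ₁}
  {g₂' : DlPlace B₂ F₂ κ₂} {σ σ' : Type*} [Fintype σ] [Fintype σ']
  {C₁ : DlxChart g₁ g₂ σ} {C : DlxChart g₁' g₂' σ'} (h : DlxHom C₁ C)

/-- **(EASY)** the restriction of a valuation ring through a point passes through the point -/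
theorem mltj6_through_comap (P : Place k κ₁) (hP : 0 ≤ P.ord C₁.G.x.1) {V : ValuationSubring F₂}
    (hV : V ∈ C.P.through (C.n₁ P (h.hP' P hP))) (hV₁ : V.comap h.ιF ∈ C₁.P.vals) :
    V.comap h.ιF ∈ C₁.P.through (C₁.n₁ P hP) := by
  refine ⟨hV₁, fun b hb => ?_⟩
  rw [← h.mem_n₁_mapB P hP]
  refine hV.2 (h.mapB b) ?_
  rw [h.coe_mapB]
  exact (mltj6_val_comap_lt h.ιF V _).mp hb

/-- the second evaluations agree -/
theorem mltj6_ev₂_mapB (Q : Place k κ₂) (hQ : 0 ≤ Q.ord C₁.G.x.2) (hQ' : 0 ≤ Q.ord C.G.x.2)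
    (b : ↥C₁.P.B) : C.ev₂ Q hQ' (h.mapB b) = C₁.ev₂ Q hQ b := by
  rw [DlxChart.ev₂_eq_iff, h.res₂_mapB]
  exact C₁.ev₂_spec Q hQ b

/-- **(HARD)** a horizontal valuation ring whose restriction passes through a node passes through
the node -/
theorem mltj6_through_of_comap (hx : h.ιF C₁.x = C.x)
    [IsDiscreteValuationRing ↥B₁.A] [IsDiscreteValuationRing ↥B₂.A] [CharZero L₁]
    (hgen₁ : IsFunctionFieldGen L₁ F₁ C₁.x) (hens₁ : DltHens B₁.A F₁) (hens₂ : DltHens B₂.A F₂)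
    (hfg : C.FinGen) {s : Place k κ₁ × Place k κ₂} (hs : s ∈ C.G.nodes)
    (hP₁ : 0 ≤ s.1.ord C₁.G.x.1) (hfin₁ : C₁.FinAt (C₁.n₁ s.1 hP₁))
    {V : ValuationSubring F₂} (hhor : V ∈ t4vpHor L₂ C.x)
    (hhor₁ : V.comap h.ιF ∈ t4vpHor L₁ C₁.x)
    (hthr₁ : V.comap h.ιF ∈ C₁.P.through (C₁.n₁ s.1 hP₁)) :
    V ∈ C.P.through (C.n₁ s.1 (C.node_fin₁ hs)) := by
  classical
  -- the monic equation of the chart coordinate
  obtain ⟨M, hM, hMV⟩ := C₁.exists_monic hgen₁ hens₁ s.1 hP₁ _ hthr₁ hhor₁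
  let ιA : ↥B₁.A →+* ↥B₂.A :=
    (h.ιL.comp B₁.A.subtype).codRestrict B₂.A.toSubring (fun a => h.hA a a.2)
  have hmapofA : h.mapB.comp C₁.ofA = C.ofA.comp ιA :=
    RingHom.ext fun a => Subtype.ext (h.hsq a)
  have hmapx : h.mapB C₁.xB = C.xB := Subtype.ext hx
  have hmapeval : h.mapB (C₁.evalA M) = C.evalA (M.map ιA) := by
    unfold DlxChart.evalA
    rw [Polynomial.hom_eval₂, Polynomial.eval₂_map, hmapofA, hmapx]
  have hMV' : V.valuation ((C.evalA (M.map ιA) : ↥C.P.B) : F₂) < 1 := by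
    rw [← hmapeval, h.coe_mapB]
    exact (mltj6_val_comap_lt h.ιF V _).mp hMV
  have hV : V ∈ C.P.vals := C.hor_mem hhor
  obtain ⟨S, hS, hfin⟩ := C.fin_of_monic hfg V hV (M.map ιA) (hM.map ιA) hMV'
  have hO : ∀ a ∈ B₂.A, algebraMap L₂ F₂ a ∈ C.P.B := fun a ha => C.algebraMap_mem_B ⟨a, ha⟩
  have hLV : ∀ a : L₂, algebraMap L₂ F₂ a ∈ V := fun a => t4vp_algebraMap_mem_hor hhor a
  letI := dltQuotAlg B₂.A C.P hO V hV
  haveI := dltQuot_finite B₂.A C.P hO V hV S hS hfin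
  have hinj := dltQuot_injective B₂.A C.P hO V hV hLV
  haveI : IsLocalRing (↥C.P.B ⧸ dltCtr C.P V hV) := hens₂ _ hinj
  set mk := Ideal.Quotient.mk (dltCtr C.P V hV) with hmk
  set 𝔪 : Ideal ↥C.P.B := (IsLocalRing.maximalIdeal (↥C.P.B ⧸ dltCtr C.P V hV)).comap mk with h𝔪
  haveI h𝔪max : 𝔪.IsMaximal :=
    Ideal.comap_isMaximal_of_surjective mk Ideal.Quotient.mk_surjective
  have hctr : dltCtr C.P V hV ≤ 𝔪 := by
    intro b hb
    rw [h𝔪, Ideal.mem_comap, (Ideal.Quotient.eq_zero_iff_mem).mpr hb]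
    exact Ideal.zero_mem _
  -- `ϖ ∈ 𝔪`
  have hϖ : C.ofA B₂.ϖA ∈ 𝔪 := by
    haveI : Algebra.IsIntegral ↥B₂.A (↥C.P.B ⧸ dltCtr C.P V hV) := Algebra.IsIntegral.of_finite _ _
    have hker : RingHom.ker (algebraMap ↥B₂.A (↥C.P.B ⧸ dltCtr C.P V hV)) ≤
        IsLocalRing.maximalIdeal ↥B₂.A := by
      rw [(RingHom.injective_iff_ker_eq_bot _).mp hinj]
      exact bot_le
    obtain ⟨Q, hQmax, hQ⟩ := Ideal.exists_ideal_over_maximal_of_isIntegral
      (S := ↥C.P.B ⧸ dltCtr C.P V hV) (IsLocalRing.maximalIdeal ↥B₂.A) hker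
    have hQeq : Q = IsLocalRing.maximalIdeal _ := IsLocalRing.eq_maximalIdeal hQmax
    have h1 : B₂.ϖA ∈ IsLocalRing.maximalIdeal ↥B₂.A :=
      (B₂.resA_eq_zero_iff B₂.ϖA).mp B₂.res_ϖ
    rw [← hQ, Ideal.mem_comap, hQeq] at h1
    exact h1
  -- the closed point
  have hcases := mltj6_max_cases C 𝔪 hϖ s.1 (C.node_fin₁ hs) s.2 (C.node_fin₂ hs)
  -- uniqueness at the lower level
  have hV₁ : V.comap h.ιF ∈ C₁.P.vals := hthr₁.1
  have hLV₁ : ∀ a : L₁, algebraMap L₁ F₁ a ∈ V.comap h.ιF :=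
    fun a => t4vp_algebraMap_mem_hor hhor₁ a
  obtain ⟨S₁, hS₁, hfinS₁⟩ := hfin₁ _ hthr₁ hhor₁
  have hO₁ : ∀ a ∈ B₁.A, algebraMap L₁ F₁ a ∈ C₁.P.B := fun a ha => C₁.algebraMap_mem_B ⟨a, ha⟩
  have huniq : ∀ J : Ideal ↥C₁.P.B, dltCtr C₁.P _ hV₁ ≤ J → J ≠ ⊤ → J ≤ C₁.n₁ s.1 hP₁ := by
    intro J hJ hJtop c hc
    by_contra hcn
    obtain ⟨c', hc'⟩ := dlt_exists_inv_mod B₁.A C₁.P hO₁ _ hV₁ hLV₁ S₁ hS₁ hfinS₁ hens₁
      (C₁.n₁ s.1 hP₁) hthr₁ hcn
    have h1 : c * c' - 1 ∈ J := hJ hc'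
    have h2 : (1 : ↥C₁.P.B) ∈ J := by
      have := J.sub_mem (J.mul_mem_right c' hc) h1
      rwa [sub_sub_cancel] at this
    exact hJtop ((Ideal.eq_top_iff_one _).mpr h2)
  set 𝔪₁ : Ideal ↥C₁.P.B := 𝔪.comap h.mapB with h𝔪₁
  have h𝔪₁le : 𝔪₁ ≤ C₁.n₁ s.1 hP₁ := by
    refine huniq 𝔪₁ ?_ (Ideal.comap_ne_top _ h𝔪max.ne_top)
    intro b hb
    rw [h𝔪₁, Ideal.mem_comap]
    apply hctr
    rw [mem_dltCtr, h.coe_mapB]
    exact (mltj6_val_comap_lt h.ιF V _).mp hb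
  -- conclusion
  have hfinal : 𝔪 = C.n₁ s.1 (C.node_fin₁ hs) := by
    rcases hcases with ⟨Q, hQ, hQm⟩ | ⟨Q', hQ', hQm⟩
    · have hQ₁ : 0 ≤ Q.ord C₁.G.x.1 := by rw [← h.hGx]; exact hQ
      have hle : C₁.n₁ Q hQ₁ ≤ C₁.n₁ s.1 hP₁ := by
        intro b hb
        apply h𝔪₁le
        rw [h𝔪₁, Ideal.mem_comap, hQm]
        exact (h.mem_n₁_mapB Q hQ₁ b).mpr hb
      have hQs : Q = s.1 := mltj6_n₁_inj C₁ hQ₁ hP₁ hle
      subst hQs
      exact hQm
    · have hQ'₁ : 0 ≤ Q'.ord C₁.G.x.2 := by rw [← h.hGx]; exact hQ'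
      have hs₂ : 0 ≤ s.2.ord C₁.G.x.2 := by rw [← h.hGx]; exact C.node_fin₂ hs
      have hle : RingHom.ker (C₁.ev₂ Q' hQ'₁) ≤ RingHom.ker (C₁.ev₂ s.2 hs₂) := by
        intro b hb
        rw [RingHom.mem_ker] at hb
        have h1 : b ∈ 𝔪₁ := by
          rw [h𝔪₁, Ideal.mem_comap, hQm, RingHom.mem_ker, mltj6_ev₂_mapB h Q' hQ'₁ hQ', hb]
        have h2 := h𝔪₁le h1
        rw [← h.mem_n₁_mapB s.1 hP₁, DlxChart.mem_n₁] at h2
        have h3 : C.ev₁ s.1 (C.node_fin₁ hs) (h.mapB b) = 0 := h2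
        rw [C.ev_node hs, mltj6_ev₂_mapB h s.2 hs₂ (C.node_fin₂ hs)] at h3
        exact h3
      have hQs : Q' = s.2 := mltj6_n₂_inj C₁ hQ'₁ hs₂ hle
      subst hQs
      rw [hQm]
      ext b
      rw [RingHom.mem_ker, DlxChart.mem_n₁, C.ev_node hs]
  refine ⟨hV, fun b hb => ?_⟩
  rw [← hfinal]
  exact hctr hb

end Fermat.Agent.MLT
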