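/-
MLT / [L2] / P6 (helper8), part 1: **the EXACT conservation law at a node** (abstract, `DlNode`).

`𝒩 : DlNode L F` (`t · t' = ϖ ^ w`).  For a horizontal valuation ring `V` through the node let `g_V`
be its coordinate function (`DlNode.gV'`, `Lib/Delta/Node/Coord.lean`) and put

  `κ(V) := slope(g_V) · w + ord_W g_V − ord_W' g_V`      (`mltj6Kap 𝒩 V`, `= 0` if `V` is not horizontal).

* `mltj6_node_law` : for every `z ≠ 0`
      `∑_{V ∈ supp z} ord_V z · κ(V) = slope z · w − (ord_W' z − ord_W z)`     (EXACT, no divisibility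
  hypothesis; `dln_slope_law` is the case without horizontal part);
* `mltj6_node_law'` : the same with the sum over any finite set containing the horizontal part of `z`;
* `mltj6_t_sub` : for `c ∈ O`, `0 < v(c) = j < w`: `slope (t − c) = 1`, `ord_W (t − c) = 0`,
  `ord_W' (t − c) = j`, `t − c ∈ A`; hence `∑_V ord_V (t − c) · κ(V) = w − j` (`mltj6_law_t_sub`).
-/
import Fermat.Agent.Lib.Delta.Node.Cll

set_option autoImplicit false
set_option linter.style.haveILetI false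
set_option linter.unusedSectionVars false
set_option linter.unusedVariables false

namespace Fermat.Agent.MLT

open Fermat.Agent.T4 Fermat.Agent.Delta

variable {L F : Type*} [Field L] [Field F] [Algebra L F] (𝒩 : DlNode L F)

/-- the slope of a finite product -/
theorem mltj6_slope_prod {ι : Type*} (s : Finset ι) (f : ι → F) (hf : ∀ i ∈ s, f i ≠ 0) :
    𝒩.slope (∏ i ∈ s, f i) = ∑ i ∈ s, 𝒩.slope (f i) := by
  classical
  induction s using Finset.induction_on with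
  | empty => simp [DlNode.slope_one]
  | insert a s ha ih =>
    rw [Finset.prod_insert ha, Finset.sum_insert ha,
      𝒩.slope_mul (hf a (Finset.mem_insert_self a s))
        (Finset.prod_ne_zero_iff.mpr fun i hi => hf i (Finset.mem_insert_of_mem hi)),
      ih fun i hi => hf i (Finset.mem_insert_of_mem hi)]

/-- **the weight of a horizontal valuation ring through the node**:
`κ(V) = slope(g_V) · w + ord_W g_V − ord_W' g_V` -/
noncomputable def mltj6Kap (V : ValuationSubring F) : ℤ :=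
  𝒩.slope (𝒩.gV' V) * 𝒩.w + 𝒩.oW (𝒩.gV' V) - 𝒩.oW' (𝒩.gV' V)

theorem mltj6Kap_def (V : ValuationSubring F) :
    mltj6Kap 𝒩 V = 𝒩.slope (𝒩.gV' V) * 𝒩.w + 𝒩.oW (𝒩.gV' V) - 𝒩.oW' (𝒩.gV' V) := rfl

theorem mltj6_gV'_of_not_mem {V : ValuationSubring F} (hV : V ∉ 𝒩.hor) : 𝒩.gV' V = 1 := by
  unfold DlNode.gV'
  rw [dif_neg hV]

theorem mltj6Kap_of_not_mem {V : ValuationSubring F} (hV : V ∉ 𝒩.hor) : mltj6Kap 𝒩 V = 0 := by
  have h1 : 𝒩.oW (1 : F) = 0 := (dln_isU_one 𝒩.toDlLocal).oW 𝒩.toDlLocal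
  have h2 : 𝒩.oW' (1 : F) = 0 := (dln_isU_one 𝒩.toDlLocal).oW' 𝒩.toDlLocal
  rw [mltj6Kap_def, mltj6_gV'_of_not_mem 𝒩 hV, 𝒩.slope_one, h1, h2]
  ring

theorem mltj6_oHt_of_not_mem {V : ValuationSubring F} (hV : V ∉ 𝒩.hor) (z : F) :
    𝒩.oHt V z = 0 := by
  unfold DlNode.oHt
  rw [dif_neg hV]

/-- the order at `W` of the product of the `g_V ^ e V` -/
theorem mltj6_oW_hprod (z : F) (e : ValuationSubring F → ℤ) :
    𝒩.oW (𝒩.hprod z e) = ∑ V ∈ 𝒩.supp z, e V * 𝒩.oW (𝒩.gV' V) := by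
  unfold DlNode.hprod
  show dlOrd 𝒩.W _ = _
  rw [dlOrd_prod 𝒩.W _ _ (fun V _ => zpow_ne_zero _ (𝒩.gV'_ne_zero V))]
  refine Finset.sum_congr rfl fun V _ => ?_
  rw [dlOrd_zpow]
  rfl

/-- the order at `W'` of the product of the `g_V ^ e V` -/
theorem mltj6_oW'_hprod (z : F) (e : ValuationSubring F → ℤ) :
    𝒩.oW' (𝒩.hprod z e) = ∑ V ∈ 𝒩.supp z, e V * 𝒩.oW' (𝒩.gV' V) := by
  unfold DlNode.hprod
  show dlOrd 𝒩.W' _ = _
  rw [dlOrd_prod 𝒩.W' _ _ (fun V _ => zpow_ne_zero _ (𝒩.gV'_ne_zero V))]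
  refine Finset.sum_congr rfl fun V _ => ?_
  rw [dlOrd_zpow]
  rfl

/-- the slope of the product of the `g_V ^ e V` -/
theorem mltj6_slope_hprod (z : F) (e : ValuationSubring F → ℤ) :
    𝒩.slope (𝒩.hprod z e) = ∑ V ∈ 𝒩.supp z, e V * 𝒩.slope (𝒩.gV' V) := by
  unfold DlNode.hprod
  rw [mltj6_slope_prod 𝒩 _ _ (fun V _ => zpow_ne_zero _ (𝒩.gV'_ne_zero V))]
  refine Finset.sum_congr rfl fun V _ => ?_
  rw [𝒩.slope_zpow]

/-- **the exact conservation law at a node** -/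
theorem mltj6_node_law {z : F} (hz : z ≠ 0) :
    ∑ V ∈ 𝒩.supp z, 𝒩.oHt V z * mltj6Kap 𝒩 V =
      𝒩.slope z * 𝒩.w - (𝒩.oW' z - 𝒩.oW z) := by
  classical
  set e : ValuationSubring F → ℤ := fun V => 𝒩.oHt V z with he
  set H : F := 𝒩.hprod z e with hH
  have hH0 : H ≠ 0 := 𝒩.hprod_ne_zero z e
  -- `z / H` has no horizontal part
  have h1 : ∀ (V : ValuationSubring F) (hV : V ∈ 𝒩.hor), 𝒩.oH V hV (z / H) = 0 := by
    intro V hV
    rw [dln_oH_div 𝒩.toDlLocal hV hz hH0, hH, 𝒩.oH_hprod z e hV]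
    by_cases h : V ∈ 𝒩.supp z
    · rw [if_pos h, he]
      show 𝒩.oH V hV z - 𝒩.oHt V z = 0
      rw [𝒩.oHt_eq hV]
      ring
    · rw [if_neg h, 𝒩.oH_eq_zero_of_not_mem_supp hz hV h]
      ring
  have h2 := dln_slope_law 𝒩 (div_ne_zero hz hH0) h1
  rw [dln_oW'_div 𝒩.toDlLocal hz hH0, dln_oW_div 𝒩.toDlLocal hz hH0, 𝒩.slope_div hz hH0,
    hH, mltj6_oW'_hprod, mltj6_oW_hprod, mltj6_slope_hprod] at h2
  have h3 : ∑ V ∈ 𝒩.supp z, 𝒩.oHt V z * mltj6Kap 𝒩 V =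
      (∑ V ∈ 𝒩.supp z, e V * 𝒩.slope (𝒩.gV' V)) * 𝒩.w +
        ∑ V ∈ 𝒩.supp z, e V * 𝒩.oW (𝒩.gV' V) - ∑ V ∈ 𝒩.supp z, e V * 𝒩.oW' (𝒩.gV' V) := by
    rw [Finset.sum_mul, ← Finset.sum_add_distrib, ← Finset.sum_sub_distrib]
    refine Finset.sum_congr rfl fun V _ => ?_
    rw [mltj6Kap_def, he]
    ring
  rw [h3]
  linarith

/-- the exact conservation law, with the sum over any finite set of valuation rings containing
the horizontal part of `z` through the node -/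
theorem mltj6_node_law' {z : F} (hz : z ≠ 0) (S : Finset (ValuationSubring F))
    (hS : ∀ (V : ValuationSubring F) (hV : V ∈ 𝒩.hor), 𝒩.oH V hV z ≠ 0 → V ∈ S) :
    ∑ V ∈ S, 𝒩.oHt V z * mltj6Kap 𝒩 V = 𝒩.slope z * 𝒩.w - (𝒩.oW' z - 𝒩.oW z) := by
  classical
  rw [← mltj6_node_law 𝒩 hz]
  -- both sums are equal to the sum over the union
  have key : ∀ (T : Finset (ValuationSubring F)),
      (∀ (V : ValuationSubring F) (hV : V ∈ 𝒩.hor), 𝒩.oH V hV z ≠ 0 → V ∈ T) →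
      ∑ V ∈ T, 𝒩.oHt V z * mltj6Kap 𝒩 V =
        ∑ V ∈ T ∪ 𝒩.supp z ∪ S, 𝒩.oHt V z * mltj6Kap 𝒩 V := by
    intro T hT
    refine Finset.sum_subset (fun V hV => ?_) (fun V _ hVT => ?_)
    · exact Finset.mem_union_left _ (Finset.mem_union_left _ hV)
    · by_cases hV : V ∈ 𝒩.hor
      · have h0 : 𝒩.oH V hV z = 0 := by
          by_contra hne
          exact hVT (hT V hV hne)
        rw [𝒩.oHt_eq hV, h0, zero_mul]
      · rw [mltj6_oHt_of_not_mem 𝒩 hV, zero_mul]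
  have hsupp : ∀ (V : ValuationSubring F) (hV : V ∈ 𝒩.hor), 𝒩.oH V hV z ≠ 0 → V ∈ 𝒩.supp z := by
    intro V hV hne
    by_contra hnot
    exact hne (𝒩.oH_eq_zero_of_not_mem_supp hz hV hnot)
  rw [key S hS, key (𝒩.supp z) hsupp]
  refine Finset.sum_congr ?_ fun _ _ => rfl
  ext V
  simp only [Finset.mem_union]
  tauto

/-! ### the functions `t − c` -/

section TSub

variable {c : L} (hc : c ≠ 0)

include hc in
/-- `t − c` for a constant `c` with `0 < v(c) < w`: it lies in `A`, has order `0` at `W`, order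
`v(c)` at `W'` and slope `1` -/
theorem mltj6_t_sub (hj : 0 < dlOrd 𝒩.O c) (hjw : dlOrd 𝒩.O c < 𝒩.w) :
    𝒩.t - algebraMap L F c ≠ 0 ∧ 𝒩.t - algebraMap L F c ∈ 𝒩.A ∧
      𝒩.oW (𝒩.t - algebraMap L F c) = 0 ∧ 𝒩.oW' (𝒩.t - algebraMap L F c) = dlOrd 𝒩.O c ∧
      𝒩.slope (𝒩.t - algebraMap L F c) = 1 := by
  obtain ⟨h1, h2, -⟩ := dln_const 𝒩.toDlLocal hc
  have hcF : algebraMap L F c ≠ 0 := (map_ne_zero _).mpr hc
  have hncF : -algebraMap L F c ≠ 0 := neg_ne_zero.mpr hcF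
  have hW : 𝒩.oW (𝒩.t - algebraMap L F c) = 0 := by
    rw [sub_eq_add_neg]
    show dlOrd 𝒩.W (𝒩.t + -algebraMap L F c) = 0
    rw [dlOrd_add_of_lt 𝒩.W 𝒩.t_ne_zero (Or.inr (by
      rw [dlOrd_neg]
      have e1 : dlOrd 𝒩.W 𝒩.t = 0 := 𝒩.oW_t
      have e2 : dlOrd 𝒩.W (algebraMap L F c) = dlOrd 𝒩.O c := h1
      rw [e1, e2]
      exact hj))]
    exact 𝒩.oW_t
  have hne : 𝒩.t - algebraMap L F c ≠ 0 := by
    intro h0
    have e : 𝒩.t = algebraMap L F c := sub_eq_zero.mp h0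
    have e1 := 𝒩.oW_t
    rw [e, h1] at e1
    omega
  have hW' : 𝒩.oW' (𝒩.t - algebraMap L F c) = dlOrd 𝒩.O c := by
    have e : 𝒩.t - algebraMap L F c = -algebraMap L F c + 𝒩.t := by ring
    rw [e]
    show dlOrd 𝒩.W' (-algebraMap L F c + 𝒩.t) = _
    rw [dlOrd_add_of_lt 𝒩.W' hncF (Or.inr (by
      rw [dlOrd_neg]
      have e1 : dlOrd 𝒩.W' 𝒩.t = 𝒩.w := 𝒩.oW'_t
      have e2 : dlOrd 𝒩.W' (algebraMap L F c) = dlOrd 𝒩.O c := h2
      rw [e1, e2]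
      exact hjw)), dlOrd_neg]
    exact h2
  have hcO : c ∈ 𝒩.O := (dln_mem_O_iff 𝒩.toDlLocal).mpr (Or.inr hj.le)
  have hA : 𝒩.t - algebraMap L F c ∈ 𝒩.A := 𝒩.A.sub_mem 𝒩.ht (𝒩.O_le c hcO)
  refine ⟨hne, hA, hW, hW', ?_⟩
  refine 𝒩.slope_eq hne (dln_isU_one 𝒩.toDlLocal) ?_
  rw [𝒩.nrm_of_oW_zero hW, zpow_one, mul_one]
  right
  have e : 𝒩.t - algebraMap L F c - 𝒩.t = -algebraMap L F c := by ring
  rw [e]
  show 0 < dlOrd 𝒩.W (-algebraMap L F c)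
  rw [dlOrd_neg]
  have e2 : dlOrd 𝒩.W (algebraMap L F c) = dlOrd 𝒩.O c := h1
  rw [e2]
  exact hj

include hc in
/-- **the conservation law for `t − c`**: `∑_V ord_V (t − c) · κ(V) = w − v(c)`, all the orders
being `≥ 0` -/
theorem mltj6_law_t_sub (hj : 0 < dlOrd 𝒩.O c) (hjw : dlOrd 𝒩.O c < 𝒩.w) :
    ∑ V ∈ 𝒩.supp (𝒩.t - algebraMap L F c),
        𝒩.oHt V (𝒩.t - algebraMap L F c) * mltj6Kap 𝒩 V = 𝒩.w - dlOrd 𝒩.O c ∧
      ∀ (V : ValuationSubring F) (hV : V ∈ 𝒩.hor),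
        0 ≤ 𝒩.oH V hV (𝒩.t - algebraMap L F c) := by
  obtain ⟨hne, hA, hW, hW', hs⟩ := mltj6_t_sub 𝒩 hc hj hjw
  refine ⟨?_, fun V hV => dln_oH_nonneg 𝒩.toDlLocal hA hV⟩
  rw [mltj6_node_law 𝒩 hne, hs, hW, hW']
  ring

end TSub

end Fermat.Agent.MLT
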