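/-
MLT / [L2] / P6 (helper8), part 2: **rational horizontal valuation rings through a node**
(abstract, `𝒩 : DlNode L F`, `t · t' = ϖ ^ w`).

`MltJ6ValAt 𝒩 V c` : `V` is a horizontal valuation ring through the node at which the coordinate `t`
takes the value `c ∈ O` (`v_V(t − c) > 0`).  Then

* `mltj6_valAt_cN`   : the minimal polynomial of `t mod 𝔭_V` is `X − c`, `g_V = t − c`
  (`mltj6_valAt_gV`, `mltj6_valAt_gV'`);
* `mltj6_valAt_ne_zero`, `mltj6_valAt_pos`, `mltj6_valAt_lt` : `c ≠ 0`, `0 < v(c) < w`;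
* **`mltj6_valAt_kap`** : `κ(V) = w − v(c)`;
* `mltj6_valAt_oH`   : `t − c` is a uniformiser of `V`;  `mltj6_valAt_other` : a unit at every other
  horizontal valuation ring through the node;  `mltj6_valAt_unique`;
* **`mltj6_exists_valAt`** : for every `c` with `0 < v(c) < w` there IS such a `V` (no Hensel: the
  exact conservation law forces a zero of `t − c` through the node).
-/
import Fermat.Agent.Lib.MLT.L2.P6.NodeLaw

set_option autoImplicit false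
set_option linter.style.haveILetI false
set_option linter.unusedSectionVars false
set_option linter.unusedVariables false

namespace Fermat.Agent.MLT

open Fermat.Agent.T4 Fermat.Agent.Delta Polynomial

variable {L F : Type*} [Field L] [Field F] [Algebra L F] (𝒩 : DlNode L F)

attribute [local instance] DlLocal.algOA

/-- `V` is a horizontal valuation ring through the node at which `t` takes the value `c ∈ O` -/
structure MltJ6ValAt (V : ValuationSubring F) (c : L) : Prop where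
  hor : V ∈ 𝒩.hor
  mem_O : c ∈ 𝒩.O
  val : V.valuation (𝒩.t - algebraMap L F c) < 1

variable {𝒩} {V : ValuationSubring F} {c : L}

theorem MltJ6ValAt.mem_ctr (h : MltJ6ValAt 𝒩 V c) :
    𝒩.tA - algebraMap 𝒩.O 𝒩.P.B ⟨c, h.mem_O⟩ ∈ 𝒩.ctr V h.hor.1 := by
  rw [DlLocal.mem_ctr]
  exact h.val

/-- the minimal polynomial of `t` modulo `𝔭_V` is `X − c` -/
theorem mltj6_valAt_cN (h : MltJ6ValAt 𝒩 V c) : 𝒩.cN h.hor = X - C (⟨c, h.mem_O⟩ : 𝒩.O) := by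
  have h1 : 𝒩.alpha h.hor = algebraMap 𝒩.O (𝒩.P.B ⧸ 𝒩.ctr V h.hor.1) ⟨c, h.mem_O⟩ := by
    have h2 := (Ideal.Quotient.eq (I := 𝒩.ctr V h.hor.1)).mpr h.mem_ctr
    exact h2
  unfold DlNode.cN
  rw [h1]
  exact minpoly.eq_X_sub_C_of_algebraMap_inj _ (𝒩.algebraMap_quot_injective h.hor)

/-- `g_V = t − c` -/
theorem mltj6_valAt_gV (h : MltJ6ValAt 𝒩 V c) : 𝒩.gV h.hor = 𝒩.t - algebraMap L F c := by
  rw [𝒩.gV_eq_aeval h.hor, mltj6_valAt_cN h]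
  simp only [Polynomial.map_sub, Polynomial.map_X, Polynomial.map_C, map_sub, aeval_X, aeval_C]
  rfl

theorem mltj6_valAt_gV' (h : MltJ6ValAt 𝒩 V c) : 𝒩.gV' V = 𝒩.t - algebraMap L F c := by
  unfold DlNode.gV'
  rw [dif_pos h.hor]
  exact mltj6_valAt_gV h

theorem mltj6_valAt_sub_ne_zero (h : MltJ6ValAt 𝒩 V c) : 𝒩.t - algebraMap L F c ≠ 0 := by
  rw [← mltj6_valAt_gV h]
  exact 𝒩.gV_ne_zero h.hor

/-- `t − c` is a uniformiser of `V` -/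
theorem mltj6_valAt_oH (h : MltJ6ValAt 𝒩 V c) :
    𝒩.oH V h.hor (𝒩.t - algebraMap L F c) = 1 := by
  rw [← mltj6_valAt_gV h]
  exact 𝒩.oH_gV_self h.hor

/-- `t − c` is a unit at the other horizontal valuation rings through the node -/
theorem mltj6_valAt_other (h : MltJ6ValAt 𝒩 V c) {V' : ValuationSubring F} (hV' : V' ∈ 𝒩.hor)
    (hne : V' ≠ V) : 𝒩.oH V' hV' (𝒩.t - algebraMap L F c) = 0 := by
  rw [← mltj6_valAt_gV h]
  exact 𝒩.oH_gV_other h.hor hV' hne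

/-- at most one horizontal valuation ring through the node with a given value of `t` -/
theorem mltj6_valAt_unique {V' : ValuationSubring F} (h : MltJ6ValAt 𝒩 V c)
    (h' : MltJ6ValAt 𝒩 V' c) : V' = V := by
  by_contra hne
  have h1 := mltj6_valAt_other h h'.hor hne
  haveI := 𝒩.P.dvr V' h'.hor.1
  have h2 : 0 < dlOrd V' (𝒩.t - algebraMap L F c) :=
    (dl_valuation_lt_one_iff V' (mltj6_valAt_sub_ne_zero h)).mp h'.val
  have h3 : 𝒩.oH V' h'.hor (𝒩.t - algebraMap L F c) = dlOrd V' (𝒩.t - algebraMap L F c) := rfl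
  omega

theorem mltj6_valAt_ne_zero (h : MltJ6ValAt 𝒩 V c) : c ≠ 0 := by
  rintro rfl
  have h1 := h.val
  rw [map_zero, sub_zero] at h1
  haveI := 𝒩.P.dvr V h.hor.1
  have h2 : 0 < dlOrd V 𝒩.t := (dl_valuation_lt_one_iff V 𝒩.t_ne_zero).mp h1
  have h3 : dlOrd V 𝒩.t = 0 := 𝒩.oH_t h.hor
  omega

theorem mltj6_valAt_pos (h : MltJ6ValAt 𝒩 V c) : 0 < dlOrd 𝒩.O c := by
  have hc0 := mltj6_valAt_ne_zero h
  have h1 : 0 ≤ dlOrd 𝒩.O c := by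
    rcases (dln_mem_O_iff 𝒩.toDlLocal).mp h.mem_O with h0 | h0
    · exact absurd h0 hc0
    · exact h0
  rcases h1.lt_or_eq with h2 | h2
  · exact h2
  · exfalso
    -- `c` is a unit of `O`, so `t − c` is a unit of `A`
    have hu : 𝒩.O.valuation c = 1 := (dl_valuation_eq_one_iff 𝒩.O hc0).mpr h2.symm
    have hU : 𝒩.IsU (algebraMap L F c) := dln_isU_of_unit_O 𝒩.toDlLocal hu
    have hU' : 𝒩.IsU (-algebraMap L F c) := by
      have : -algebraMap L F c = algebraMap L F c * (-1) := by ring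
      rw [this]
      refine hU.mul 𝒩.toDlLocal ⟨𝒩.A.neg_mem 𝒩.A.one_mem, ?_, neg_ne_zero.mpr one_ne_zero⟩
      rw [inv_neg, inv_one]
      exact 𝒩.A.neg_mem 𝒩.A.one_mem
    have hU2 : 𝒩.IsU (-algebraMap L F c + 𝒩.t) :=
      dln_isU_add_nonunit 𝒩.toDlLocal hU' 𝒩.ht 𝒩.par.t_not_isU
    have e : -algebraMap L F c + 𝒩.t = 𝒩.t - algebraMap L F c := by ring
    rw [e] at hU2
    have h3 := hU2.oH 𝒩.toDlLocal h.hor
    have h4 := mltj6_valAt_oH h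
    omega

theorem mltj6_valAt_lt (h : MltJ6ValAt 𝒩 V c) : dlOrd 𝒩.O c < 𝒩.w := by
  by_contra hcon
  push Not at hcon
  have hc0 := mltj6_valAt_ne_zero h
  have hcF : algebraMap L F c ≠ 0 := (_root_.map_ne_zero _).mpr hc0
  obtain ⟨hW, hW', hH⟩ := dln_const 𝒩.toDlLocal hc0
  -- `c₁ = c / ϖ ^ w`
  have hpi0 : 𝒩.pi ≠ 0 := dln_pi_ne_zero 𝒩.toDlLocal
  set c₁ : F := algebraMap L F c / 𝒩.pi ^ 𝒩.w with hc₁
  have hc₁0 : c₁ ≠ 0 := div_ne_zero hcF (pow_ne_zero _ hpi0)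
  have e1 : 𝒩.oW c₁ = dlOrd 𝒩.O c - 𝒩.w := by
    rw [hc₁, dln_oW_div 𝒩.toDlLocal hcF (pow_ne_zero _ hpi0), dln_oW_pow, dln_oW_pi]
    have : 𝒩.oW (algebraMap L F c) = dlOrd 𝒩.O c := hW
    rw [this]; ring
  have e2 : 𝒩.oW' c₁ = dlOrd 𝒩.O c - 𝒩.w := by
    rw [hc₁, dln_oW'_div 𝒩.toDlLocal hcF (pow_ne_zero _ hpi0), dln_oW'_pow, dln_oW'_pi]
    have : 𝒩.oW' (algebraMap L F c) = dlOrd 𝒩.O c := hW'
    rw [this]; ring
  have e3 : ∀ (V' : ValuationSubring F) (hV' : V' ∈ 𝒩.hor), 𝒩.oH V' hV' c₁ = 0 := by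
    intro V' hV'
    rw [hc₁, dln_oH_div 𝒩.toDlLocal hV' hcF (pow_ne_zero _ hpi0), dln_oH_pow, dln_oH_pi]
    have : 𝒩.oH V' hV' (algebraMap L F c) = 0 := hH V' hV'
    rw [this]; ring
  have hc₁A : c₁ ∈ 𝒩.A :=
    dln_mem_A_of 𝒩.toDlLocal (by omega) (by omega) (fun V' hV' => by rw [e3 V' hV'])
  -- `c₁ t'` is a non-unit of `A`
  have hnu : ¬ 𝒩.IsU (c₁ * 𝒩.t') := by
    apply dln_not_isU_of_oW_pos 𝒩.toDlLocal
    right
    rw [dln_oW_mul 𝒩.toDlLocal hc₁0 𝒩.t'_ne_zero, 𝒩.oW_t', e1]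
    have := 𝒩.hw
    omega
  have hmem : -(c₁ * 𝒩.t') ∈ 𝒩.A := 𝒩.A.neg_mem (𝒩.A.mul_mem hc₁A 𝒩.ht')
  have hnu' : ¬ 𝒩.IsU (-(c₁ * 𝒩.t')) := by
    intro hU
    apply hnu
    have : c₁ * 𝒩.t' = -(c₁ * 𝒩.t') * (-1) := by ring
    rw [this]
    refine hU.mul 𝒩.toDlLocal ⟨𝒩.A.neg_mem 𝒩.A.one_mem, ?_, neg_ne_zero.mpr one_ne_zero⟩
    rw [inv_neg, inv_one]
    exact 𝒩.A.neg_mem 𝒩.A.one_mem
  have hU : 𝒩.IsU (1 + -(c₁ * 𝒩.t')) :=
    dln_isU_add_nonunit 𝒩.toDlLocal (dln_isU_one 𝒩.toDlLocal) hmem hnu'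
  -- `t' (t − c) = ϖ ^ w (1 − c₁ t')`
  have key : 𝒩.t' * (𝒩.t - algebraMap L F c) = 𝒩.pi ^ 𝒩.w * (1 + -(c₁ * 𝒩.t')) := by
    have h1 : 𝒩.t * 𝒩.t' = 𝒩.pi ^ 𝒩.w := 𝒩.tt'
    have h2 : 𝒩.pi ^ 𝒩.w * c₁ = algebraMap L F c := by
      rw [hc₁]; field_simp
    calc 𝒩.t' * (𝒩.t - algebraMap L F c) = 𝒩.t * 𝒩.t' - algebraMap L F c * 𝒩.t' := by ring
      _ = 𝒩.pi ^ 𝒩.w - 𝒩.pi ^ 𝒩.w * c₁ * 𝒩.t' := by rw [h1, h2]
      _ = _ := by ring
  have h5 := congrArg (𝒩.oH V h.hor) key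
  rw [dln_oH_mul 𝒩.toDlLocal h.hor 𝒩.t'_ne_zero (mltj6_valAt_sub_ne_zero h), 𝒩.oH_t' h.hor,
    mltj6_valAt_oH h, dln_oH_mul 𝒩.toDlLocal h.hor (pow_ne_zero _ hpi0) hU.2.2, dln_oH_pow,
    dln_oH_pi, hU.oH 𝒩.toDlLocal h.hor] at h5
  omega

/-- **the weight of a rational horizontal valuation ring**: `κ(V) = w − v(c)` -/
theorem mltj6_valAt_kap (h : MltJ6ValAt 𝒩 V c) : mltj6Kap 𝒩 V = 𝒩.w - dlOrd 𝒩.O c := by
  obtain ⟨-, -, hW, hW', hs⟩ := mltj6_t_sub 𝒩 (mltj6_valAt_ne_zero h) (mltj6_valAt_pos h)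
    (mltj6_valAt_lt h)
  rw [mltj6Kap_def, mltj6_valAt_gV' h, hs, hW, hW']
  ring

variable (𝒩)

/-- **existence of the zero of `t − c` through the node** (from the exact conservation law) -/
theorem mltj6_exists_valAt {c : L} (hc : c ≠ 0) (hj : 0 < dlOrd 𝒩.O c) (hjw : dlOrd 𝒩.O c < 𝒩.w) :
    ∃ V : ValuationSubring F, MltJ6ValAt 𝒩 V c := by
  classical
  obtain ⟨h1, h2⟩ := mltj6_law_t_sub 𝒩 hc hj hjw
  obtain ⟨hne, -, -, -, -⟩ := mltj6_t_sub 𝒩 hc hj hjw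
  have h3 : ∃ V ∈ 𝒩.supp (𝒩.t - algebraMap L F c),
      𝒩.oHt V (𝒩.t - algebraMap L F c) * mltj6Kap 𝒩 V ≠ 0 := by
    by_contra hcon
    push Not at hcon
    rw [Finset.sum_eq_zero hcon] at h1
    omega
  obtain ⟨V, -, hV⟩ := h3
  have hVhor : V ∈ 𝒩.hor := by
    by_contra hnot
    rw [mltj6_oHt_of_not_mem 𝒩 hnot, zero_mul] at hV
    exact hV rfl
  have h4 : 𝒩.oH V hVhor (𝒩.t - algebraMap L F c) ≠ 0 := by
    intro h0
    rw [𝒩.oHt_eq hVhor, h0, zero_mul] at hV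
    exact hV rfl
  have h5 := h2 V hVhor
  refine ⟨V, ⟨hVhor, (dln_mem_O_iff 𝒩.toDlLocal).mpr (Or.inr hj.le), ?_⟩⟩
  haveI := 𝒩.P.dvr V hVhor.1
  refine (dl_valuation_lt_one_iff V hne).mpr ?_
  have h6 : 𝒩.oH V hVhor (𝒩.t - algebraMap L F c) = dlOrd V (𝒩.t - algebraMap L F c) := rfl
  omega

end Fermat.Agent.MLT
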