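/-
MLT / [L2] / P6 (helper8), part 3: **DEFINITION of the positions and of the slope map** (literal
interface for P7 / P8).

`𝔓 | p` an `FFPlace`, `N'` rigid, `p ∤ N'`, `F̄ = modularFunctionFieldBar (N' p)` (over `ℚ̄`),
`E = tbBarF 𝔓 N'` (function field of `Z = X₀(N')` over `𝕜 = 𝔽̄_p`).

* `MltJ6NodeAt 𝔓 N' h h49 H P` : a NODE DATUM at the inertia level `H` over the place `P` of `Z`:
  a uniformiser `ϖ` of `O_H`, a setup `su` of chart 1 (`dlxChart1 𝔓 H hϖ N' h h49 su hx hxb`), a node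
  `(P, Q')` of its gluing datum, and ANY normal form `𝒩 : DlNode L_H F_H` of the local ring of the
  node (`𝒩.toDlLocal = C.toLocal hs …`; `t · t' = ϖ ^ w`).
* `mltj6Through d Q` : the place `Q` of `F̄ / ℚ̄` passes through the node: `Q ∩ F_H ∈ hor(𝒩)`.
* `MltJ6PosAt d Q r` : `Q` passes through the node and
      `r = 1 − v_𝔓(θ) / (w · v_𝔓(ϖ))`,   `θ ∈ ℚ̄` the value of `Φ_H t` at `Q`.
* `mltj6Pos 𝔓 N' h h49 P Q : ℚ` : **the position of `Q` in the annulus of the node over `P`**,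
  defined through the node data of the level `⊤` (`0` if `Q` does not pass through the node or if
  `P` is not supersingular).
* `mltj6Sl 𝔓 N' h h49 : Divisor ℚ̄ F̄ →+ (Place 𝕜 E → ℚ)` : **the slope map**
  `sl D P = ∑_Q D(Q) · pos_P(Q)`.
* The characterisation at every level (proved in `P6/Char*.lean`):
  `MltJ6CharI`  : `MltJ6PosAt d Q r → mltj6Pos … P Q = r` for a node datum `d` at ANY level `H`;
  `MltJ6CharII` : `¬ mltj6Through d Q → mltj6Pos … P Q = 0`.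
-/
import Mathlib
import Fermat.Agent.Lib.Delta.Core.Main
import Fermat.Agent.Lib.MLT.L2.P6.NodeRat

set_option autoImplicit false
set_option linter.unusedSectionVars false
set_option linter.unusedVariables false
set_option linter.style.haveILetI false
set_option synthInstance.maxHeartbeats 400000
set_option maxHeartbeats 1000000

open HahnSeries ModularCurve Fermat.Agent.T1 Fermat.Agent.T2 Fermat.Agent.T4 Fermat.Agent.TW
  Fermat.Agent.S05Lib Fermat.Agent.S24Lib IntermediateField AlgebraicCurve Fermat.Agent.Curve Module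
  Fermat.Agent.S33 Fermat.Agent.S33Q Fermat.Agent.Delta Fermat.Agent.Curve.PlaceAux

noncomputable section

namespace Fermat.Agent.MLT

local notation "Qb" => AlgebraicClosure ℚ

attribute [local instance] t2i_dvr t2i_isAlgClosed t2i_charP t2i_fact
attribute [local instance 10000] dliAlgF dliAlgE

section Defs

variable (𝔓 : FFPlace) (N' : ℕ) [NeZero N'] (h : ¬ 𝔓.p ∣ N') (h49 : 4 ∣ N' ∨ 9 ∣ N')

/-- **a node datum** of chart 1 of `X₀(N' p)` at the inertia level `H`, over the place `P` of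
`Z = X₀(N')_{𝔽̄_p}` -/
structure MltJ6NodeAt (H : Subgroup 𝔓.I) [H.FiniteIndex]
    (P : Place (IsLocalRing.ResidueField ↥𝔓.P) ↥(tbBarF 𝔓 N')) where
  /-- a uniformiser of `O_H` -/
  ϖ : ↥(tbFixO 𝔓 H)
  hϖ : Irreducible ϖ
  n : ℕ
  /-- the setup of chart 1 -/
  su : T2Setup (t2iBase2Fix 𝔓 H N' h) (Fin n)
  hx : su.x = t2gaX 𝔓 H N' h (𝔓.p ^ 2)
  hxb : su.xb = (s33qXi 𝔓 N', s33qXi 𝔓 N')
  /-- the second branch of the node -/
  Q' : Place (IsLocalRing.ResidueField ↥𝔓.P) ↥(tbBarF 𝔓 N')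
  hs : (P, Q') ∈ (dlxChart1 𝔓 H hϖ N' h h49 su hx hxb).G.nodes
  /-- a normal form of the local ring of the node -/
  𝒩 : DlNode ↥(tbFix 𝔓 H) ↥(tbLevF 𝔓 (N' * 𝔓.p) H)
  h𝒩 : 𝒩.toDlLocal = (dlxChart1 𝔓 H hϖ N' h h49 su hx hxb).toLocal hs
    (dlxChart1_finAt 𝔓 H hϖ N' h h49 su hx hxb _ _) (dlx_hensH 𝔓 H hϖ N')

variable {𝔓 N' h h49}

/-- the chart of a node datum -/
abbrev MltJ6NodeAt.C {H : Subgroup 𝔓.I} [H.FiniteIndex]
    {P : Place (IsLocalRing.ResidueField ↥𝔓.P) ↥(tbBarF 𝔓 N')} (d : MltJ6NodeAt 𝔓 N' h h49 H P) :=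
  dlxChart1 𝔓 H d.hϖ N' h h49 d.su d.hx d.hxb

/-- the restriction to the level `H` of a place of `F̄ / ℚ̄` -/
def mltj6Res (H : Subgroup 𝔓.I) (N : ℕ) [NeZero N]
    (Q : Place Qb ↥(modularFunctionFieldBar N)) : ValuationSubring ↥(tbLevF 𝔓 N H) :=
  Q.toValuationSubring.comap (tbPhiF 𝔓 N H)

theorem mem_mltj6Res {H : Subgroup 𝔓.I} {N : ℕ} [NeZero N]
    {Q : Place Qb ↥(modularFunctionFieldBar N)} {f : ↥(tbLevF 𝔓 N H)} :
    f ∈ mltj6Res H N Q ↔ tbPhiF 𝔓 N H f ∈ Q.toValuationSubring := Iff.rfl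

/-- the place `Q` of `F̄ / ℚ̄` passes through the node -/
def mltj6Through {H : Subgroup 𝔓.I} [H.FiniteIndex]
    {P : Place (IsLocalRing.ResidueField ↥𝔓.P) ↥(tbBarF 𝔓 N')} (d : MltJ6NodeAt 𝔓 N' h h49 H P)
    (Q : Place Qb ↥(modularFunctionFieldBar (N' * 𝔓.p))) : Prop :=
  mltj6Res H (N' * 𝔓.p) Q ∈ d.𝒩.hor

/-- `Q` passes through the node of the datum `d` and has the position `r` in its annulus:
`r = 1 − v_𝔓(θ) / (w · v_𝔓(ϖ))`, `θ` the value of the coordinate `t` at `Q` -/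
def MltJ6PosAt {H : Subgroup 𝔓.I} [H.FiniteIndex]
    {P : Place (IsLocalRing.ResidueField ↥𝔓.P) ↥(tbBarF 𝔓 N')} (d : MltJ6NodeAt 𝔓 N' h h49 H P)
    (Q : Place Qb ↥(modularFunctionFieldBar (N' * 𝔓.p))) (r : ℚ) : Prop :=
  mltj6Through d Q ∧ ∃ θ : Qb,
    OrdGE Q (tbPhiF 𝔓 (N' * 𝔓.p) H d.𝒩.t -
      algebraMap Qb ↥(modularFunctionFieldBar (N' * 𝔓.p)) θ) 1 ∧
    r = 1 - 𝔓.v.ord θ / ((d.𝒩.w : ℚ) * 𝔓.v.ord ((d.ϖ : ↥(tbFix 𝔓 H)) : Qb))

variable (𝔓 N' h h49)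

open Classical in
/-- **the position** of the place `Q` of `X₀(N' p)_{ℚ̄}` in the annulus of the node over the place
`P` of `Z` (`0` if `Q` does not pass through the node), defined at the level `⊤` -/
def mltj6Pos (P : Place (IsLocalRing.ResidueField ↥𝔓.P) ↥(tbBarF 𝔓 N'))
    (Q : Place Qb ↥(modularFunctionFieldBar (N' * 𝔓.p))) : ℚ :=
  if hex : ∃ r : ℚ, ∃ d : MltJ6NodeAt 𝔓 N' h h49 ⊤ P, MltJ6PosAt d Q r then hex.choose else 0

/-- **the slope map**: `sl D P = ∑_Q D(Q) · pos_P(Q)` -/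
def mltj6Sl : Divisor Qb ↥(modularFunctionFieldBar (N' * 𝔓.p)) →+
    (Place (IsLocalRing.ResidueField ↥𝔓.P) ↥(tbBarF 𝔓 N') → ℚ) :=
  Finsupp.liftAddHom fun Q =>
    { toFun := fun n P => (n : ℚ) * mltj6Pos 𝔓 N' h h49 P Q
      map_zero' := by
        funext P
        simp
      map_add' := by
        intro a b
        funext P
        simp [add_mul] }

theorem mltj6Sl_apply (D : Divisor Qb ↥(modularFunctionFieldBar (N' * 𝔓.p)))
    (P : Place (IsLocalRing.ResidueField ↥𝔓.P) ↥(tbBarF 𝔓 N')) :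
    mltj6Sl 𝔓 N' h h49 D P = D.sum fun Q n => (n : ℚ) * mltj6Pos 𝔓 N' h h49 P Q := by
  unfold mltj6Sl
  rw [Finsupp.liftAddHom_apply, Finsupp.sum]
  rw [Finset.sum_apply]
  rfl

theorem mltj6Sl_single (Q : Place Qb ↥(modularFunctionFieldBar (N' * 𝔓.p))) (n : ℤ)
    (P : Place (IsLocalRing.ResidueField ↥𝔓.P) ↥(tbBarF 𝔓 N')) :
    mltj6Sl 𝔓 N' h h49 (Finsupp.single Q n) P = (n : ℚ) * mltj6Pos 𝔓 N' h h49 P Q := by
  rw [mltj6Sl_apply, Finsupp.sum_single_index]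
  simp

end Defs

/-! ### The characterisation at every level (contracts, proved in `P6/Char*.lean`) -/

/-- **(CHAR-I)**: a node datum at ANY level computes the position -/
def MltJ6CharI : Prop :=
  ∀ (𝔓 : FFPlace) (N' : ℕ) [NeZero N'] (h : ¬ 𝔓.p ∣ N') (h49 : 4 ∣ N' ∨ 9 ∣ N')
    (H : Subgroup 𝔓.I) [H.FiniteIndex]
    (P : Place (IsLocalRing.ResidueField ↥𝔓.P) ↥(tbBarF 𝔓 N')) (d : MltJ6NodeAt 𝔓 N' h h49 H P)
    (Q : Place Qb ↥(modularFunctionFieldBar (N' * 𝔓.p))) (r : ℚ),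
    MltJ6PosAt d Q r → mltj6Pos 𝔓 N' h h49 P Q = r

/-- **(CHAR-II)**: a place which does not pass through the node at SOME level has position `0` -/
def MltJ6CharII : Prop :=
  ∀ (𝔓 : FFPlace) (N' : ℕ) [NeZero N'] (h : ¬ 𝔓.p ∣ N') (h49 : 4 ∣ N' ∨ 9 ∣ N')
    (H : Subgroup 𝔓.I) [H.FiniteIndex]
    (P : Place (IsLocalRing.ResidueField ↥𝔓.P) ↥(tbBarF 𝔓 N')) (d : MltJ6NodeAt 𝔓 N' h h49 H P)
    (Q : Place Qb ↥(modularFunctionFieldBar (N' * 𝔓.p))),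
    ¬ mltj6Through d Q → mltj6Pos 𝔓 N' h h49 P Q = 0

end Fermat.Agent.MLT
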