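/-
MLT / [L2] / P6 (helper8), part 5: **THICK at the level `⊤`**: every node of chart 1 of `X₀(N' p)` over
the unramified base `O_⊤` has thickness `1` (the model is regular at its double points).

* `mltj6_hor_eq` : the symmetric chart `x_s = x · w x` and the chart `x = j ^ Q − j` have the same
  horizontal valuation rings (generic level);
* `mltj6_vals_top` : the presentation of `dlxChart1 𝔓 ⊤ …` has the same valuation rings as helper6/7's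
  `t4rLevFixPres1 𝔓 N' h hQ` (`Q = p ²`);
* `mltj6LevFixD` : the package `T4rLevFixP1` with `P1 := (dlxChart1 𝔓 ⊤ …).P`, hence REG1-G
  (`t4rgf_regG`) for it: `mltj6_regG_top`;
* **`mltj6_thick_top`** : `𝒩.w = 1` for EVERY normal form `𝒩` of the local ring of a node of
  `dlxChart1 𝔓 ⊤ …`.
-/
import Mathlib
import Fermat.Agent.Lib.T4.Reg.LevFixOut
import Fermat.Agent.Lib.Delta.Core.Main
import Fermat.Agent.Lib.MLT.L2.P6.NodeIndep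

set_option autoImplicit false
set_option linter.unusedSectionVars false
set_option linter.unusedVariables false
set_option linter.style.haveILetI false
set_option synthInstance.maxHeartbeats 400000
set_option maxHeartbeats 1000000

open HahnSeries ModularCurve Fermat.Agent.T1 Fermat.Agent.T2 Fermat.Agent.T4 Fermat.Agent.TW
  Fermat.Agent.S05Lib Fermat.Agent.S24Lib IntermediateField AlgebraicCurve Fermat.Agent.Curve Module
  Fermat.Agent.S33 Fermat.Agent.S33Q Fermat.Agent.Delta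

noncomputable section

namespace Fermat.Agent.MLT

local notation "Qb" => AlgebraicClosure ℚ

/-! ### the horizontal valuation rings of the two charts -/

section Hor

variable {L : Type*} [Field L] [Algebra ℚ L] {N' q : ℕ} [NeZero N'] [hq : Fact q.Prime]
  (W : T2iAL L N' q)

include W in
/-- `j(q ^ q)` is regular wherever `j` is -/
theorem mltj6_taGen_mem {V : ValuationSubring ↥(TaF L (N' * q))}
    (hL : ∀ c : L, algebraMap L ↥(TaF L (N' * q)) c ∈ V) (hj : taJ (N' * q) ∈ V) :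
    taGen (N' * q) (dvd_mul_left q N') ∈ V := by
  set V' : ValuationSubring ↥(TaF L (N' * q)) :=
    V.comap (W.w : ↥(TaF L (N' * q)) →+* ↥(TaF L (N' * q))) with hV'
  have hL' : ∀ c : L, algebraMap L ↥(TaF L (N' * q)) c ∈ V' := by
    intro c
    show W.w (algebraMap L ↥(TaF L (N' * q)) c) ∈ V
    rw [W.w.commutes]
    exact hL c
  have h1 : taGen (N' * q) (dvd_mul_left q N') ∈ V' := by
    show W.w (taGen (N' * q) (dvd_mul_left q N')) ∈ V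
    rw [dlxv_w_taGen]
    exact hj
  have h2 : taJ (N' * q) ∈ V' := dlxv_taJ_mem hL' h1
  have h3 : W.w (taJ (N' * q)) ∈ V := h2
  rwa [dlxv_w_taJ] at h3

/-- **the symmetric chart and the chart `j ^ Q − j` have the same horizontal valuation rings** -/
theorem mltj6_hor_eq {Q : ℕ} (hQ : 2 ≤ Q) :
    t4vpHor L (dlxvX W Q) = t4vpHor L (t4ri1X L (N' * q) Q) := by
  ext V
  constructor
  · rintro ⟨v, rfl, hx⟩
    refine ⟨v, rfl, ?_⟩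
    have hL : ∀ c : L, algebraMap L ↥(TaF L (N' * q)) c ∈ v.toValuationSubring :=
      v.algebraMap_mem'
    have hj := dlxv_taJ_mem_of_chart W hQ hL hx
    exact sub_mem (pow_mem hj Q) hj
  · rintro ⟨v, rfl, hx⟩
    refine ⟨v, rfl, ?_⟩
    have hL : ∀ c : L, algebraMap L ↥(TaF L (N' * q)) c ∈ v.toValuationSubring :=
      v.algebraMap_mem'
    have hj : taJ (N' * q) ∈ v.toValuationSubring := by
      by_contra hj
      have h1 := dlxv_pow_sub_notMem v.toValuationSubring hj hQ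
      have h2 : v.toValuationSubring.valuation (t4ri1X L (N' * q) Q) ≤ 1 :=
        (v.toValuationSubring.valuation_le_one_iff _).mpr hx
      exact absurd h2 (not_le.mpr h1)
    have hg := mltj6_taGen_mem W hL hj
    have h3 : W.w (taJ (N' * q) ^ Q - taJ (N' * q)) =
        taGen (N' * q) (dvd_mul_left q N') ^ Q - taGen (N' * q) (dvd_mul_left q N') := by
      rw [map_sub, map_pow, dlxv_w_taJ]
    show dlxvX W Q ∈ v.toValuationSubring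
    unfold dlxvX
    rw [h3]
    exact mul_mem (sub_mem (pow_mem hj Q) hj) (sub_mem (pow_mem hg Q) hg)

end Hor

/-! ### the presentation of chart 1 at the level `⊤` -/

section Top

attribute [local instance] t2i_dvr t2i_isAlgClosed t2i_charP t2i_fact
attribute [local instance 10000] dliAlgF dliAlgE

variable (𝔓 : FFPlace) {ϖ : ↥(tbFixO 𝔓 (⊤ : Subgroup 𝔓.I))} (hϖ : Irreducible ϖ)
  (N' : ℕ) [NeZero N'] (h : ¬ 𝔓.p ∣ N') (h49 : 4 ∣ N' ∨ 9 ∣ N') {n : ℕ}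
  (su : T2Setup (t2iBase2Fix 𝔓 ⊤ N' h) (Fin n))
  (hx : su.x = t2gaX 𝔓 ⊤ N' h (𝔓.p ^ 2)) (hxb : su.xb = (s33qXi 𝔓 N', s33qXi 𝔓 N'))

theorem mltj6_two_le_sq : 2 ≤ 𝔓.p ^ 2 := by
  have := 𝔓.hp.two_le
  nlinarith

/-- the presentation of chart 1 at the level `⊤` has the same valuation rings as `t4rLevFixPres1` -/
theorem mltj6_vals_top :
    (dlxChart1 𝔓 ⊤ hϖ N' h h49 su hx hxb).P.vals =
      (t4rLevFixPres1 𝔓 N' h (mltj6_two_le_sq 𝔓)).vals := by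
  rw [(dlxChart1 𝔓 ⊤ hϖ N' h h49 su hx hxb).hvals, t4rLevFixPres1_vals, dlxChart1_x, hx]
  have h1 : t4vpHor ↥(tbFix 𝔓 (⊤ : Subgroup 𝔓.I)) (t2gaX 𝔓 ⊤ N' h (𝔓.p ^ 2)) =
      t4vpHor ↥(tbFix 𝔓 (⊤ : Subgroup 𝔓.I))
        (t4ri1X ↥(tbFix 𝔓 (⊤ : Subgroup 𝔓.I)) (N' * 𝔓.p) (𝔓.p ^ 2)) :=
    mltj6_hor_eq (t2iALFix 𝔓 ⊤ N' h) (mltj6_two_le_sq 𝔓)
  rw [h1]
  rfl

/-- membership in the two chart rings -/
theorem mltj6_mem_B_top (f : ↥(tbLevF 𝔓 (N' * 𝔓.p) (⊤ : Subgroup 𝔓.I))) :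
    f ∈ (dlxChart1 𝔓 ⊤ hϖ N' h h49 su hx hxb).P.B ↔
      f ∈ (t4rLevFixPres1 𝔓 N' h (mltj6_two_le_sq 𝔓)).B := by
  rw [T4Pres.mem_iff, T4Pres.mem_iff, mltj6_vals_top]

/-- **the level-`N' p` package of REG1 with `P1 :=` the presentation of chart 1 at the level `⊤`** -/
def mltj6LevFixD : T4rLevFixP1 𝔓 N' h (mltj6_two_le_sq 𝔓) where
  P1 := (dlxChart1 𝔓 ⊤ hϖ N' h h49 su hx hxb).P
  Vinf_mem := (dlxChart1 𝔓 ⊤ hϖ N' h h49 su hx hxb).V₁_mem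
  V0_mem := (dlxChart1 𝔓 ⊤ hϖ N' h h49 su hx hxb).V₂_mem
  vert1 := by
    intro V hV hlt
    rw [mltj6_vals_top] at hV
    exact (t4rLevFixD0 𝔓 N' h (mltj6_two_le_sq 𝔓)).vert1 V hV hlt
  α_B := fun b hb => (mltj6_mem_B_top 𝔓 hϖ N' h h49 su hx hxb _).mpr
    ((t4rLevFixD0 𝔓 N' h (mltj6_two_le_sq 𝔓)).α_B b hb)
  β_B := fun b hb => (mltj6_mem_B_top 𝔓 hϖ N' h h49 su hx hxb _).mpr
    ((t4rLevFixD0 𝔓 N' h (mltj6_two_le_sq 𝔓)).β_B b hb)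
  int1 := fun x hx' => (t4rLevFixD0 𝔓 N' h (mltj6_two_le_sq 𝔓)).int1 x
    ((mltj6_mem_B_top 𝔓 hϖ N' h h49 su hx hxb _).mp hx')

/-- **REG1-G for the presentation of chart 1 at the level `⊤`** -/
theorem mltj6_regG_top :
    T4rtRegG (tbFixO 𝔓 ⊤) (tbFixRes 𝔓 ⊤) (tbFixRes_surjective 𝔓 ⊤) (t2iALFix 𝔓 ⊤ N' h)
      (dlxChart1 𝔓 ⊤ hϖ N' h h49 su hx hxb).P :=
  t4rgf_regG 𝔓 N' h (mltj6_two_le_sq 𝔓) h49 (mltj6LevFixD 𝔓 hϖ N' h h49 su hx hxb)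

/-- `dlOrd` only depends on the valuation ring -/
theorem mltj6_dlOrd_congr {K : Type*} [Field K] {V V' : ValuationSubring K}
    [IsDiscreteValuationRing V] [IsDiscreteValuationRing V'] (hVV : V = V') (f : K) :
    dlOrd V f = dlOrd V' f := by
  subst hVV
  rfl

/-- **THICK at the level `⊤`**: every normal form of the local ring of a node of chart 1 over the
unramified base has thickness `1` -/
theorem mltj6_thick_top
    {s : Place (IsLocalRing.ResidueField ↥𝔓.P) ↥(tbBarF 𝔓 N') ×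
      Place (IsLocalRing.ResidueField ↥𝔓.P) ↥(tbBarF 𝔓 N')}
    (hs : s ∈ (dlxChart1 𝔓 ⊤ hϖ N' h h49 su hx hxb).G.nodes)
    (𝒩 : DlNode ↥(tbFix 𝔓 (⊤ : Subgroup 𝔓.I)) ↥(tbLevF 𝔓 (N' * 𝔓.p) (⊤ : Subgroup 𝔓.I)))
    (h𝒩 : 𝒩.toDlLocal = (dlxChart1 𝔓 ⊤ hϖ N' h h49 su hx hxb).toLocal hs
      (dlxChart1_finAt 𝔓 ⊤ hϖ N' h h49 su hx hxb _ _) (dlx_hensH 𝔓 ⊤ hϖ N')) :
    𝒩.w = 1 := by
  set C := dlxChart1 𝔓 ⊤ hϖ N' h h49 su hx hxb with hC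
  obtain ⟨a, b, ha, hb, hab, ha1, ha2, hb1, hb2⟩ :=
    mltj6_regG_top 𝔓 hϖ N' h h49 su hx hxb (C.n₁ s.1 (C.node_fin₁ hs)) inferInstance
      (C.V₁_through _ _) (C.V₂_through_node hs)
  -- the dictionary
  have hW : 𝒩.W = C.V₁ := congrArg DlLocal.W h𝒩
  have hW' : 𝒩.W' = C.V₂ := congrArg DlLocal.W' h𝒩
  have hO : 𝒩.O = tbFixO 𝔓 (⊤ : Subgroup 𝔓.I) := congrArg DlLocal.O h𝒩
  have hB : 𝒩.P.B = C.P.loc (C.n₁ s.1 (C.node_fin₁ hs)) :=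
    congrArg (fun 𝒩 : DlLocal _ _ => 𝒩.P.B) h𝒩
  have hvals : 𝒩.P.vals = C.P.through (C.n₁ s.1 (C.node_fin₁ hs)) :=
    congrArg (fun 𝒩 : DlLocal _ _ => 𝒩.P.vals) h𝒩
  -- `p` as a constant
  have hp0 : ((𝔓.p : ℕ) : ↥(tbFix 𝔓 (⊤ : Subgroup 𝔓.I))) ≠ 0 := by
    haveI : CharZero ↥(tbFix 𝔓 (⊤ : Subgroup 𝔓.I)) := algebraRat.charZero _
    exact_mod_cast 𝔓.hp.ne_zero
  have hpF : ((𝔓.p : ℕ) : ↥(tbLevF 𝔓 (N' * 𝔓.p) (⊤ : Subgroup 𝔓.I))) =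
      algebraMap ↥(tbFix 𝔓 (⊤ : Subgroup 𝔓.I)) ↥(tbLevF 𝔓 (N' * 𝔓.p) (⊤ : Subgroup 𝔓.I))
        ((𝔓.p : ℕ) : ↥(tbFix 𝔓 (⊤ : Subgroup 𝔓.I))) := (map_natCast _ _).symm
  have hordp : dlOrd 𝒩.O ((𝔓.p : ℕ) : ↥(tbFix 𝔓 (⊤ : Subgroup 𝔓.I))) = 1 := by
    rw [mltj6_dlOrd_congr hO]
    have h1 := dlOrd_coe_irreducible (tbFixO 𝔓 (⊤ : Subgroup 𝔓.I)) (t4cy_irreducible_p 𝔓)
    have h2 : ((((𝔓.p : ℕ) : ↥(tbFixO 𝔓 (⊤ : Subgroup 𝔓.I))) :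
        ↥(tbFix 𝔓 (⊤ : Subgroup 𝔓.I)))) = ((𝔓.p : ℕ) : ↥(tbFix 𝔓 (⊤ : Subgroup 𝔓.I))) := by
      simp
    rwa [h2] at h1
  obtain ⟨hcW, hcW', hcH⟩ := dln_const 𝒩.toDlLocal hp0
  rw [← hpF] at hcW hcW' hcH
  have hpF0 : ((𝔓.p : ℕ) : ↥(tbLevF 𝔓 (N' * 𝔓.p) (⊤ : Subgroup 𝔓.I))) ≠ 0 := by
    rw [hpF]
    exact (_root_.map_ne_zero _).mpr hp0
  -- `b ≠ 0`
  have hb0 : b ≠ 0 := by
    rintro rfl
    rw [map_zero] at hb1
    exact zero_ne_one hb1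
  have ha0 : a ≠ 0 := by
    rintro rfl
    rw [map_zero] at ha2
    exact zero_ne_one ha2
  have hbA : b ∈ 𝒩.A := by
    show b ∈ 𝒩.P.B
    rw [hB]
    exact hb
  have haA : a ∈ 𝒩.A := by
    show a ∈ 𝒩.P.B
    rw [hB]
    exact C.P.B_le_loc _ ha
  refine mltj6_w_eq_one 𝒩 hb0 ?_ ?_ ?_
  · -- `ord_W b = 0`
    have h1 : 𝒩.W.valuation b = 1 := by rw [hW]; exact hb1
    exact (dl_valuation_eq_one_iff 𝒩.W hb0).mp h1
  · -- `ord_W' b = 1`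
    have h1 : 𝒩.W'.valuation b =
        𝒩.W'.valuation ((𝔓.p : ℕ) : ↥(tbLevF 𝔓 (N' * 𝔓.p) (⊤ : Subgroup 𝔓.I))) := by
      rw [hW']; exact hb2
    have h2 := (dl_valuation_eq_iff 𝒩.W' hb0 hpF0).mp h1
    have h3 : 𝒩.oW' b = 𝒩.oW' ((𝔓.p : ℕ) : ↥(tbLevF 𝔓 (N' * 𝔓.p) (⊤ : Subgroup 𝔓.I))) := h2
    rw [h3, hcW', hordp]
  · -- no horizontal part
    intro V hV
    have hVt : V ∈ C.P.through (C.n₁ s.1 (C.node_fin₁ hs)) := by
      rw [← hvals]; exact hV.1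
    haveI := 𝒩.P.dvr V hV.1
    have h1 := hab V hVt
    have h2 := (dl_valuation_eq_iff V (mul_ne_zero ha0 hb0) hpF0).mp h1
    have h3 : 𝒩.oH V hV (a * b) =
        𝒩.oH V hV ((𝔓.p : ℕ) : ↥(tbLevF 𝔓 (N' * 𝔓.p) (⊤ : Subgroup 𝔓.I))) := h2
    rw [dln_oH_mul 𝒩.toDlLocal hV ha0 hb0, hcH V hV] at h3
    have h4 := dln_oH_nonneg 𝒩.toDlLocal haA hV
    have h5 := dln_oH_nonneg 𝒩.toDlLocal hbA hV
    omega

end Top

end Fermat.Agent.MLT
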