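/-
MLT / [L2] / P6 (helper8), part 6: **THICK at every level**: the thickness of every node of chart 1
of `X₀(N' p)` over `O_H` is the ramification index `e_H` (`p = η ϖ ^ e`).

* `mltj6_vert_law`   : `slope_𝒩(D_H) · w = 12 e` for the vertical unit `D_H = dlxVertD 𝔓 H N'` and ANY
  normal form `𝒩` of the local ring of a node of chart 1 at the level `H`;
* `mltj6_slope_vert_top` : `slope(D_⊤) = 12` at every node of the level `⊤`;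
* `mltj6_node_top`   : a node at the level `H` lies over a node of the level `⊤` (same first branch);
* **`mltj6_thick`**  : `d.𝒩.w = e` for every node datum `d` at the level `H`.
-/
import Mathlib
import Fermat.Agent.Lib.Delta.Core.Cases
import Fermat.Agent.Lib.MLT.L2.P6.SlDef
import Fermat.Agent.Lib.MLT.L2.P6.ThickTop

set_option autoImplicit false
set_option linter.unusedSectionVars false
set_option linter.unusedVariables false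
set_option linter.style.haveILetI false
set_option synthInstance.maxHeartbeats 400000
set_option maxHeartbeats 1000000

open HahnSeries ModularCurve Fermat.Agent.T1 Fermat.Agent.T2 Fermat.Agent.T4 Fermat.Agent.TW
  Fermat.Agent.S05Lib Fermat.Agent.S24Lib IntermediateField AlgebraicCurve Fermat.Agent.Curve Module
  Fermat.Agent.S33 Fermat.Agent.S33Q Fermat.Agent.Delta Fermat.Agent.Curve.PlaceAux

noncomputable section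

namespace Fermat.Agent.MLT

local notation "Qb" => AlgebraicClosure ℚ

attribute [local instance] t2i_dvr t2i_isAlgClosed t2i_charP t2i_fact
attribute [local instance 10000] dliAlgF dliAlgE

section Law

variable (𝔓 : FFPlace) (H : Subgroup 𝔓.I) [H.FiniteIndex] {ϖ : ↥(tbFixO 𝔓 H)}
  (hϖ : Irreducible ϖ) (N' : ℕ) [NeZero N'] (h : ¬ 𝔓.p ∣ N') (h49 : 4 ∣ N' ∨ 9 ∣ N') {n : ℕ}
  (su : T2Setup (t2iBase2Fix 𝔓 H N' h) (Fin n))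
  (hx : su.x = t2gaX 𝔓 H N' h (𝔓.p ^ 2)) (hxb : su.xb = (s33qXi 𝔓 N', s33qXi 𝔓 N'))

/-- **the slope law for the vertical unit**: `slope(D_H) · w = 12 e` at every node -/
theorem mltj6_vert_law
    {s : Place (IsLocalRing.ResidueField ↥𝔓.P) ↥(tbBarF 𝔓 N') ×
      Place (IsLocalRing.ResidueField ↥𝔓.P) ↥(tbBarF 𝔓 N')}
    (hs : s ∈ (dlxChart1 𝔓 H hϖ N' h h49 su hx hxb).G.nodes)
    (𝒩 : DlNode ↥(tbFix 𝔓 H) ↥(tbLevF 𝔓 (N' * 𝔓.p) H))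
    (h𝒩 : 𝒩.toDlLocal = (dlxChart1 𝔓 H hϖ N' h h49 su hx hxb).toLocal hs
      (dlxChart1_finAt 𝔓 H hϖ N' h h49 su hx hxb _ _) (dlx_hensH 𝔓 H hϖ N'))
    {η : ↥(tbFixO 𝔓 H)} (hη : IsUnit η) {e : ℕ}
    (hpe : (𝔓.p : ↥(tbFix 𝔓 H)) = (η : ↥(tbFix 𝔓 H)) * (ϖ : ↥(tbFix 𝔓 H)) ^ e) :
    𝒩.slope (dlxVertD 𝔓 H N') * 𝒩.w = 12 * (e : ℤ) := by
  set C := dlxChart1 𝔓 H hϖ N' h h49 su hx hxb with hC
  set T := dlqVert 𝔓 H hϖ N' h h49 su hx hxb with hT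
  have hW : 𝒩.W = C.V₁ := congrArg DlLocal.W h𝒩
  have hW' : 𝒩.W' = C.V₂ := congrArg DlLocal.W' h𝒩
  have hvals : 𝒩.P.vals = C.P.through (C.n₁ s.1 (C.node_fin₁ hs)) :=
    congrArg (fun 𝒩 : DlLocal _ _ => 𝒩.P.vals) h𝒩
  have hD0 : dlxVertD 𝔓 H N' ≠ 0 := dlxVertD_ne_zero 𝔓 H N'
  -- no horizontal part
  have hH : ∀ (V : ValuationSubring ↥(tbLevF 𝔓 (N' * 𝔓.p) H)) (hV : V ∈ 𝒩.hor),
      𝒩.oH V hV (dlxVertD 𝔓 H N') = 0 := by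
    intro V hV
    have hVt : V ∈ C.P.through (C.n₁ s.1 (C.node_fin₁ hs)) := by
      rw [← hvals]; exact hV.1
    haveI := 𝒩.P.dvr V hV.1
    have hVhor : V ∈ t4vpHor ↥(tbFix 𝔓 H) C.x := by
      rcases C.vals_cases hVt.1 with h1 | h1 | h1
      · exact absurd (h1.trans hW.symm) hV.2.1
      · exact absurd (h1.trans hW'.symm) hV.2.2
      · exact h1
    have h1 : V.valuation (dlxVertD 𝔓 H N') = 1 := T.hDhor V hVhor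
    exact (dl_valuation_eq_one_iff V hD0).mp h1
  have h1 := dln_slope_law 𝒩 hD0 hH
  have h2 : 𝒩.oW (dlxVertD 𝔓 H N') = 0 := by
    have h3 : 𝒩.W.valuation (dlxVertD 𝔓 H N') = 1 := by rw [hW]; exact T.hD1
    exact (dl_valuation_eq_one_iff 𝒩.W hD0).mp h3
  have h3 : 𝒩.oW' (dlxVertD 𝔓 H N') = 12 * (e : ℤ) := by
    haveI : IsDiscreteValuationRing ↥(dliO0 (tbFixO 𝔓 H) (tbFixRes 𝔓 H)
        (tbFixRes_surjective 𝔓 H) (t2iALFix 𝔓 H N' h)) := C.P.dvr _ C.V₂_mem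
    haveI : IsDiscreteValuationRing ↥C.V₂ := C.P.dvr _ C.V₂_mem
    have h4 := dlxVertD_ord_zero_of_unif 𝔓 H N' h hϖ hη hpe
    rw [← h4]
    exact mltj6_dlOrd_congr hW' _
  rw [h2, h3, sub_zero] at h1
  exact h1.symm

/-- the normal form `T.node hs` of `dlqVert` is a normal form of `C.toLocal hs …` -/
theorem mltj6_vertNode_toDlLocal
    {s : Place (IsLocalRing.ResidueField ↥𝔓.P) ↥(tbBarF 𝔓 N') ×
      Place (IsLocalRing.ResidueField ↥𝔓.P) ↥(tbBarF 𝔓 N')}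
    (hs : s ∈ (dlxChart1 𝔓 H hϖ N' h h49 su hx hxb).G.nodes) :
    ((dlqVert 𝔓 H hϖ N' h h49 su hx hxb).node hs).toDlLocal =
      (dlxChart1 𝔓 H hϖ N' h h49 su hx hxb).toLocal hs
        (dlxChart1_finAt 𝔓 H hϖ N' h h49 su hx hxb _ _) (dlx_hensH 𝔓 H hϖ N') :=
  DlCross.toNode_toDlLocal _

end Law

section Top

variable (𝔓 : FFPlace) {ϖ : ↥(tbFixO 𝔓 (⊤ : Subgroup 𝔓.I))} (hϖ : Irreducible ϖ)
  (N' : ℕ) [NeZero N'] (h : ¬ 𝔓.p ∣ N') (h49 : 4 ∣ N' ∨ 9 ∣ N') {n : ℕ}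
  (su : T2Setup (t2iBase2Fix 𝔓 ⊤ N' h) (Fin n))
  (hx : su.x = t2gaX 𝔓 ⊤ N' h (𝔓.p ^ 2)) (hxb : su.xb = (s33qXi 𝔓 N', s33qXi 𝔓 N'))

/-- **`slope(D_⊤) = 12`** at every node of chart 1 over `O_⊤` (uniformiser `p`) -/
theorem mltj6_slope_vert_top
    {s : Place (IsLocalRing.ResidueField ↥𝔓.P) ↥(tbBarF 𝔓 N') ×
      Place (IsLocalRing.ResidueField ↥𝔓.P) ↥(tbBarF 𝔓 N')}
    (hs : s ∈ (dlxChart1 𝔓 ⊤ (t4cy_irreducible_p 𝔓) N' h h49 su hx hxb).G.nodes) :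
    ((dlqVert 𝔓 ⊤ (t4cy_irreducible_p 𝔓) N' h h49 su hx hxb).cross hs).slope
      (dlxVertD 𝔓 ⊤ N') = 12 := by
  set T := dlqVert 𝔓 ⊤ (t4cy_irreducible_p 𝔓) N' h h49 su hx hxb with hT
  have h𝒩 := mltj6_vertNode_toDlLocal 𝔓 ⊤ (t4cy_irreducible_p 𝔓) N' h h49 su hx hxb hs
  have hw := mltj6_thick_top 𝔓 (t4cy_irreducible_p 𝔓) N' h h49 su hx hxb hs (T.node hs) h𝒩
  have hpe : (𝔓.p : ↥(tbFix 𝔓 (⊤ : Subgroup 𝔓.I))) =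
      ((1 : ↥(tbFixO 𝔓 (⊤ : Subgroup 𝔓.I))) : ↥(tbFix 𝔓 (⊤ : Subgroup 𝔓.I))) *
        ((((𝔓.p : ℕ) : ↥(tbFixO 𝔓 (⊤ : Subgroup 𝔓.I))) : ↥(tbFix 𝔓 (⊤ : Subgroup 𝔓.I)))) ^ 1 := by
    simp
  have h1 := mltj6_vert_law 𝔓 ⊤ (t4cy_irreducible_p 𝔓) N' h h49 su hx hxb hs (T.node hs) h𝒩
    isUnit_one hpe
  rw [hw] at h1
  have h2 : (T.node hs).slope (dlxVertD 𝔓 ⊤ N') = 12 := by
    simpa using h1
  exact h2

end Top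

section Thick

variable {𝔓 : FFPlace} {N' : ℕ} [NeZero N'] {h : ¬ 𝔓.p ∣ N'} {h49 : 4 ∣ N' ∨ 9 ∣ N'}
  {H : Subgroup 𝔓.I} [H.FiniteIndex]
  {P : Place (IsLocalRing.ResidueField ↥𝔓.P) ↥(tbBarF 𝔓 N')}

/-- a node at the level `H` lies over a node (same first branch) of ANY chart 1 at the level `⊤` -/
theorem mltj6_node_top (d : MltJ6NodeAt 𝔓 N' h h49 H P)
    {ϖ₁ : ↥(tbFixO 𝔓 (⊤ : Subgroup 𝔓.I))} (hϖ₁ : Irreducible ϖ₁) {n₁ : ℕ}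
    (su₁ : T2Setup (t2iBase2Fix 𝔓 ⊤ N' h) (Fin n₁))
    (hx₁ : su₁.x = t2gaX 𝔓 ⊤ N' h (𝔓.p ^ 2)) (hxb₁ : su₁.xb = (s33qXi 𝔓 N', s33qXi 𝔓 N')) :
    ∃ Q, (P, Q) ∈ (dlxChart1 𝔓 ⊤ hϖ₁ N' h h49 su₁ hx₁ hxb₁).G.nodes := by
  have hP₂ := (dlxChart1 𝔓 H d.hϖ N' h h49 d.su d.hx d.hxb).node_fin₁ d.hs
  have hP₁ : 0 ≤ P.ord (dlxChart1 𝔓 ⊤ hϖ₁ N' h h49 su₁ hx₁ hxb₁).G.x.1 := by
    have h1 := hP₂
    rw [dlxChart1_Gx] at h1 ⊢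
    exact h1
  exact (dlqc_node_iff_gen 𝔓 N' h hϖ₁ d.hϖ (dlxChart1 𝔓 ⊤ hϖ₁ N' h h49 su₁ hx₁ hxb₁)
    (dlxChart1 𝔓 H d.hϖ N' h h49 d.su d.hx d.hxb)
    (dlxLevHom1 𝔓 le_top hϖ₁ d.hϖ N' h h49 su₁ hx₁ hxb₁ d.su d.hx d.hxb)
    (dlqVert 𝔓 ⊤ hϖ₁ N' h h49 su₁ hx₁ hxb₁) (dlqVert 𝔓 H d.hϖ N' h h49 d.su d.hx d.hxb)
    (dlqlF_D 𝔓 le_top N') P hP₁ hP₂).mpr ⟨d.Q', d.hs⟩

/-- **THICK**: the thickness of every node of chart 1 of `X₀(N' p)` over `O_H` is the ramification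
index of `O_H` -/
theorem mltj6_thick (d : MltJ6NodeAt 𝔓 N' h h49 H P) {η : ↥(tbFixO 𝔓 H)} (hη : IsUnit η) {e : ℕ}
    (hpe : (𝔓.p : ↥(tbFix 𝔓 H)) = (η : ↥(tbFix 𝔓 H)) * (d.ϖ : ↥(tbFix 𝔓 H)) ^ e) :
    d.𝒩.w = e := by
  obtain ⟨n₁, su₁, hx₁, hxb₁⟩ := s33q_exists_setup_level 𝔓 N' h h49 (⊤ : Subgroup 𝔓.I)
  obtain ⟨Q, hs₁⟩ := mltj6_node_top d (t4cy_irreducible_p 𝔓) su₁ hx₁ hxb₁
  set T₁ := dlqVert 𝔓 ⊤ (t4cy_irreducible_p 𝔓) N' h h49 su₁ hx₁ hxb₁ with hT₁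
  set T := dlqVert 𝔓 H d.hϖ N' h h49 d.su d.hx d.hxb with hT
  have h1 := mltj6_vert_law 𝔓 H d.hϖ N' h h49 d.su d.hx d.hxb d.hs d.𝒩 d.h𝒩 hη hpe
  have h2 : d.𝒩.slope (dlxVertD 𝔓 H N') = (T.node d.hs).slope (dlxVertD 𝔓 H N') :=
    mltj6_indep_slope (T.node d.hs) d.𝒩
      (d.h𝒩.trans (mltj6_vertNode_toDlLocal 𝔓 H d.hϖ N' h h49 d.su d.hx d.hxb d.hs).symm) _
  have h3 : (T.cross d.hs).slope (dlqlF 𝔓 le_top (N' * 𝔓.p) (dlxVertD 𝔓 ⊤ N')) =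
      (T₁.cross hs₁).slope (dlxVertD 𝔓 ⊤ N') :=
    dlqf_slope_hom (dlxLevHom1 𝔓 le_top (t4cy_irreducible_p 𝔓) d.hϖ N' h h49 su₁ hx₁ hxb₁
      d.su d.hx d.hxb) hs₁ (T₁.hfin _ _) T₁.hens T₁.D T₁.hD0 T₁.hDhor T₁.hD1 T₁.hD2
      d.hs (T.hfin _ _) T.hens T.D T.hD0 T.hDhor T.hD1 T.hD2 rfl (dlxVertD_ne_zero 𝔓 ⊤ N')
  rw [dlqlF_D, mltj6_slope_vert_top 𝔓 N' h h49 su₁ hx₁ hxb₁ hs₁] at h3
  rw [h2, T.node_slope, h3] at h1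
  have h4 : (d.𝒩.w : ℤ) = (e : ℤ) := by linarith
  exact_mod_cast h4

end Thick

end Fermat.Agent.MLT
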