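/-
MLT / [L2] / P6 (helper8), part 7: **restriction of the places of `F̄ / ℚ̄` to the level fields**.

* `mltj6_phi_isIntegral` : `F̄` is integral over `Φ_H (F_H)`;
* `mltj6ResPlace H N Q : Place L_H F_H` with valuation ring `mltj6Res H N Q`;
* `mltj6Res_comap` : `(Res_H Q).comap (dlqlF 𝔓 hle N) = Res_{H₁} Q` for `H ≤ H₁`;
* `mltj6Res_mem_hor` : `Res_H Q ∈ t4vpHor L_H x` iff `Φ_H x` is regular at `Q`;
* `mltj6_exists_val` : the value at `Q` of a function of `F_H` regular at `Q`.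
-/
import Mathlib
import Fermat.Agent.Lib.T4.Reg.UnrCfe
import Fermat.Agent.Lib.T4.Reg.TopComap
import Fermat.Agent.Lib.MLT.L2.P6.SlDef

set_option autoImplicit false
set_option linter.unusedSectionVars false
set_option linter.unusedVariables false
set_option linter.style.haveILetI false
set_option synthInstance.maxHeartbeats 400000
set_option maxHeartbeats 1000000

open HahnSeries ModularCurve Fermat.Agent.T1 Fermat.Agent.T2 Fermat.Agent.T4 Fermat.Agent.TW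
  Fermat.Agent.S05Lib Fermat.Agent.S24Lib IntermediateField AlgebraicCurve Fermat.Agent.Curve Module
  Fermat.Agent.S33 Fermat.Agent.S33Q Fermat.Agent.Delta Fermat.Agent.Curve.PlaceAux

noncomputable section

namespace Fermat.Agent.MLT

local notation "Qb" => AlgebraicClosure ℚ

section Res

variable (𝔓 : FFPlace) (H : Subgroup 𝔓.I) (N : ℕ) [NeZero N]

/-- **`F̄` is integral over `Φ_H (F_H)`** -/
theorem mltj6_phi_isIntegral : (tbPhiF 𝔓 N H).IsIntegral := by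
  haveI : Algebra.IsAlgebraic ℚ Qb := AlgebraicClosure.isAlgebraic ℚ
  haveI : Algebra.IsAlgebraic ↥(tbFix 𝔓 H) Qb :=
    Algebra.IsAlgebraic.tower_top (K := ℚ) (L := ↥(tbFix 𝔓 H)) (A := Qb)
  intro x
  obtain ⟨ω₀, P, hP⟩ := t4ru_exists_poly ↥(tbFix 𝔓 H) N x
  have hω : (tbPhiF 𝔓 N H).IsIntegralElem (algebraMap Qb ↥(modularFunctionFieldBar N) ω₀) := by
    obtain ⟨p, hm, hp⟩ : IsIntegral ↥(tbFix 𝔓 H) ω₀ := Algebra.IsIntegral.isIntegral ω₀
    refine ⟨p.map (algebraMap ↥(tbFix 𝔓 H) ↥(tbLevF 𝔓 N H)), hm.map _, ?_⟩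
    rw [Polynomial.eval₂_map]
    have h1 : (tbPhiF 𝔓 N H).comp (algebraMap ↥(tbFix 𝔓 H) ↥(tbLevF 𝔓 N H)) =
        (algebraMap Qb ↥(modularFunctionFieldBar N)).comp (algebraMap ↥(tbFix 𝔓 H) Qb) :=
      RingHom.ext fun c => tbPhiF_algebraMap 𝔓 N H c
    rw [h1, ← Polynomial.hom_eval₂, hp, map_zero]
  rw [hP]
  show (tbPhiF 𝔓 N H).IsIntegralElem _
  rw [Polynomial.eval₂_eq_sum_range]
  letI := (tbPhiF 𝔓 N H).toAlgebra
  show IsIntegral ↥(tbLevF 𝔓 N H) _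
  refine IsIntegral.sum _ ?_
  intro i _
  refine IsIntegral.mul ?_ ?_
  · exact isIntegral_algebraMap
  · exact IsIntegral.pow hω i

variable {𝔓 H N}

theorem mltj6Res_ne_top (Q : Place Qb ↥(modularFunctionFieldBar N)) :
    mltj6Res H N Q ≠ ⊤ :=
  t4rt_comap_ne_top (tbPhiF 𝔓 N H) (mltj6_phi_isIntegral 𝔓 H N) Q.ne_top'

theorem mltj6Res_const (Q : Place Qb ↥(modularFunctionFieldBar N)) (a : ↥(tbFix 𝔓 H)) :
    algebraMap ↥(tbFix 𝔓 H) ↥(tbLevF 𝔓 N H) a ∈ mltj6Res H N Q := by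
  rw [mem_mltj6Res, tbPhiF_algebraMap]
  exact Q.algebraMap_mem' _

/-- the restriction of a place of `F̄ / ℚ̄` to the level `H`, as a place of `F_H / L_H` -/
def mltj6ResPlace (H : Subgroup 𝔓.I) (N : ℕ) [NeZero N]
    (Q : Place Qb ↥(modularFunctionFieldBar N)) : Place ↥(tbFix 𝔓 H) ↥(tbLevF 𝔓 N H) :=
  haveI : CharZero ↥(tbFix 𝔓 H) := algebraRat.charZero _
  t4ruPlace (t4ru_isFunctionFieldGen ↥(tbFix 𝔓 H) N) (mltj6Res H N Q) (mltj6Res_const Q)
    (mltj6Res_ne_top Q)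

@[simp] theorem mltj6ResPlace_toValuationSubring (Q : Place Qb ↥(modularFunctionFieldBar N)) :
    (mltj6ResPlace H N Q).toValuationSubring = mltj6Res H N Q := rfl

/-- the restriction is horizontal for every chart coordinate regular at `Q` -/
theorem mltj6Res_mem_hor (Q : Place Qb ↥(modularFunctionFieldBar N)) {x : ↥(tbLevF 𝔓 N H)}
    (hx : tbPhiF 𝔓 N H x ∈ Q.toValuationSubring) :
    mltj6Res H N Q ∈ t4vpHor ↥(tbFix 𝔓 H) x :=
  ⟨mltj6ResPlace H N Q, rfl, hx⟩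

theorem mltj6Res_dvr (Q : Place Qb ↥(modularFunctionFieldBar N)) :
    IsDiscreteValuationRing ↥(mltj6Res H N Q) :=
  inferInstanceAs (IsDiscreteValuationRing ↥(mltj6ResPlace H N Q).toValuationSubring)

/-- restriction in stages -/
theorem mltj6Res_comap {H₁ : Subgroup 𝔓.I} (hle : H ≤ H₁)
    (Q : Place Qb ↥(modularFunctionFieldBar N)) :
    (mltj6Res H N Q).comap (dlqlF 𝔓 hle N) = mltj6Res H₁ N Q := by
  ext f
  rw [ValuationSubring.mem_comap, mem_mltj6Res, mem_mltj6Res, tbPhiF_dlqlF]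

/-- **the value at `Q`** of a function of `F_H` regular at `Q` -/
theorem mltj6_exists_val (Q : Place Qb ↥(modularFunctionFieldBar N)) {f : ↥(tbLevF 𝔓 N H)}
    (hf : f ∈ mltj6Res H N Q) :
    ∃ θ : Qb, OrdGE Q (tbPhiF 𝔓 N H f - algebraMap Qb ↥(modularFunctionFieldBar N) θ) 1 :=
  exists_const_ordGE_one (KMod.isFunctionFieldGen_jBar Qb N) Q hf

end Res

end Fermat.Agent.MLT
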