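/-
MLT / [L2] / P6 (helper8), part 10: **"the place `Q` passes through the node over `P`" does not
depend on the level**.

`H ≤ H₁` two finite-index levels, `d₁`, `d` node data over the SAME place `P` of `Z` at the two levels.
* `mltj6_through_iff`   : `mltj6Through d Q ↔ Res_H Q ∈ C.P.through (C.n₁ P _)`;
* `mltj6_through_down`  : `mltj6Through d Q → mltj6Through d₁ Q` (easy);
* `mltj6_through_up`    : `mltj6Through d₁ Q → mltj6Through d Q` (hard, `mltj6_through_of_comap`).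
-/
import Mathlib
import Fermat.Agent.Lib.Delta.NodeX.HomInst
import Fermat.Agent.Lib.MLT.L2.P6.Res
import Fermat.Agent.Lib.MLT.L2.P6.Centre

set_option autoImplicit false
set_option linter.unusedSectionVars false
set_option linter.unusedVariables false
set_option linter.style.haveILetI false
set_option synthInstance.maxHeartbeats 400000
set_option maxHeartbeats 1000000

open HahnSeries ModularCurve Fermat.Agent.T1 Fermat.Agent.T2 Fermat.Agent.T4 Fermat.Agent.TW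
  Fermat.Agent.S05Lib Fermat.Agent.S24Lib IntermediateField AlgebraicCurve Fermat.Agent.Curve Module
  Fermat.Agent.S33 Fermat.Agent.S33Q Fermat.Agent.Delta Fermat.Agent.Curve.PlaceAux

noncomputable section

namespace Fermat.Agent.MLT

local notation "Qb" => AlgebraicClosure ℚ

attribute [local instance] t2i_dvr t2i_isAlgClosed t2i_charP t2i_fact
attribute [local instance 10000] dliAlgF dliAlgE

variable {𝔓 : FFPlace} {N' : ℕ} [NeZero N'] {h : ¬ 𝔓.p ∣ N'} {h49 : 4 ∣ N' ∨ 9 ∣ N'}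
  {P : Place (IsLocalRing.ResidueField ↥𝔓.P) ↥(tbBarF 𝔓 N')}

section One

variable {H : Subgroup 𝔓.I} [H.FiniteIndex] (d : MltJ6NodeAt 𝔓 N' h h49 H P)
  (Q : Place Qb ↥(modularFunctionFieldBar (N' * 𝔓.p)))

/-- the first branch of the node lies on the chart -/
theorem MltJ6NodeAt.hP : 0 ≤ P.ord (dlxChart1 𝔓 H d.hϖ N' h h49 d.su d.hx d.hxb).G.x.1 := by
  have h1 := (dlxChart1 𝔓 H d.hϖ N' h h49 d.su d.hx d.hxb).node_fin₁ d.hs
  exact h1

theorem mltj6_nodeAt_vals :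
    d.𝒩.P.vals = d.C.P.through (d.C.n₁ P d.hP) :=
  congrArg (fun 𝒩 : DlLocal _ _ => 𝒩.P.vals) d.h𝒩

theorem mltj6_nodeAt_B :
    d.𝒩.P.B = d.C.P.loc (d.C.n₁ P d.hP) :=
  congrArg (fun 𝒩 : DlLocal _ _ => 𝒩.P.B) d.h𝒩

theorem mltj6_nodeAt_W : d.𝒩.W = d.C.V₁ := congrArg DlLocal.W d.h𝒩

theorem mltj6_nodeAt_W' : d.𝒩.W' = d.C.V₂ := congrArg DlLocal.W' d.h𝒩

theorem mltj6_nodeAt_O : d.𝒩.O = tbFixO 𝔓 H := congrArg DlLocal.O d.h𝒩

theorem mltj6_nodeAt_ϖ : d.𝒩.ϖ = ((d.ϖ : ↥(tbFixO 𝔓 H)) : ↥(tbFix 𝔓 H)) := congrArg DlLocal.ϖ d.h𝒩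

/-- the uniformiser is not a unit of the vertical valuation rings, but it is a unit of the
restriction of a place of `F̄ / ℚ̄` -/
theorem mltj6Res_ne_V₁ : mltj6Res H (N' * 𝔓.p) Q ≠ d.C.V₁ := by
  intro heq
  have h1 := ((dliInfH 𝔓 H d.hϖ N' h).unif _ d.C.hV₁).1
  rw [← heq] at h1
  have h2 : (mltj6Res H (N' * 𝔓.p) Q).valuation (dliInfH 𝔓 H d.hϖ N' h).pi = 1 :=
    dlt_hor_valuation _ (fun a => mltj6Res_const Q a) (dliBaseH 𝔓 H d.hϖ).hϖ
  rw [h2] at h1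
  exact lt_irrefl _ h1

theorem mltj6Res_ne_V₂ : mltj6Res H (N' * 𝔓.p) Q ≠ d.C.V₂ := by
  intro heq
  have h1 := ((dliZeroH 𝔓 H d.hϖ N' h).unif _ d.C.hV₂).1
  rw [← heq] at h1
  have h2 : (mltj6Res H (N' * 𝔓.p) Q).valuation (dliZeroH 𝔓 H d.hϖ N' h).pi = 1 :=
    dlt_hor_valuation _ (fun a => mltj6Res_const Q a) (dliBaseH 𝔓 H d.hϖ).hϖ
  rw [h2] at h1
  exact lt_irrefl _ h1

/-- **passing through the node, in terms of the chart** -/
theorem mltj6_through_iff :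
    mltj6Through d Q ↔
      mltj6Res H (N' * 𝔓.p) Q ∈ d.C.P.through (d.C.n₁ P d.hP) := by
  constructor
  · intro hthr
    rw [← mltj6_nodeAt_vals]
    exact hthr.1
  · intro hthr
    refine ⟨?_, ?_, ?_⟩
    · rw [mltj6_nodeAt_vals]
      exact hthr
    · rw [mltj6_nodeAt_W]
      exact mltj6Res_ne_V₁ d Q
    · rw [mltj6_nodeAt_W']
      exact mltj6Res_ne_V₂ d Q

/-- the restriction of a place through the node is horizontal -/
theorem mltj6_through_hor (hthr : mltj6Through d Q) :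
    mltj6Res H (N' * 𝔓.p) Q ∈ t4vpHor ↥(tbFix 𝔓 H) d.C.x := by
  have h1 := (mltj6_through_iff d Q).mp hthr
  exact mltj6Res_mem_hor Q (d.C.P.B_le h1.1 d.C.x_mem_B)

end One

section Two

variable {H₁ H : Subgroup 𝔓.I} [H₁.FiniteIndex] [H.FiniteIndex] (hle : H ≤ H₁)
  (d₁ : MltJ6NodeAt 𝔓 N' h h49 H₁ P) (d : MltJ6NodeAt 𝔓 N' h h49 H P)
  (Q : Place Qb ↥(modularFunctionFieldBar (N' * 𝔓.p)))

/-- the morphism of charts between the two levels -/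
abbrev mltj6LevHom : DlxHom d₁.C d.C :=
  dlxLevHom1 𝔓 hle d₁.hϖ d.hϖ N' h h49 d₁.su d₁.hx d₁.hxb d.su d.hx d.hxb

theorem mltj6LevHom_x : (mltj6LevHom hle d₁ d).ιF d₁.C.x = d.C.x := by
  show dlqlF 𝔓 hle (N' * 𝔓.p) d₁.su.x = d.su.x
  rw [d₁.hx, d.hx, dlqlF_X]

include hle in
/-- the chart coordinate of the lower level is regular at `Q` if the one of the upper level is -/
theorem mltj6_x_regular (hx : tbPhiF 𝔓 (N' * 𝔓.p) H d.C.x ∈ Q.toValuationSubring) :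
    tbPhiF 𝔓 (N' * 𝔓.p) H₁ d₁.C.x ∈ Q.toValuationSubring := by
  rw [← tbPhiF_dlqlF 𝔓 hle]
  have := mltj6LevHom_x hle d₁ d
  rw [dlxLevHom1_ιF] at this
  rw [this]
  exact hx

include hle in
theorem mltj6_x_regular' (hx : tbPhiF 𝔓 (N' * 𝔓.p) H₁ d₁.C.x ∈ Q.toValuationSubring) :
    tbPhiF 𝔓 (N' * 𝔓.p) H d.C.x ∈ Q.toValuationSubring := by
  rw [← tbPhiF_dlqlF 𝔓 hle] at hx
  have := mltj6LevHom_x hle d₁ d
  rw [dlxLevHom1_ιF] at this
  rw [this] at hx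
  exact hx

include hle in
/-- **(EASY)** through the node at the upper level ⇒ through the node at the lower level -/
theorem mltj6_through_down (hthr : mltj6Through d Q) : mltj6Through d₁ Q := by
  rw [mltj6_through_iff] at hthr ⊢
  have hxQ : tbPhiF 𝔓 (N' * 𝔓.p) H d.C.x ∈ Q.toValuationSubring := d.C.P.B_le hthr.1 d.C.x_mem_B
  have hhor₁ : mltj6Res H₁ (N' * 𝔓.p) Q ∈ t4vpHor ↥(tbFix 𝔓 H₁) d₁.C.x :=
    mltj6Res_mem_hor Q (mltj6_x_regular hle d₁ d Q hxQ)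
  have h1 := mltj6_through_comap (mltj6LevHom hle d₁ d) P d₁.hP
    (V := mltj6Res H (N' * 𝔓.p) Q) hthr
  rw [dlxLevHom1_ιF, mltj6Res_comap hle Q] at h1
  exact h1 (d₁.C.hor_mem hhor₁)

include hle in
/-- **(HARD)** through the node at the lower level ⇒ through the node at the upper level -/
theorem mltj6_through_up (hthr : mltj6Through d₁ Q) : mltj6Through d Q := by
  have hhor₁ := mltj6_through_hor d₁ Q hthr
  rw [mltj6_through_iff] at hthr ⊢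
  have hxQ₁ : tbPhiF 𝔓 (N' * 𝔓.p) H₁ d₁.C.x ∈ Q.toValuationSubring :=
    d₁.C.P.B_le hthr.1 d₁.C.x_mem_B
  have hhor : mltj6Res H (N' * 𝔓.p) Q ∈ t4vpHor ↥(tbFix 𝔓 H) d.C.x :=
    mltj6Res_mem_hor Q (mltj6_x_regular' hle d₁ d Q hxQ₁)
  haveI : CharZero ↥(tbFix 𝔓 H₁) := algebraRat.charZero _
  have hcomap : (mltj6Res H (N' * 𝔓.p) Q).comap (mltj6LevHom hle d₁ d).ιF =
      mltj6Res H₁ (N' * 𝔓.p) Q := by
    rw [dlxLevHom1_ιF, mltj6Res_comap hle Q]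
  exact mltj6_through_of_comap (mltj6LevHom hle d₁ d) (mltj6LevHom_x hle d₁ d)
    (dlx_gen1 𝔓 H₁ N' h d₁.su d₁.hx) (dlx_hensH 𝔓 H₁ d₁.hϖ N') (dlx_hensH 𝔓 H d.hϖ N')
    (dlxChart1_finGen 𝔓 H d.hϖ N' h h49 d.su d.hx d.hxb) d.hs d₁.hP
    (dlxChart1_finAt 𝔓 H₁ d₁.hϖ N' h h49 d₁.su d₁.hx d₁.hxb _ _) hhor
    (by rw [hcomap]; exact hhor₁) (by rw [hcomap]; exact hthr)

end Two

end Fermat.Agent.MLT
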