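/-
MLT / [L2] / P6 (helper8), part 11: **the values at `Q` of the functions of the local ring of a node**
(the "point lemma").

`d` a node datum at the level `H`, `Q` a place of `F̄ / ℚ̄` through the node.
* `mltj6Ev d Q hthr : A →+* ℚ̄` : the evaluation at `Q` of the functions of the local ring `A` of the node;
* `mltj6Ev_mem_P`  : the values lie in the valuation ring of `𝔓` (`A ⧸ 𝔭_V` is finite over `O_H`);
* `mltj6Ev_isU`    : the values of the units of `A` are units of `𝔓`;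
* `mltj6Ev_eq_zero_iff` : the value vanishes iff the function lies in `𝔭_V`.
-/
import Mathlib
import Fermat.Agent.Lib.MLT.L2.P6.Through

set_option autoImplicit false
set_option linter.unusedSectionVars false
set_option linter.unusedVariables false
set_option linter.style.haveILetI false
set_option synthInstance.maxHeartbeats 400000
set_option maxHeartbeats 1000000

open HahnSeries ModularCurve Fermat.Agent.T1 Fermat.Agent.T2 Fermat.Agent.T4 Fermat.Agent.TW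
  Fermat.Agent.S05Lib Fermat.Agent.S24Lib IntermediateField AlgebraicCurve Fermat.Agent.Curve Module
  Fermat.Agent.S33 Fermat.Agent.S33Q Fermat.Agent.Delta Fermat.Agent.Curve.PlaceAux

noncomputable section

namespace Fermat.Agent.MLT

local notation "Qb" => AlgebraicClosure ℚ

attribute [local instance] t2i_dvr t2i_isAlgClosed t2i_charP t2i_fact
attribute [local instance 10000] dliAlgF dliAlgE

variable {𝔓 : FFPlace} {N' : ℕ} [NeZero N'] {h : ¬ 𝔓.p ∣ N'} {h49 : 4 ∣ N' ∨ 9 ∣ N'}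
  {P : Place (IsLocalRing.ResidueField ↥𝔓.P) ↥(tbBarF 𝔓 N')}
  {H : Subgroup 𝔓.I} [H.FiniteIndex] (d : MltJ6NodeAt 𝔓 N' h h49 H P)
  (Q : Place Qb ↥(modularFunctionFieldBar (N' * 𝔓.p))) (hthr : mltj6Through d Q)

include hthr in
/-- the functions of the local ring of the node are regular at `Q` -/
theorem mltj6_A_regular {f : ↥(tbLevF 𝔓 (N' * 𝔓.p) H)} (hf : f ∈ d.𝒩.A) :
    tbPhiF 𝔓 (N' * 𝔓.p) H f ∈ Q.toValuationSubring :=
  d.𝒩.P.B_le hthr.1 hf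

/-- **the evaluation at `Q`** of the functions of the local ring of the node -/
def mltj6Ev : ↥d.𝒩.A →+* Qb :=
  dlxEval Q ⟨_, KMod.isFunctionFieldGen_jBar Qb (N' * 𝔓.p)⟩
    ((tbPhiF 𝔓 (N' * 𝔓.p) H).comp d.𝒩.A.subtype) (fun f => mltj6_A_regular d Q hthr f.2)

theorem mltj6Ev_spec (f : ↥d.𝒩.A) :
    OrdGE Q (tbPhiF 𝔓 (N' * 𝔓.p) H (f : ↥(tbLevF 𝔓 (N' * 𝔓.p) H)) -
      algebraMap Qb ↥(modularFunctionFieldBar (N' * 𝔓.p)) (mltj6Ev d Q hthr f)) 1 :=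
  dlxEval_spec Q _ _ _ f

theorem mltj6Ev_eq_iff {f : ↥d.𝒩.A} {θ : Qb} :
    mltj6Ev d Q hthr f = θ ↔
      OrdGE Q (tbPhiF 𝔓 (N' * 𝔓.p) H (f : ↥(tbLevF 𝔓 (N' * 𝔓.p) H)) -
        algebraMap Qb ↥(modularFunctionFieldBar (N' * 𝔓.p)) θ) 1 :=
  dlxEval_eq_iff Q _ _ _

/-- the value of a constant -/
theorem mltj6Ev_const (a : ↥(tbFix 𝔓 H))
    (ha : algebraMap ↥(tbFix 𝔓 H) ↥(tbLevF 𝔓 (N' * 𝔓.p) H) a ∈ d.𝒩.A) :
    mltj6Ev d Q hthr ⟨_, ha⟩ = (a : Qb) := by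
  rw [mltj6Ev_eq_iff]
  show OrdGE Q (tbPhiF 𝔓 (N' * 𝔓.p) H (algebraMap ↥(tbFix 𝔓 H) ↥(tbLevF 𝔓 (N' * 𝔓.p) H) a) - _) 1
  rw [tbPhiF_algebraMap, sub_self]
  exact ordGE_zero Q 1

/-- the value vanishes iff the function lies in the centre of `Q` -/
theorem mltj6Ev_eq_zero_iff (f : ↥d.𝒩.A) :
    mltj6Ev d Q hthr f = 0 ↔
      (mltj6Res H (N' * 𝔓.p) Q).valuation (f : ↥(tbLevF 𝔓 (N' * 𝔓.p) H)) < 1 := by
  unfold mltj6Ev
  rw [dlxEval_eq_zero_iff]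
  show _ ↔ (Q.toValuationSubring.comap (tbPhiF 𝔓 (N' * 𝔓.p) H)).valuation _ < 1
  rw [mltj6_val_comap_lt, ← ValuationSubring.mem_nonunits_iff, t4ru_mem_nonunits_iff]
  rfl

include hthr in
/-- (FIN) for the local ring of the node at the restriction of `Q` -/
theorem mltj6_fin_loc :
    ∃ S : Finset ↥(tbLevF 𝔓 (N' * 𝔓.p) H), (∀ s ∈ S, s ∈ d.𝒩.A) ∧ ∀ f ∈ d.𝒩.A,
      ∃ c : ↥(tbLevF 𝔓 (N' * 𝔓.p) H) → ↥(tbFix 𝔓 H), (∀ s, c s ∈ tbFixO 𝔓 H) ∧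
        (mltj6Res H (N' * 𝔓.p) Q).valuation
          (f - ∑ s ∈ S, algebraMap ↥(tbFix 𝔓 H) ↥(tbLevF 𝔓 (N' * 𝔓.p) H) (c s) * s) < 1 := by
  have h1 := (mltj6_through_iff d Q).mp hthr
  have h2 := mltj6_through_hor d Q hthr
  obtain ⟨S, hS, hf⟩ := d.C.fin_loc (d.C.n₁ P d.hP)
    (dlxChart1_finAt 𝔓 H d.hϖ N' h h49 d.su d.hx d.hxb _ _) (dlx_hensH 𝔓 H d.hϖ N') h1 h2
  have hA : ∀ f, f ∈ d.𝒩.A ↔ f ∈ d.C.P.loc (d.C.n₁ P d.hP) := by
    intro f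
    show f ∈ d.𝒩.P.B ↔ _
    rw [mltj6_nodeAt_B]
  refine ⟨S, fun s hs => (hA s).mpr (hS s hs), fun f hfA => ?_⟩
  exact hf f ((hA f).mp hfA)

/-- **the values of the functions of the local ring of the node are `𝔓`-integral** -/
theorem mltj6Ev_mem_P (f : ↥d.𝒩.A) : mltj6Ev d Q hthr f ∈ 𝔓.P := by
  classical
  obtain ⟨S, hS, hfin⟩ := mltj6_fin_loc d Q hthr
  set ev := mltj6Ev d Q hthr with hev
  letI algO : Algebra ↥(tbFixO 𝔓 H) Qb :=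
    ((algebraMap ↥(tbFix 𝔓 H) Qb).comp (tbFixO 𝔓 H).subtype).toAlgebra
  have halg : ∀ a : ↥(tbFixO 𝔓 H), algebraMap ↥(tbFixO 𝔓 H) Qb a = ((a : ↥(tbFix 𝔓 H)) : Qb) :=
    fun a => rfl
  -- constants of `O` in `A`
  have hOA : ∀ a : ↥(tbFix 𝔓 H), a ∈ tbFixO 𝔓 H →
      algebraMap ↥(tbFix 𝔓 H) ↥(tbLevF 𝔓 (N' * 𝔓.p) H) a ∈ d.𝒩.A := by
    intro a ha
    have := d.𝒩.O_le a (by rw [mltj6_nodeAt_O]; exact ha)
    exact this
  -- the submodule of the values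
  let N : Submodule ↥(tbFixO 𝔓 H) Qb :=
    { carrier := Set.range ev
      add_mem' := by
        rintro _ _ ⟨f, rfl⟩ ⟨g, rfl⟩
        exact ⟨f + g, map_add _ _ _⟩
      zero_mem' := ⟨0, map_zero _⟩
      smul_mem' := by
        rintro a _ ⟨f, rfl⟩
        refine ⟨⟨_, hOA a a.2⟩ * f, ?_⟩
        rw [map_mul, hev, mltj6Ev_const d Q hthr (a : ↥(tbFix 𝔓 H)) (hOA a a.2), Algebra.smul_def,
          halg] }
  have hNmem : ∀ x, x ∈ N ↔ ∃ f, ev f = x := fun x => Iff.rfl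
  -- the generators
  let gen : Finset Qb := S.attach.image fun s => ev ⟨s.1, hS s.1 s.2⟩
  have hspan : N = Submodule.span ↥(tbFixO 𝔓 H) (gen : Set Qb) := by
    apply le_antisymm
    · rintro x ⟨f, rfl⟩
      obtain ⟨c, hc, hlt⟩ := hfin f f.2
      -- the approximating combination, as an element of `A`
      have hsumA : ∑ s ∈ S, algebraMap ↥(tbFix 𝔓 H) ↥(tbLevF 𝔓 (N' * 𝔓.p) H) (c s) * s ∈ d.𝒩.A :=
        Subring.sum_mem _ fun s hs => Subring.mul_mem _ (hOA _ (hc s)) (hS s hs)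
      have h0 : ev (f - ⟨_, hsumA⟩) = 0 := by
        rw [hev, mltj6Ev_eq_zero_iff]
        exact hlt
      have h1 : ev f = ev ⟨_, hsumA⟩ := by
        rw [map_sub, sub_eq_zero] at h0
        exact h0
      have h2 : (⟨_, hsumA⟩ : ↥d.𝒩.A) =
          ∑ s ∈ S.attach, (⟨_, hOA _ (hc s.1)⟩ : ↥d.𝒩.A) * ⟨s.1, hS s.1 s.2⟩ := by
        apply Subtype.ext
        rw [AddSubmonoidClass.coe_finsetSum]
        show ∑ s ∈ S, algebraMap ↥(tbFix 𝔓 H) ↥(tbLevF 𝔓 (N' * 𝔓.p) H) (c s) * s = _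
        rw [← Finset.sum_attach]
        rfl
      rw [h1, h2, map_sum]
      refine Submodule.sum_mem _ fun s _ => ?_
      rw [map_mul, hev, mltj6Ev_const d Q hthr (c s.1) (hOA _ (hc s.1))]
      have h3 : ((c s.1 : ↥(tbFix 𝔓 H)) : Qb) * mltj6Ev d Q hthr ⟨s.1, hS s.1 s.2⟩ =
          (⟨c s.1, hc s.1⟩ : ↥(tbFixO 𝔓 H)) • mltj6Ev d Q hthr ⟨s.1, hS s.1 s.2⟩ := by
        rw [Algebra.smul_def, halg]
      rw [h3]
      refine Submodule.smul_mem _ _ (Submodule.subset_span ?_)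
      exact Finset.mem_coe.mpr (Finset.mem_image.mpr ⟨s, Finset.mem_attach _ _, rfl⟩)
    · rw [Submodule.span_le]
      intro x hx
      obtain ⟨s, -, rfl⟩ := Finset.mem_image.mp (Finset.mem_coe.mp hx)
      exact ⟨_, rfl⟩
  have hNfg : N.FG := by
    rw [hspan]
    exact Submodule.fg_span (Finset.finite_toSet gen)
  have hNne : N ≠ ⊥ := by
    intro hbot
    have h1 : (1 : Qb) ∈ N := ⟨1, map_one _⟩
    rw [hbot, Submodule.mem_bot] at h1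
    exact one_ne_zero h1
  have hint : IsIntegral ↥(tbFixO 𝔓 H) (ev f) := by
    refine isIntegral_of_smul_mem_submodule N hNne hNfg (ev f) ?_
    rintro _ ⟨g, rfl⟩
    exact ⟨f * g, by rw [map_mul, smul_eq_mul]⟩
  exact t4ru_mem_of_isIntegral 𝔓.P (R := ↥(tbFixO 𝔓 H)) (fun r => r.2) hint

/-- **the values of the units of the local ring of the node are units of `𝔓`** -/
theorem mltj6Ev_isU {u : ↥(tbLevF 𝔓 (N' * 𝔓.p) H)} (hu : d.𝒩.IsU u) :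
    𝔓.v.Is (mltj6Ev d Q hthr ⟨u, hu.1⟩) 0 := by
  have h1 := mltj6Ev_mem_P d Q hthr ⟨u, hu.1⟩
  have h2 := mltj6Ev_mem_P d Q hthr ⟨u⁻¹, hu.2.1⟩
  have h3 : mltj6Ev d Q hthr ⟨u, hu.1⟩ * mltj6Ev d Q hthr ⟨u⁻¹, hu.2.1⟩ = 1 := by
    rw [← map_mul]
    have : (⟨u, hu.1⟩ : ↥d.𝒩.A) * ⟨u⁻¹, hu.2.1⟩ = 1 := Subtype.ext (mul_inv_cancel₀ hu.2.2)
    rw [this, map_one]
  have hx0 : mltj6Ev d Q hthr ⟨u, hu.1⟩ ≠ 0 := left_ne_zero_of_mul_eq_one h3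
  have hy0 : mltj6Ev d Q hthr ⟨u⁻¹, hu.2.1⟩ ≠ 0 := right_ne_zero_of_mul_eq_one h3
  rw [𝔓.mem_P_iff] at h1 h2
  have h4 := 𝔓.v.ord_mul' hx0 hy0
  rw [h3, 𝔓.v.ord_one] at h4
  refine ⟨hx0, ?_⟩
  rcases h1 with h1 | h1
  · exact absurd h1 hx0
  rcases h2 with h2 | h2
  · exact absurd h2 hy0
  linarith

end Fermat.Agent.MLT
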