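/-
MLT / [L2] / P6 (helper8), part 12: **(CHAR-I) and (CHAR-II)**: the position `mltj6Pos` is computed by
the node data of EVERY level.

* `mltj6_w_mul_ord`   : `w · v_𝔓(ϖ) = 1` for every node datum (THICK);
* `mltj6_lev_isU`     : `ιF t₁ = t · unit` for node data `d₁` (level `H₁`), `d` (level `H ≤ H₁`) over the same
  place `P`;
* `mltj6_posAt_unique`: `MltJ6PosAt d Q r → MltJ6PosAt d₁ Q r₁ → r = r₁`;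
* `mltj6_exists_nodeAt_of_node` : node data exist at every level over the first branch of a node of the
  level `⊤`;
* **`mltj6_charI : MltJ6CharI`**, **`mltj6_charII : MltJ6CharII`**.
-/
import Mathlib
import Fermat.Agent.Lib.MLT.L2.P6.Thick
import Fermat.Agent.Lib.MLT.L2.P6.Value

set_option autoImplicit false
set_option linter.unusedSectionVars false
set_option linter.unusedVariables false
set_option linter.style.haveILetI false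
set_option synthInstance.maxHeartbeats 400000
set_option maxHeartbeats 1000000

open HahnSeries ModularCurve Fermat.Agent.T1 Fermat.Agent.T2 Fermat.Agent.T4 Fermat.Agent.TW
  Fermat.Agent.S05Lib Fermat.Agent.S24Lib IntermediateField AlgebraicCurve Fermat.Agent.Curve Module
  Fermat.Agent.S33 Fermat.Agent.S33Q Fermat.Agent.Delta Fermat.Agent.Curve.PlaceAux

noncomputable section

namespace Fermat.Agent.MLT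

local notation "Qb" => AlgebraicClosure ℚ

attribute [local instance] t2i_dvr t2i_isAlgClosed t2i_charP t2i_fact
attribute [local instance 10000] dliAlgF dliAlgE

variable {𝔓 : FFPlace} {N' : ℕ} [NeZero N'] {h : ¬ 𝔓.p ∣ N'} {h49 : 4 ∣ N' ∨ 9 ∣ N'}
  {P : Place (IsLocalRing.ResidueField ↥𝔓.P) ↥(tbBarF 𝔓 N')}

section One

variable {H : Subgroup 𝔓.I} [H.FiniteIndex] (d : MltJ6NodeAt 𝔓 N' h h49 H P)

/-- units of `O_H` have `𝔓`-order `0` -/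
theorem mltj6_ord_unit {η : ↥(tbFixO 𝔓 H)} (hη : IsUnit η) :
    𝔓.v.Is (((η : ↥(tbFixO 𝔓 H)) : ↥(tbFix 𝔓 H)) : Qb) 0 := by
  obtain ⟨η', hη'⟩ := isUnit_iff_exists_inv.mp hη
  have h1 : (((η : ↥(tbFixO 𝔓 H)) : ↥(tbFix 𝔓 H)) : Qb) *
      (((η' : ↥(tbFixO 𝔓 H)) : ↥(tbFix 𝔓 H)) : Qb) = 1 := by
    have := congrArg (fun x : ↥(tbFixO 𝔓 H) => (((x : ↥(tbFix 𝔓 H))) : Qb)) hη'
    simpa using this
  have hx0 := left_ne_zero_of_mul_eq_one h1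
  have hy0 := right_ne_zero_of_mul_eq_one h1
  have h2 : (((η : ↥(tbFixO 𝔓 H)) : ↥(tbFix 𝔓 H)) : Qb) ∈ 𝔓.P := η.2
  have h3 : (((η' : ↥(tbFixO 𝔓 H)) : ↥(tbFix 𝔓 H)) : Qb) ∈ 𝔓.P := η'.2
  rw [𝔓.mem_P_iff] at h2 h3
  have h4 := 𝔓.v.ord_mul' hx0 hy0
  rw [h1, 𝔓.v.ord_one] at h4
  refine ⟨hx0, ?_⟩
  rcases h2 with h2 | h2
  · exact absurd h2 hx0
  rcases h3 with h3 | h3
  · exact absurd h3 hy0
  linarith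

/-- **THICK, in the form used for the positions**: `w · v_𝔓(ϖ) = 1` -/
theorem mltj6_w_mul_ord :
    (d.𝒩.w : ℚ) * 𝔓.v.ord (((d.ϖ : ↥(tbFixO 𝔓 H)) : ↥(tbFix 𝔓 H)) : Qb) = 1 := by
  have hp0 : ((𝔓.p : ℕ) : ↥(tbFixO 𝔓 H)) ≠ 0 := by
    intro h0
    have h1 : ((((𝔓.p : ℕ) : ↥(tbFixO 𝔓 H)) : ↥(tbFix 𝔓 H)) : Qb) = 0 := by rw [h0]; rfl
    have h2 : ((((𝔓.p : ℕ) : ↥(tbFixO 𝔓 H)) : ↥(tbFix 𝔓 H)) : Qb) = (𝔓.p : Qb) := by simp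
    rw [h2] at h1
    exact 𝔓.p_ne_zero h1
  obtain ⟨n, u, hu⟩ := IsDiscreteValuationRing.eq_unit_mul_pow_irreducible hp0 d.hϖ
  have hpe : (𝔓.p : ↥(tbFix 𝔓 H)) =
      (((u : ↥(tbFixO 𝔓 H)) : ↥(tbFixO 𝔓 H)) : ↥(tbFix 𝔓 H)) *
        ((d.ϖ : ↥(tbFixO 𝔓 H)) : ↥(tbFix 𝔓 H)) ^ n := by
    have := congrArg (fun x : ↥(tbFixO 𝔓 H) => (x : ↥(tbFix 𝔓 H))) hu
    simpa using this
  have hw := mltj6_thick d u.isUnit hpe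
  have hpe' : (𝔓.p : Qb) = ((((u : ↥(tbFixO 𝔓 H)) : ↥(tbFixO 𝔓 H)) : ↥(tbFix 𝔓 H)) : Qb) *
      (((d.ϖ : ↥(tbFixO 𝔓 H)) : ↥(tbFix 𝔓 H)) : Qb) ^ n := by
    have := congrArg (fun x : ↥(tbFix 𝔓 H) => (x : Qb)) hpe
    simpa using this
  obtain ⟨hu0, huo⟩ := mltj6_ord_unit (𝔓 := 𝔓) (H := H) u.isUnit
  have hϖ0 : (((d.ϖ : ↥(tbFixO 𝔓 H)) : ↥(tbFix 𝔓 H)) : Qb) ≠ 0 := by
    intro h0
    have : d.ϖ = 0 := Subtype.ext (Subtype.ext h0)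
    exact d.hϖ.ne_zero this
  have h1 := congrArg 𝔓.v.ord hpe'
  rw [𝔓.is_p.2, 𝔓.v.ord_mul' hu0 (pow_ne_zero _ hϖ0), huo, zero_add, 𝔓.v.ord_pow hϖ0] at h1
  rw [hw]
  exact h1.symm

end One

section Two

variable {H₁ H : Subgroup 𝔓.I} [H₁.FiniteIndex] [H.FiniteIndex] (hle : H ≤ H₁)
  (d₁ : MltJ6NodeAt 𝔓 N' h h49 H₁ P) (d : MltJ6NodeAt 𝔓 N' h h49 H P)

include hle in
/-- the functions of the local ring of the node at the lower level lie in the one of the upper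
level -/
theorem mltj6_lev_mem_A {f : ↥(tbLevF 𝔓 (N' * 𝔓.p) H₁)} (hf : f ∈ d₁.𝒩.A) :
    dlqlF 𝔓 hle (N' * 𝔓.p) f ∈ d.𝒩.A := by
  have h1 : f ∈ d₁.C.P.loc (d₁.C.n₁ P d₁.hP) := by
    have : f ∈ d₁.𝒩.P.B := hf
    rwa [mltj6_nodeAt_B] at this
  have h2 := (mltj6LevHom hle d₁ d).map_A₁ P d₁.hP h1
  show dlqlF 𝔓 hle (N' * 𝔓.p) f ∈ d.𝒩.P.B
  rw [mltj6_nodeAt_B]
  exact h2

include hle in
/-- **the coordinate of the node at the lower level is the one of the upper level up to a unit** -/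
theorem mltj6_lev_isU :
    d.𝒩.IsU (dlqlF 𝔓 hle (N' * 𝔓.p) d₁.𝒩.t / d.𝒩.t) := by
  set ιF := dlqlF 𝔓 hle (N' * 𝔓.p) with hιF
  set z := ιF d₁.𝒩.t with hz
  have hz0 : z ≠ 0 := dlqlF_ne_zero 𝔓 hle (N' * 𝔓.p) d₁.𝒩.t_ne_zero
  have hz'0 : ιF d₁.𝒩.t' ≠ 0 := dlqlF_ne_zero 𝔓 hle (N' * 𝔓.p) d₁.𝒩.t'_ne_zero
  have hzA : z ∈ d.𝒩.A := mltj6_lev_mem_A hle d₁ d d₁.𝒩.ht
  have hz'A : ιF d₁.𝒩.t' ∈ d.𝒩.A := mltj6_lev_mem_A hle d₁ d d₁.𝒩.ht'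
  -- the product is a constant
  have hprod : z * ιF d₁.𝒩.t' =
      algebraMap ↥(tbFix 𝔓 H) ↥(tbLevF 𝔓 (N' * 𝔓.p) H) (t4cyInc 𝔓 hle d₁.𝒩.ϖ) ^ d₁.𝒩.w := by
    rw [hz, ← map_mul, d₁.𝒩.tt', map_pow, hιF, dlqlF_algebraMap]
  have hc0 : t4cyInc 𝔓 hle d₁.𝒩.ϖ ≠ 0 := by
    intro h0
    have h1 : algebraMap ↥(tbFix 𝔓 H) ↥(tbLevF 𝔓 (N' * 𝔓.p) H) (t4cyInc 𝔓 hle d₁.𝒩.ϖ) = 0 := by
      rw [h0, map_zero]
    rw [h1, zero_pow (Nat.pos_iff_ne_zero.mp d₁.𝒩.hw)] at hprod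
    exact mul_ne_zero hz0 hz'0 hprod
  -- no horizontal part
  have hH : ∀ (V : ValuationSubring ↥(tbLevF 𝔓 (N' * 𝔓.p) H)) (hV : V ∈ d.𝒩.hor),
      d.𝒩.oH V hV z = 0 := by
    intro V hV
    have h1 := congrArg (d.𝒩.oH V hV) hprod
    rw [dln_oH_mul d.𝒩.toDlLocal hV hz0 hz'0, dln_oH_pow, (dln_const d.𝒩.toDlLocal hc0).2.2 V hV,
      mul_zero] at h1
    have h2 := dln_oH_nonneg d.𝒩.toDlLocal hzA hV
    have h3 := dln_oH_nonneg d.𝒩.toDlLocal hz'A hV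
    omega
  -- order `0` at `W`
  have hW : d.𝒩.oW z = 0 := by
    have h1 : d₁.C.V₁.valuation d₁.𝒩.t = 1 := by
      rw [← mltj6_nodeAt_W]
      exact d₁.𝒩.Wt
    have h2 : (d.C.V₁.comap (mltj6LevHom hle d₁ d).ιF).valuation d₁.𝒩.t = 1 := by
      rw [(mltj6LevHom hle d₁ d).comap_V₁]
      exact h1
    have h3 := (mltj6_val_comap_eq_one _ _ d₁.𝒩.t_ne_zero).mp h2
    have h4 : d.𝒩.W.valuation z = 1 := by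
      rw [mltj6_nodeAt_W]
      exact h3
    exact (dl_valuation_eq_one_iff d.𝒩.W hz0).mp h4
  -- slope `1`
  have hslope : d.𝒩.slope z = 1 := by
    set T₁ := dlqVert 𝔓 H₁ d₁.hϖ N' h h49 d₁.su d₁.hx d₁.hxb with hT₁
    set T := dlqVert 𝔓 H d.hϖ N' h h49 d.su d.hx d.hxb with hT
    have e1 : d.𝒩.slope z = (T.node d.hs).slope z :=
      mltj6_indep_slope (T.node d.hs) d.𝒩
        (d.h𝒩.trans (mltj6_vertNode_toDlLocal 𝔓 H d.hϖ N' h h49 d.su d.hx d.hxb d.hs).symm) _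
    have e2 : (T.cross d.hs).slope (dlqlF 𝔓 hle (N' * 𝔓.p) d₁.𝒩.t) =
        (T₁.cross d₁.hs).slope d₁.𝒩.t :=
      dlqf_slope_hom (mltj6LevHom hle d₁ d) d₁.hs (T₁.hfin _ _) T₁.hens T₁.D T₁.hD0 T₁.hDhor
        T₁.hD1 T₁.hD2 d.hs (T.hfin _ _) T.hens T.D T.hD0 T.hDhor T.hD1 T.hD2 rfl d₁.𝒩.t_ne_zero
    have e3 : (T₁.node d₁.hs).slope d₁.𝒩.t = d₁.𝒩.slope d₁.𝒩.t :=
      mltj6_indep_slope d₁.𝒩 (T₁.node d₁.hs)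
        ((mltj6_vertNode_toDlLocal 𝔓 H₁ d₁.hϖ N' h h49 d₁.su d₁.hx d₁.hxb d₁.hs).trans
          d₁.h𝒩.symm) _
    rw [e1, T.node_slope, hz, hιF, e2, ← T₁.node_slope, e3, d₁.𝒩.slope_t]
  have hU := dln_slope_form d.𝒩 hz0 hH
  rw [hW, hslope, zpow_zero, one_mul, zpow_one] at hU
  exact hU

variable (Q : Place Qb ↥(modularFunctionFieldBar (N' * 𝔓.p)))

/-- the position in terms of the value alone -/
theorem mltj6_posAt_iff {r : ℚ} :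
    MltJ6PosAt d Q r ↔ ∃ hthr : mltj6Through d Q,
      r = 1 - 𝔓.v.ord (mltj6Ev d Q hthr ⟨d.𝒩.t, d.𝒩.ht⟩) := by
  have hw := mltj6_w_mul_ord d
  constructor
  · rintro ⟨hthr, θ, hθ, rfl⟩
    refine ⟨hthr, ?_⟩
    have h1 : mltj6Ev d Q hthr ⟨d.𝒩.t, d.𝒩.ht⟩ = θ := (mltj6Ev_eq_iff d Q hthr).mpr hθ
    rw [h1, hw, div_one]
  · rintro ⟨hthr, rfl⟩
    refine ⟨hthr, _, mltj6Ev_spec d Q hthr ⟨d.𝒩.t, d.𝒩.ht⟩, ?_⟩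
    rw [hw, div_one]

include hle in
/-- **the positions computed at two levels agree** -/
theorem mltj6_posAt_unique {r r₁ : ℚ} (hr : MltJ6PosAt d Q r) (hr₁ : MltJ6PosAt d₁ Q r₁) :
    r = r₁ := by
  obtain ⟨hthr, rfl⟩ := (mltj6_posAt_iff d Q).mp hr
  obtain ⟨hthr₁, rfl⟩ := (mltj6_posAt_iff d₁ Q).mp hr₁
  have hU := mltj6_lev_isU hle d₁ d
  set u := dlqlF 𝔓 hle (N' * 𝔓.p) d₁.𝒩.t / d.𝒩.t with hu
  have hzA : dlqlF 𝔓 hle (N' * 𝔓.p) d₁.𝒩.t ∈ d.𝒩.A := mltj6_lev_mem_A hle d₁ d d₁.𝒩.ht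
  -- the value of `ιF t₁` at the upper level is the value of `t₁` at the lower level
  have h1 : mltj6Ev d Q hthr ⟨_, hzA⟩ = mltj6Ev d₁ Q hthr₁ ⟨d₁.𝒩.t, d₁.𝒩.ht⟩ := by
    rw [mltj6Ev_eq_iff]
    show OrdGE Q (tbPhiF 𝔓 (N' * 𝔓.p) H (dlqlF 𝔓 hle (N' * 𝔓.p) d₁.𝒩.t) - _) 1
    rw [tbPhiF_dlqlF]
    exact mltj6Ev_spec d₁ Q hthr₁ ⟨d₁.𝒩.t, d₁.𝒩.ht⟩
  have h2 : (⟨_, hzA⟩ : ↥d.𝒩.A) = ⟨u, hU.1⟩ * ⟨d.𝒩.t, d.𝒩.ht⟩ := by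
    apply Subtype.ext
    show dlqlF 𝔓 hle (N' * 𝔓.p) d₁.𝒩.t = u * d.𝒩.t
    rw [hu, div_mul_cancel₀ _ d.𝒩.t_ne_zero]
  rw [h2, map_mul] at h1
  obtain ⟨hu0, huo⟩ := mltj6Ev_isU d Q hthr hU
  -- the value of `t` is not zero
  have ht0 : mltj6Ev d Q hthr ⟨d.𝒩.t, d.𝒩.ht⟩ ≠ 0 := by
    intro h0
    rw [mltj6Ev_eq_zero_iff] at h0
    haveI := d.𝒩.P.dvr _ hthr.1
    have h3 := d.𝒩.oH_t hthr
    have h4 := (dl_valuation_eq_one_iff (mltj6Res H (N' * 𝔓.p) Q) d.𝒩.t_ne_zero).mpr h3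
    rw [h4] at h0
    exact lt_irrefl _ h0
  rw [← h1, 𝔓.v.ord_mul' hu0 ht0, huo, zero_add]

end Two

/-! ### existence of node data -/

section Ex

variable (𝔓) (N') (h) (h49)

/-- **node data exist at every level** over the first branch of a node of the level `⊤` -/
theorem mltj6_exists_nodeAt_of_node {n₁ : ℕ} (su₁ : T2Setup (t2iBase2Fix 𝔓 ⊤ N' h) (Fin n₁))
    (hx₁ : su₁.x = t2gaX 𝔓 ⊤ N' h (𝔓.p ^ 2)) (hxb₁ : su₁.xb = (s33qXi 𝔓 N', s33qXi 𝔓 N'))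
    {P Q₁ : Place (IsLocalRing.ResidueField ↥𝔓.P) ↥(tbBarF 𝔓 N')}
    (hs₁ : (P, Q₁) ∈ (dlgDataH 𝔓 ⊤ N' h h49 su₁ hx₁ hxb₁).nodes)
    (H : Subgroup 𝔓.I) [H.FiniteIndex] : Nonempty (MltJ6NodeAt 𝔓 N' h h49 H P) := by
  obtain ⟨ϖ, hϖ⟩ := IsDiscreteValuationRing.exists_irreducible ↥(tbFixO 𝔓 H)
  obtain ⟨n, su, hx, hxb⟩ := s33q_exists_setup_level 𝔓 N' h h49 H
  set C₁ := dlxChart1 𝔓 ⊤ (t4cy_irreducible_p 𝔓) N' h h49 su₁ hx₁ hxb₁ with hC₁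
  set C := dlxChart1 𝔓 H hϖ N' h h49 su hx hxb with hC
  have hs₁' : (P, Q₁) ∈ C₁.G.nodes := hs₁
  have hP₁ := C₁.node_fin₁ hs₁'
  have hP₂ : 0 ≤ P.ord C.G.x.1 := by
    have h1 := hP₁
    rw [dlxChart1_Gx] at h1 ⊢
    exact h1
  obtain ⟨Q', hs⟩ := (dlqc_node_iff_gen 𝔓 N' h (t4cy_irreducible_p 𝔓) hϖ C₁ C
    (dlxLevHom1 𝔓 le_top (t4cy_irreducible_p 𝔓) hϖ N' h h49 su₁ hx₁ hxb₁ su hx hxb)
    (dlqVert 𝔓 ⊤ (t4cy_irreducible_p 𝔓) N' h h49 su₁ hx₁ hxb₁) (dlqVert 𝔓 H hϖ N' h h49 su hx hxb)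
    (dlqlF_D 𝔓 le_top N') P hP₁ hP₂).mp ⟨Q₁, hs₁'⟩
  exact ⟨⟨ϖ, hϖ, n, su, hx, hxb, Q', hs, (dlqVert 𝔓 H hϖ N' h h49 su hx hxb).node hs,
    mltj6_vertNode_toDlLocal 𝔓 H hϖ N' h h49 su hx hxb hs⟩⟩

end Ex

/-! ### (CHAR-I), (CHAR-II) -/

/-- a node datum at the level `⊤` over the same place -/
theorem mltj6_exists_nodeAt_top {H : Subgroup 𝔓.I} [H.FiniteIndex]
    (d : MltJ6NodeAt 𝔓 N' h h49 H P) : Nonempty (MltJ6NodeAt 𝔓 N' h h49 ⊤ P) := by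
  obtain ⟨n₁, su₁, hx₁, hxb₁⟩ := s33q_exists_setup_level 𝔓 N' h h49 (⊤ : Subgroup 𝔓.I)
  obtain ⟨Q₁, hs₁⟩ := mltj6_node_top d (t4cy_irreducible_p 𝔓) su₁ hx₁ hxb₁
  exact mltj6_exists_nodeAt_of_node 𝔓 N' h h49 su₁ hx₁ hxb₁ hs₁ ⊤

/-- **(CHAR-I)** -/
theorem mltj6_charI : MltJ6CharI := by
  intro 𝔓 N' _ h h49 H _ P d Q r hr
  obtain ⟨d₁⟩ := mltj6_exists_nodeAt_top d
  have hthr₁ : mltj6Through d₁ Q := mltj6_through_down le_top d₁ d Q hr.1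
  have hex : ∃ r : ℚ, ∃ d : MltJ6NodeAt 𝔓 N' h h49 ⊤ P, MltJ6PosAt d Q r :=
    ⟨_, d₁, (mltj6_posAt_iff d₁ Q).mpr ⟨hthr₁, rfl⟩⟩
  unfold mltj6Pos
  rw [dif_pos hex]
  obtain ⟨d₂, hd₂⟩ := hex.choose_spec
  exact (mltj6_posAt_unique le_top d₂ d Q hr hd₂).symm

/-- **(CHAR-II)** -/
theorem mltj6_charII : MltJ6CharII := by
  intro 𝔓 N' _ h h49 H _ P d Q hnot
  unfold mltj6Pos
  rw [dif_neg]
  rintro ⟨r, d₁, hr⟩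
  exact hnot (mltj6_through_up le_top d₁ d Q hr.1)

end Fermat.Agent.MLT
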