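/-
MLT / [L2] / P6 (helper8), part 13: **literal contracts around the exact conservation law over `ℚ̄`**.

* `MltJ6LawQ`      : THE EXACT LAW at every level `H`: for a node datum `d` at the level `H` over `P`, a function
  `z ≠ 0` of `F_H` and `D = div (Φ_H z)`:
      `sl(D)_P · w = slope(z) · w − (ord_{W'} z − ord_W z)`.
  (proved in `P6/LawQ.lean` from the three contracts below)
* `MltJ6LevelFix`  : every finite set of places of `F̄ / ℚ̄` is fixed pointwise by a finite index subgroup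
  `H' ≤ H` of the inertia group;
* `MltJ6ValRat`    : the values at an `H`-stable place of the functions of `F_H` lie in `L_H`;
* `MltJ6PlaceUniq` : an `H`-stable place is the ONLY place of `F̄ / ℚ̄` above its restriction to `F_H`.
-/
import Mathlib
import Fermat.Agent.Lib.MLT.L2.P6.SlDef

set_option autoImplicit false
set_option linter.unusedSectionVars false
set_option linter.unusedVariables false
set_option linter.style.haveILetI false
set_option synthInstance.maxHeartbeats 400000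
set_option maxHeartbeats 1000000

open HahnSeries ModularCurve Fermat.Agent.T1 Fermat.Agent.T2 Fermat.Agent.T4 Fermat.Agent.TW
  Fermat.Agent.S05Lib Fermat.Agent.S24Lib IntermediateField AlgebraicCurve Fermat.Agent.Curve Module
  Fermat.Agent.S33 Fermat.Agent.S33Q Fermat.Agent.Delta Fermat.Agent.Curve.PlaceAux

noncomputable section

namespace Fermat.Agent.MLT

local notation "Qb" => AlgebraicClosure ℚ
local notation "GQ" => (AlgebraicClosure ℚ ≃ₐ[ℚ] AlgebraicClosure ℚ)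

attribute [local instance] t2i_dvr t2i_isAlgClosed t2i_charP t2i_fact
attribute [local instance 10000] dliAlgF dliAlgE

/-- **THE EXACT CONSERVATION LAW over `ℚ̄`, at every level** -/
def MltJ6LawQ : Prop :=
  ∀ (𝔓 : FFPlace) (N' : ℕ) [NeZero N'] (h : ¬ 𝔓.p ∣ N') (h49 : 4 ∣ N' ∨ 9 ∣ N')
    (H : Subgroup 𝔓.I) [H.FiniteIndex]
    (P : Place (IsLocalRing.ResidueField ↥𝔓.P) ↥(tbBarF 𝔓 N'))
    (d : MltJ6NodeAt 𝔓 N' h h49 H P) (z : ↥(tbLevF 𝔓 (N' * 𝔓.p) H)), z ≠ 0 →
    ∀ D : Divisor Qb ↥(modularFunctionFieldBar (N' * 𝔓.p)),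
      (∀ v : Place Qb ↥(modularFunctionFieldBar (N' * 𝔓.p)),
        D v = v.ord (tbPhiF 𝔓 (N' * 𝔓.p) H z)) →
      mltj6Sl 𝔓 N' h h49 D P * (d.𝒩.w : ℚ) =
        ((d.𝒩.slope z * d.𝒩.w - (d.𝒩.oW' z - d.𝒩.oW z) : ℤ) : ℚ)

/-- every finite set of places of `F̄ / ℚ̄` is fixed pointwise by a finite index subgroup `H' ≤ H` of
the inertia group -/
def MltJ6LevelFix : Prop :=
  ∀ (𝔓 : FFPlace) (N : ℕ) [NeZero N] (H : Subgroup 𝔓.I) [H.FiniteIndex]
    (S : Finset (Place Qb ↥(modularFunctionFieldBar N))),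
    ∃ H' : Subgroup 𝔓.I, H'.FiniteIndex ∧ H' ≤ H ∧ ∀ σ : 𝔓.I, σ ∈ H' → ∀ Q ∈ S,
      arithmeticGalois (modularFunctionFieldFull N) ((σ : 𝔓.I) : GQ) • Q = Q

/-- the values at an `H`-stable place of the functions of `F_H` lie in `L_H` -/
def MltJ6ValRat : Prop :=
  ∀ (𝔓 : FFPlace) (N : ℕ) [NeZero N] (H : Subgroup 𝔓.I)
    (Q : Place Qb ↥(modularFunctionFieldBar N)),
    (∀ σ : 𝔓.I, σ ∈ H →
      arithmeticGalois (modularFunctionFieldFull N) ((σ : 𝔓.I) : GQ) • Q = Q) →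
    ∀ (f : ↥(tbLevF 𝔓 N H)) (θ : Qb),
      OrdGE Q (tbPhiF 𝔓 N H f - algebraMap Qb ↥(modularFunctionFieldBar N) θ) 1 →
      θ ∈ tbFix 𝔓 H

/-- an `H`-stable place is the only place of `F̄ / ℚ̄` above its restriction to `F_H` -/
def MltJ6PlaceUniq : Prop :=
  ∀ (𝔓 : FFPlace) (N : ℕ) [NeZero N] (H : Subgroup 𝔓.I)
    (Q Q' : Place Qb ↥(modularFunctionFieldBar N)),
    (∀ σ : 𝔓.I, σ ∈ H →
      arithmeticGalois (modularFunctionFieldFull N) ((σ : 𝔓.I) : GQ) • Q = Q) →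
    mltj6Res H N Q = mltj6Res H N Q' → Q = Q'

end Fermat.Agent.MLT
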