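/-
MLT / [L2] / P6 (helper8), part 14: **the exact conservation law over `ℚ̄` at a RATIONAL level**.

`d` a node datum at the level `H` over `P`, `z ≠ 0` a function of `F_H`, `D = div (Φ_H z)`.  If every
point `Q` of the support of `D` through the node is `L_H`-rational (the value of the coordinate `t` at `Q`
lies in `L_H`, and `Q` is the only place above its restriction to `F_H`), then
      `sl(D)_P · w = slope(z) · w − (ord_{W'} z − ord_W z)`.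

* `mltj6_ord_const`    : `v_𝔓(c) = ord_O(c) · v_𝔓(ϖ)` for the constants `c ∈ L_H`;
* `mltj6_cfe`          : `ord_Q (Φ_H f) = ord_{Res_H Q} f`  (CFE);
* `mltj6_exists_above` : every horizontal valuation ring through the node is the restriction of a place;
* `mltj6_valAt_of_ev`  : a rational point through the node gives a `MltJ6ValAt`;
* `mltj6_pos_mul_w`    : `pos_P(Q) · w = κ(Res_H Q)` for a rational point through the node;
* **`mltj6_law_core`**.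
-/
import Mathlib
import Fermat.Agent.Lib.MLT.L2.P6.CharI
import Fermat.Agent.Lib.MLT.L2.P6.LawDef

set_option autoImplicit false
set_option linter.unusedSectionVars false
set_option linter.unusedVariables false
set_option linter.style.haveILetI false
set_option synthInstance.maxHeartbeats 400000
set_option maxHeartbeats 1000000

open HahnSeries ModularCurve Fermat.Agent.T1 Fermat.Agent.T2 Fermat.Agent.T4 Fermat.Agent.TW
  Fermat.Agent.S05Lib Fermat.Agent.S24Lib IntermediateField AlgebraicCurve Fermat.Agent.Curve Module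
  Fermat.Agent.S33 Fermat.Agent.S33Q Fermat.Agent.Delta Fermat.Agent.Curve.PlaceAux

noncomputable section

namespace Fermat.Agent.MLT

local notation "Qb" => AlgebraicClosure ℚ

attribute [local instance] t2i_dvr t2i_isAlgClosed t2i_charP t2i_fact
attribute [local instance 10000] dliAlgF dliAlgE

variable {𝔓 : FFPlace} {N' : ℕ} [NeZero N'] {h : ¬ 𝔓.p ∣ N'} {h49 : 4 ∣ N' ∨ 9 ∣ N'}
  {P : Place (IsLocalRing.ResidueField ↥𝔓.P) ↥(tbBarF 𝔓 N')}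
  {H : Subgroup 𝔓.I} [H.FiniteIndex] (d : MltJ6NodeAt 𝔓 N' h h49 H P)

/-- the order of an integral power -/
theorem mltj6_qval_ord_zpow {K : Type*} [Field K] (v : QVal K) {x : K} (hx : x ≠ 0) (n : ℤ) :
    v.ord (x ^ n) = n * v.ord x := by
  obtain ⟨m, rfl | rfl⟩ := n.eq_nat_or_neg
  · rw [zpow_natCast, v.ord_pow hx]
    push_cast
    ring
  · rw [zpow_neg, zpow_natCast, v.ord_inv (pow_ne_zero _ hx), v.ord_pow hx]
    push_cast
    ring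

/-- the elements of `L_H` of `O_H`-valuation `1` have `𝔓`-order `0` -/
theorem mltj6_ord_of_val_one {u : ↥(tbFix 𝔓 H)} (hu : (tbFixO 𝔓 H).valuation u = 1) :
    𝔓.v.Is (u : Qb) 0 := by
  have hmem : u ∈ tbFixO 𝔓 H := (ValuationSubring.valuation_le_one_iff _ _).mp hu.le
  have hunit : IsUnit (⟨u, hmem⟩ : ↥(tbFixO 𝔓 H)) :=
    (ValuationSubring.valuation_eq_one_iff _ _).mpr hu
  exact mltj6_ord_unit (𝔓 := 𝔓) (H := H) hunit

/-- **the `𝔓`-order of a constant of `L_H`** -/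
theorem mltj6_ord_const {c : ↥(tbFix 𝔓 H)} (hc : c ≠ 0) :
    𝔓.v.ord (c : Qb) =
      (dlOrd d.𝒩.O c : ℚ) * 𝔓.v.ord (((d.ϖ : ↥(tbFixO 𝔓 H)) : ↥(tbFix 𝔓 H)) : Qb) := by
  rw [mltj6_dlOrd_congr (mltj6_nodeAt_O d) c]
  have h1 : dlOrd (tbFixO 𝔓 H) ((d.ϖ : ↥(tbFixO 𝔓 H)) : ↥(tbFix 𝔓 H)) = 1 :=
    dlOrd_coe_irreducible (tbFixO 𝔓 H) d.hϖ
  obtain ⟨u, hu, hcu⟩ := dl_exists_unit_mul_zpow (tbFixO 𝔓 H) h1 hc
  obtain ⟨hu0, huo⟩ := mltj6_ord_of_val_one hu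
  have hϖ0 : (((d.ϖ : ↥(tbFixO 𝔓 H)) : ↥(tbFix 𝔓 H)) : Qb) ≠ 0 := by
    intro h0
    have : d.ϖ = 0 := Subtype.ext (Subtype.ext h0)
    exact d.hϖ.ne_zero this
  have h2 : (c : Qb) = (u : Qb) *
      (((d.ϖ : ↥(tbFixO 𝔓 H)) : ↥(tbFix 𝔓 H)) : Qb) ^ dlOrd (tbFixO 𝔓 H) c := by
    have := congrArg (fun x : ↥(tbFix 𝔓 H) => (x : Qb)) hcu
    simp only [MulMemClass.coe_mul] at this
    rw [this]
    congr 1
  rw [h2, 𝔓.v.ord_mul' hu0 (zpow_ne_zero _ hϖ0), huo, zero_add, mltj6_qval_ord_zpow 𝔓.v hϖ0]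

/-! ### CFE -/

section Cfe

variable {N : ℕ} [NeZero N] {H' : Subgroup 𝔓.I}

/-- **(CFE)**: the order at `Q` of a function of `F_H` is its order at the restriction of `Q` -/
theorem mltj6_cfe (Q : Place Qb ↥(modularFunctionFieldBar N)) (f : ↥(tbLevF 𝔓 N H')) :
    Q.ord (tbPhiF 𝔓 N H' f) = (mltj6ResPlace H' N Q).ord f := by
  haveI : CharZero ↥(tbFix 𝔓 H') := algebraRat.charZero _
  obtain ⟨Q₁, hQ₁, hord⟩ := t4ru_cfe_of_ext ↥(tbFix 𝔓 H') N (mltj6ResPlace H' N Q)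
    Q.toValuationSubring (fun y => Iff.rfl)
  have hQQ : Q₁ = Q := Place.ext hQ₁
  have h1 := hord f
  rw [hQQ] at h1
  exact h1

/-- every place of `F_H / L_H` is the restriction of a place of `F̄ / ℚ̄` -/
theorem mltj6_exists_res_eq (v : Place ↥(tbFix 𝔓 H') ↥(tbLevF 𝔓 N H')) :
    ∃ Q : Place Qb ↥(modularFunctionFieldBar N), mltj6Res H' N Q = v.toValuationSubring := by
  obtain ⟨Q, hQ⟩ := t4ru_cfe_fix 𝔓 H' N v
  refine ⟨Q, ?_⟩
  ext f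
  rw [mem_mltj6Res, PlaceAux.mem_iff, PlaceAux.mem_iff, hQ]
  constructor
  · rintro (h0 | h0)
    · left
      exact (map_eq_zero (tbPhiF 𝔓 N H')).mp h0
    · right
      exact h0
  · rintro (h0 | h0)
    · left
      rw [h0, map_zero]
    · right
      exact h0

end Cfe

/-! ### the rational points through the node -/

/-- every horizontal valuation ring through the node is the restriction of a place -/
theorem mltj6_exists_above {V : ValuationSubring ↥(tbLevF 𝔓 (N' * 𝔓.p) H)} (hV : V ∈ d.𝒩.hor) :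
    ∃ Q : Place Qb ↥(modularFunctionFieldBar (N' * 𝔓.p)), mltj6Res H (N' * 𝔓.p) Q = V := by
  have h1 : V ∈ d.C.P.through (d.C.n₁ P d.hP) := by
    rw [← mltj6_nodeAt_vals]
    exact hV.1
  rcases d.C.vals_cases h1.1 with h2 | h2 | h2
  · exact absurd (h2.trans (mltj6_nodeAt_W d).symm) hV.2.1
  · exact absurd (h2.trans (mltj6_nodeAt_W' d).symm) hV.2.2
  · obtain ⟨v, hv, -⟩ := h2
    obtain ⟨Q, hQ⟩ := mltj6_exists_res_eq (N := N' * 𝔓.p) v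
    exact ⟨Q, hQ.trans hv⟩

variable (Q : Place Qb ↥(modularFunctionFieldBar (N' * 𝔓.p))) (hthr : mltj6Through d Q)

/-- a point through the node at which the coordinate `t` takes a value of `L_H` -/
theorem mltj6_valAt_of_ev (c : ↥(tbFix 𝔓 H))
    (hc : mltj6Ev d Q hthr ⟨d.𝒩.t, d.𝒩.ht⟩ = (c : Qb)) :
    MltJ6ValAt d.𝒩 (mltj6Res H (N' * 𝔓.p) Q) c := by
  have hcO : c ∈ d.𝒩.O := by
    rw [mltj6_nodeAt_O]
    have := mltj6Ev_mem_P d Q hthr ⟨d.𝒩.t, d.𝒩.ht⟩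
    rw [hc] at this
    exact this
  have hcA : algebraMap ↥(tbFix 𝔓 H) ↥(tbLevF 𝔓 (N' * 𝔓.p) H) c ∈ d.𝒩.A := d.𝒩.O_le c hcO
  refine ⟨hthr, hcO, ?_⟩
  have h1 : mltj6Ev d Q hthr (⟨d.𝒩.t, d.𝒩.ht⟩ - ⟨_, hcA⟩) = 0 := by
    rw [map_sub, hc, mltj6Ev_const d Q hthr c hcA, sub_self]
  exact (mltj6Ev_eq_zero_iff d Q hthr _).mp h1

/-- **the position of a rational point through the node**: `pos_P(Q) · w = κ(Res_H Q)` -/
theorem mltj6_pos_mul_w (c : ↥(tbFix 𝔓 H))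
    (hc : mltj6Ev d Q hthr ⟨d.𝒩.t, d.𝒩.ht⟩ = (c : Qb)) :
    mltj6Pos 𝔓 N' h h49 P Q * (d.𝒩.w : ℚ) =
      ((mltj6Kap d.𝒩 (mltj6Res H (N' * 𝔓.p) Q) : ℤ) : ℚ) := by
  have hval := mltj6_valAt_of_ev d Q hthr c hc
  have hpos : mltj6Pos 𝔓 N' h h49 P Q = 1 - 𝔓.v.ord (c : Qb) := by
    rw [← hc]
    exact mltj6_charI 𝔓 N' h h49 H P d Q _ ((mltj6_posAt_iff d Q).mpr ⟨hthr, rfl⟩)
  rw [hpos, mltj6_valAt_kap hval, mltj6_ord_const d (mltj6_valAt_ne_zero hval)]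
  have hw := mltj6_w_mul_ord d
  push_cast
  linear_combination (-(dlOrd d.𝒩.O c : ℚ)) * hw

/-! ### the law -/

section Law

variable {z : ↥(tbLevF 𝔓 (N' * 𝔓.p) H)}
  (D : Divisor Qb ↥(modularFunctionFieldBar (N' * 𝔓.p)))
  (hD : ∀ v : Place Qb ↥(modularFunctionFieldBar (N' * 𝔓.p)),
    D v = v.ord (tbPhiF 𝔓 (N' * 𝔓.p) H z))
  (hR : ∀ Q : Place Qb ↥(modularFunctionFieldBar (N' * 𝔓.p)), D Q ≠ 0 →
    ∀ hthr : mltj6Through d Q, ∃ c : ↥(tbFix 𝔓 H),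
      mltj6Ev d Q hthr ⟨d.𝒩.t, d.𝒩.ht⟩ = (c : Qb))

include hD in
/-- the multiplicity of a point through the node is the horizontal order of `z` -/
theorem mltj6_mult_eq : (D Q : ℤ) = d.𝒩.oH (mltj6Res H (N' * 𝔓.p) Q) hthr z := by
  rw [hD Q, mltj6_cfe Q z]
  rfl

include hD hR in
/-- the contribution of a point of the support -/
theorem mltj6_term (hQ : D Q ≠ 0) :
    ((D Q : ℤ) : ℚ) * mltj6Pos 𝔓 N' h h49 P Q * (d.𝒩.w : ℚ) =
      ((d.𝒩.oHt (mltj6Res H (N' * 𝔓.p) Q) z * mltj6Kap d.𝒩 (mltj6Res H (N' * 𝔓.p) Q) : ℤ) : ℚ) := by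
  by_cases hthr : mltj6Through d Q
  · obtain ⟨c, hc⟩ := hR Q hQ hthr
    rw [mul_assoc, mltj6_pos_mul_w d Q hthr c hc, d.𝒩.oHt_eq hthr z, mltj6_mult_eq d Q hthr D hD]
    push_cast
    ring
  · rw [mltj6_charII 𝔓 N' h h49 H P d Q hthr, mltj6_oHt_of_not_mem d.𝒩 hthr]
    simp

include hD hR in
/-- **THE EXACT CONSERVATION LAW over `ℚ̄` at a rational level** -/
theorem mltj6_law_core (hz : z ≠ 0)
    (hU : ∀ Q Q' : Place Qb ↥(modularFunctionFieldBar (N' * 𝔓.p)), D Q ≠ 0 → mltj6Through d Q →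
      mltj6Res H (N' * 𝔓.p) Q = mltj6Res H (N' * 𝔓.p) Q' → Q = Q') :
    mltj6Sl 𝔓 N' h h49 D P * (d.𝒩.w : ℚ) =
      ((d.𝒩.slope z * d.𝒩.w - (d.𝒩.oW' z - d.𝒩.oW z) : ℤ) : ℚ) := by
  classical
  rw [mltj6Sl_apply, Finsupp.sum, Finset.sum_mul]
  have h1 : ∀ Q ∈ D.support, ((D Q : ℤ) : ℚ) * mltj6Pos 𝔓 N' h h49 P Q * (d.𝒩.w : ℚ) =
      ((d.𝒩.oHt (mltj6Res H (N' * 𝔓.p) Q) z * mltj6Kap d.𝒩 (mltj6Res H (N' * 𝔓.p) Q) : ℤ) : ℚ) :=
    fun Q hQ => mltj6_term d Q D hD hR (Finsupp.mem_support_iff.mp hQ)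
  rw [Finset.sum_congr rfl h1, ← Int.cast_sum]
  congr 1
  set T : Finset (Place Qb ↥(modularFunctionFieldBar (N' * 𝔓.p))) :=
    D.support.filter (fun Q => mltj6Through d Q) with hT
  have h2 : ∑ Q ∈ T, d.𝒩.oHt (mltj6Res H (N' * 𝔓.p) Q) z * mltj6Kap d.𝒩 (mltj6Res H (N' * 𝔓.p) Q) =
      ∑ Q ∈ D.support,
        d.𝒩.oHt (mltj6Res H (N' * 𝔓.p) Q) z * mltj6Kap d.𝒩 (mltj6Res H (N' * 𝔓.p) Q) := by
    refine Finset.sum_filter_of_ne fun Q _ hne => ?_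
    by_contra hnot
    apply hne
    rw [mltj6_oHt_of_not_mem d.𝒩 hnot, zero_mul]
  have hinj : ∀ Q ∈ T, ∀ Q' ∈ T,
      mltj6Res H (N' * 𝔓.p) Q = mltj6Res H (N' * 𝔓.p) Q' → Q = Q' := by
    intro Q hQ Q' _ hres
    rw [hT, Finset.mem_filter, Finsupp.mem_support_iff] at hQ
    exact hU Q Q' hQ.1 hQ.2 hres
  have h3 : ∑ V ∈ T.image (fun Q => mltj6Res H (N' * 𝔓.p) Q), d.𝒩.oHt V z * mltj6Kap d.𝒩 V =
      ∑ Q ∈ T,
        d.𝒩.oHt (mltj6Res H (N' * 𝔓.p) Q) z * mltj6Kap d.𝒩 (mltj6Res H (N' * 𝔓.p) Q) :=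
    Finset.sum_image hinj
  rw [← h2, ← h3]
  refine mltj6_node_law' d.𝒩 hz _ fun V hV hne => ?_
  obtain ⟨Q, hQ⟩ := mltj6_exists_above d hV
  subst hQ
  refine Finset.mem_image.mpr ⟨Q, ?_, rfl⟩
  rw [hT, Finset.mem_filter, Finsupp.mem_support_iff]
  refine ⟨?_, hV⟩
  rw [mltj6_mult_eq d Q hV D hD]
  exact hne

end Law

end Fermat.Agent.MLT
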