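/-
MLT / [L2] / P6 (helper8), part 15: **change of the level in the terms of the exact conservation law**.

`H ≤ H₁` finite index subgroups of the inertia group, `d₁`, `d` node data at the levels `H₁`, `H` over the same
place `P`, `ιF = dlqlF 𝔓 hle : F_{H₁} → F_H`, `z₁ ≠ 0` in `F_{H₁}`.

* `mltj6_lev_slope` : `slope_d (ιF z₁) = slope_{d₁} z₁`;
* `mltj6_lev_w`     : `ord_{O_H}(ϖ₁) · w₁ = w`;
* `mltj6_lev_oW`, `mltj6_lev_oW'` : `ord_W (ιF z₁) · w₁ = ord_{W₁} z₁ · w` (and the same for `W'`).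
-/
import Mathlib
import Fermat.Agent.Lib.MLT.L2.P6.LawCore

set_option autoImplicit false
set_option linter.unusedSectionVars false
set_option linter.unusedVariables false
set_option linter.style.haveILetI false
set_option synthInstance.maxHeartbeats 400000
set_option maxHeartbeats 1000000

open HahnSeries ModularCurve Fermat.Agent.T1 Fermat.Agent.T2 Fermat.Agent.T4 Fermat.Agent.TW
  Fermat.Agent.S05Lib Fermat.Agent.S24Lib IntermediateField AlgebraicCurve Fermat.Agent.Curve Module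
  Fermat.Agent.S33 Fermat.Agent.S33Q Fermat.Agent.Delta Fermat.Agent.Curve.PlaceAux

noncomputable section

namespace Fermat.Agent.MLT

local notation "Qb" => AlgebraicClosure ℚ

attribute [local instance] t2i_dvr t2i_isAlgClosed t2i_charP t2i_fact
attribute [local instance 10000] dliAlgF dliAlgE

/-- **orders under the restriction of a discrete valuation ring**:
`ord_V (ι f) = ord_{V ∩ K₁} f · ord_V (ι π₁)`, `π₁` a uniformiser of `V ∩ K₁` -/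
theorem mltj6_dlOrd_comap {K₁ K : Type*} [Field K₁] [Field K] (ι : K₁ →+* K)
    (V : ValuationSubring K) [IsDiscreteValuationRing V] (V₁ : ValuationSubring K₁)
    [IsDiscreteValuationRing V₁] (hV₁ : V.comap ι = V₁) {π₁ : K₁} (hπ₁ : dlOrd V₁ π₁ = 1)
    {f : K₁} (hf : f ≠ 0) : dlOrd V (ι f) = dlOrd V₁ f * dlOrd V (ι π₁) := by
  obtain ⟨u, hu, hfu⟩ := dl_exists_unit_mul_zpow V₁ hπ₁ hf
  have hu0 : u ≠ 0 := by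
    rintro rfl
    rw [map_zero] at hu
    exact zero_ne_one hu
  have hπ0 : π₁ ≠ 0 := by
    rintro rfl
    simp at hπ₁
  have h1 : V.valuation (ι u) = 1 := by
    rw [← hV₁] at hu
    exact (mltj6_val_comap_eq_one ι V hu0).mp hu
  have hιu0 : ι u ≠ 0 := (_root_.map_ne_zero ι).mpr hu0
  have hιπ0 : ι π₁ ≠ 0 := (_root_.map_ne_zero ι).mpr hπ0
  have h2 : dlOrd V (ι u) = 0 := (dl_valuation_eq_one_iff V hιu0).mp h1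
  have h3 : ι f = ι u * ι π₁ ^ dlOrd V₁ f := by
    conv_lhs => rw [hfu]
    rw [map_mul, map_zpow₀]
  rw [h3, dlOrd_mul V hιu0 (zpow_ne_zero _ hιπ0), h2, zero_add, dlOrd_zpow]

variable {𝔓 : FFPlace} {N' : ℕ} [NeZero N'] {h : ¬ 𝔓.p ∣ N'} {h49 : 4 ∣ N' ∨ 9 ∣ N'}
  {P : Place (IsLocalRing.ResidueField ↥𝔓.P) ↥(tbBarF 𝔓 N')}
  {H₁ H : Subgroup 𝔓.I} [H₁.FiniteIndex] [H.FiniteIndex] (hle : H ≤ H₁)
  (d₁ : MltJ6NodeAt 𝔓 N' h h49 H₁ P) (d : MltJ6NodeAt 𝔓 N' h h49 H P)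

include hle in
/-- **the slope does not depend on the level** -/
theorem mltj6_lev_slope {z₁ : ↥(tbLevF 𝔓 (N' * 𝔓.p) H₁)} (hz₁ : z₁ ≠ 0) :
    d.𝒩.slope (dlqlF 𝔓 hle (N' * 𝔓.p) z₁) = d₁.𝒩.slope z₁ := by
  set T₁ := dlqVert 𝔓 H₁ d₁.hϖ N' h h49 d₁.su d₁.hx d₁.hxb with hT₁
  set T := dlqVert 𝔓 H d.hϖ N' h h49 d.su d.hx d.hxb with hT
  have e1 : d.𝒩.slope (dlqlF 𝔓 hle (N' * 𝔓.p) z₁) =
      (T.node d.hs).slope (dlqlF 𝔓 hle (N' * 𝔓.p) z₁) :=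
    mltj6_indep_slope (T.node d.hs) d.𝒩
      (d.h𝒩.trans (mltj6_vertNode_toDlLocal 𝔓 H d.hϖ N' h h49 d.su d.hx d.hxb d.hs).symm) _
  have e2 : (T.cross d.hs).slope (dlqlF 𝔓 hle (N' * 𝔓.p) z₁) = (T₁.cross d₁.hs).slope z₁ :=
    dlqf_slope_hom (mltj6LevHom hle d₁ d) d₁.hs (T₁.hfin _ _) T₁.hens T₁.D T₁.hD0 T₁.hDhor
      T₁.hD1 T₁.hD2 d.hs (T.hfin _ _) T.hens T.D T.hD0 T.hDhor T.hD1 T.hD2 rfl hz₁
  have e3 : (T₁.node d₁.hs).slope z₁ = d₁.𝒩.slope z₁ :=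
    mltj6_indep_slope d₁.𝒩 (T₁.node d₁.hs)
      ((mltj6_vertNode_toDlLocal 𝔓 H₁ d₁.hϖ N' h h49 d₁.su d₁.hx d₁.hxb d₁.hs).trans
        d₁.h𝒩.symm) _
  rw [e1, T.node_slope, e2, ← T₁.node_slope, e3]

/-- the uniformiser of a node datum is not zero -/
theorem mltj6_nodeAt_ϖ_ne_zero : d.𝒩.ϖ ≠ 0 := by
  rw [mltj6_nodeAt_ϖ]
  intro h0
  have : d.ϖ = 0 := Subtype.ext h0
  exact d.hϖ.ne_zero this

include hle in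
/-- **the thickness and the ramification**: `ord_{O_H}(ϖ₁) · w₁ = w` -/
theorem mltj6_lev_w : dlOrd d.𝒩.O (t4cyInc 𝔓 hle d₁.𝒩.ϖ) * (d₁.𝒩.w : ℤ) = (d.𝒩.w : ℤ) := by
  have hc0 : t4cyInc 𝔓 hle d₁.𝒩.ϖ ≠ 0 :=
    (_root_.map_ne_zero (t4cyInc 𝔓 hle)).mpr (mltj6_nodeAt_ϖ_ne_zero d₁)
  have h1 := mltj6_ord_const d hc0
  set k : ℤ := dlOrd d.𝒩.O (t4cyInc 𝔓 hle d₁.𝒩.ϖ) with hk
  rw [coe_t4cyInc, mltj6_nodeAt_ϖ d₁] at h1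
  have hw₁ := mltj6_w_mul_ord d₁
  have hw := mltj6_w_mul_ord d
  have h2 : ((k * (d₁.𝒩.w : ℤ) : ℤ) : ℚ) = ((d.𝒩.w : ℤ) : ℚ) := by
    push_cast
    rw [h1] at hw₁
    linear_combination (d.𝒩.w : ℚ) * hw₁ - (k : ℚ) * (d₁.𝒩.w : ℚ) * hw
  exact_mod_cast h2

include hle in
/-- the order at a vertical valuation ring under the change of the level, abstract form -/
theorem mltj6_lev_oV (V : ValuationSubring ↥(tbLevF 𝔓 (N' * 𝔓.p) H))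
    [IsDiscreteValuationRing V] (V₁ : ValuationSubring ↥(tbLevF 𝔓 (N' * 𝔓.p) H₁))
    [IsDiscreteValuationRing V₁] (hV₁ : V.comap (dlqlF 𝔓 hle (N' * 𝔓.p)) = V₁)
    (hϖ₁ : dlOrd V₁ (algebraMap ↥(tbFix 𝔓 H₁) ↥(tbLevF 𝔓 (N' * 𝔓.p) H₁) d₁.𝒩.ϖ) = 1)
    (hc : dlOrd V (algebraMap ↥(tbFix 𝔓 H) ↥(tbLevF 𝔓 (N' * 𝔓.p) H) (t4cyInc 𝔓 hle d₁.𝒩.ϖ)) =
      dlOrd d.𝒩.O (t4cyInc 𝔓 hle d₁.𝒩.ϖ))
    {z₁ : ↥(tbLevF 𝔓 (N' * 𝔓.p) H₁)} (hz₁ : z₁ ≠ 0) :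
    dlOrd V (dlqlF 𝔓 hle (N' * 𝔓.p) z₁) * (d₁.𝒩.w : ℤ) = dlOrd V₁ z₁ * (d.𝒩.w : ℤ) := by
  have h1 := mltj6_dlOrd_comap (dlqlF 𝔓 hle (N' * 𝔓.p)) V V₁ hV₁ hϖ₁ hz₁
  rw [dlqlF_algebraMap, hc] at h1
  rw [h1, mul_assoc, mltj6_lev_w hle d₁ d]

include hle in
/-- **the order at `W` under the change of the level** -/
theorem mltj6_lev_oW {z₁ : ↥(tbLevF 𝔓 (N' * 𝔓.p) H₁)} (hz₁ : z₁ ≠ 0) :
    d.𝒩.oW (dlqlF 𝔓 hle (N' * 𝔓.p) z₁) * (d₁.𝒩.w : ℤ) = d₁.𝒩.oW z₁ * (d.𝒩.w : ℤ) := by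
  have hc0 : t4cyInc 𝔓 hle d₁.𝒩.ϖ ≠ 0 :=
    (_root_.map_ne_zero (t4cyInc 𝔓 hle)).mpr (mltj6_nodeAt_ϖ_ne_zero d₁)
  refine mltj6_lev_oV hle d₁ d d.𝒩.W d₁.𝒩.W ?_ (dln_oW_pi d₁.𝒩.toDlLocal)
    (dln_const d.𝒩.toDlLocal hc0).1 hz₁
  rw [mltj6_nodeAt_W, mltj6_nodeAt_W]
  exact (mltj6LevHom hle d₁ d).comap_V₁

include hle in
/-- **the order at `W'` under the change of the level** -/
theorem mltj6_lev_oW' {z₁ : ↥(tbLevF 𝔓 (N' * 𝔓.p) H₁)} (hz₁ : z₁ ≠ 0) :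
    d.𝒩.oW' (dlqlF 𝔓 hle (N' * 𝔓.p) z₁) * (d₁.𝒩.w : ℤ) = d₁.𝒩.oW' z₁ * (d.𝒩.w : ℤ) := by
  have hc0 : t4cyInc 𝔓 hle d₁.𝒩.ϖ ≠ 0 :=
    (_root_.map_ne_zero (t4cyInc 𝔓 hle)).mpr (mltj6_nodeAt_ϖ_ne_zero d₁)
  refine mltj6_lev_oV hle d₁ d d.𝒩.W' d₁.𝒩.W' ?_ (dln_oW'_pi d₁.𝒩.toDlLocal)
    (dln_const d.𝒩.toDlLocal hc0).2.1 hz₁
  rw [mltj6_nodeAt_W', mltj6_nodeAt_W']
  exact (mltj6LevHom hle d₁ d).comap_V₂

end Fermat.Agent.MLT
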