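/-
MLT / [L2] / P6 (helper8), part 16: **THE EXACT CONSERVATION LAW over `ℚ̄` at every level**.

* `mltj6_exists_nodeAt_level` : node data exist at every level over the place of a node datum;
* **`mltj6_lawQ : MltJ6LevelFix → MltJ6ValRat → MltJ6PlaceUniq → MltJ6LawQ`**: pass to a level `H ≤ H₁` fixing
  the support of `div (Φ z₁)` pointwise, apply the law at the rational level (`mltj6_law_core`) and come back
  (`P6/LevChange`).
-/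
import Mathlib
import Fermat.Agent.Lib.MLT.L2.P6.LevChange

set_option autoImplicit false
set_option linter.unusedSectionVars false
set_option linter.unusedVariables false
set_option linter.style.haveILetI false
set_option synthInstance.maxHeartbeats 400000
set_option maxHeartbeats 1000000

open HahnSeries ModularCurve Fermat.Agent.T1 Fermat.Agent.T2 Fermat.Agent.T4 Fermat.Agent.TW
  Fermat.Agent.S05Lib Fermat.Agent.S24Lib IntermediateField AlgebraicCurve Fermat.Agent.Curve Module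
  Fermat.Agent.S33 Fermat.Agent.S33Q Fermat.Agent.Delta Fermat.Agent.Curve.PlaceAux

noncomputable section

namespace Fermat.Agent.MLT

local notation "Qb" => AlgebraicClosure ℚ
local notation "GQ" => (AlgebraicClosure ℚ ≃ₐ[ℚ] AlgebraicClosure ℚ)

attribute [local instance] t2i_dvr t2i_isAlgClosed t2i_charP t2i_fact
attribute [local instance 10000] dliAlgF dliAlgE

/-- node data exist at every level over the place of a node datum -/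
theorem mltj6_exists_nodeAt_level {𝔓 : FFPlace} {N' : ℕ} [NeZero N'] {h : ¬ 𝔓.p ∣ N'}
    {h49 : 4 ∣ N' ∨ 9 ∣ N'} {P : Place (IsLocalRing.ResidueField ↥𝔓.P) ↥(tbBarF 𝔓 N')}
    {H₁ : Subgroup 𝔓.I} [H₁.FiniteIndex] (d₁ : MltJ6NodeAt 𝔓 N' h h49 H₁ P)
    (H : Subgroup 𝔓.I) [H.FiniteIndex] : Nonempty (MltJ6NodeAt 𝔓 N' h h49 H P) := by
  obtain ⟨d₀⟩ := mltj6_exists_nodeAt_top d₁
  exact mltj6_exists_nodeAt_of_node 𝔓 N' h h49 d₀.su d₀.hx d₀.hxb d₀.hs H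

/-- **THE EXACT CONSERVATION LAW over `ℚ̄`, at every level** -/
theorem mltj6_lawQ (hA : MltJ6LevelFix) (hB : MltJ6ValRat) (hC : MltJ6PlaceUniq) : MltJ6LawQ := by
  intro 𝔓 N' _ h h49 H₁ _ P d₁ z₁ hz₁ D hD
  classical
  obtain ⟨H, hfin, hle, hfix⟩ := hA 𝔓 (N' * 𝔓.p) H₁ D.support
  haveI := hfin
  obtain ⟨d⟩ := mltj6_exists_nodeAt_level d₁ H
  set z := dlqlF 𝔓 hle (N' * 𝔓.p) z₁ with hz
  have hz0 : z ≠ 0 := dlqlF_ne_zero 𝔓 hle (N' * 𝔓.p) hz₁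
  have hD' : ∀ v : Place Qb ↥(modularFunctionFieldBar (N' * 𝔓.p)),
      D v = v.ord (tbPhiF 𝔓 (N' * 𝔓.p) H z) := by
    intro v
    rw [hD v, hz, tbPhiF_dlqlF]
  have hst : ∀ Q : Place Qb ↥(modularFunctionFieldBar (N' * 𝔓.p)), D Q ≠ 0 →
      ∀ σ : 𝔓.I, σ ∈ H →
        arithmeticGalois (modularFunctionFieldFull (N' * 𝔓.p)) ((σ : 𝔓.I) : GQ) • Q = Q :=
    fun Q hQ σ hσ => hfix σ hσ Q (Finsupp.mem_support_iff.mpr hQ)
  have hcore := mltj6_law_core d D hD'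
    (fun Q hQ hthr => ⟨⟨_, hB 𝔓 (N' * 𝔓.p) H Q (hst Q hQ) d.𝒩.t _
      (mltj6Ev_spec d Q hthr ⟨d.𝒩.t, d.𝒩.ht⟩)⟩, rfl⟩) hz0
    (fun Q Q' hQ _ hres => hC 𝔓 (N' * 𝔓.p) H Q Q' (hst Q hQ) hres)
  have hs : ((d.𝒩.slope z : ℤ) : ℚ) = (d₁.𝒩.slope z₁ : ℤ) := by
    rw [hz, mltj6_lev_slope hle d₁ d hz₁]
  have hW : ((d.𝒩.oW z : ℤ) : ℚ) * (d₁.𝒩.w : ℚ) = (d₁.𝒩.oW z₁ : ℤ) * (d.𝒩.w : ℚ) := by
    exact_mod_cast mltj6_lev_oW hle d₁ d hz₁
  have hW' : ((d.𝒩.oW' z : ℤ) : ℚ) * (d₁.𝒩.w : ℚ) = (d₁.𝒩.oW' z₁ : ℤ) * (d.𝒩.w : ℚ) := by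
    exact_mod_cast mltj6_lev_oW' hle d₁ d hz₁
  have hw0 : (d.𝒩.w : ℚ) ≠ 0 := by exact_mod_cast d.𝒩.hw.ne'
  apply mul_right_cancel₀ hw0
  push_cast at hcore ⊢
  linear_combination (d₁.𝒩.w : ℚ) * hcore + (d.𝒩.w : ℚ) * (d₁.𝒩.w : ℚ) * hs - hW' + hW

end Fermat.Agent.MLT
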