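/-
MLT / [L2] / P6 (helper8), part 17: **the field `princ` of `MltjSlope`** for the slope map `mltj6Sl`, `w = 1`.

* `mltj6_nodeAt_w_indep`, `mltj6_nodeAt_oW_indep`, `mltj6_nodeAt_oW'_indep` : the thickness and the vertical
  orders do not depend on the node datum of a given level `H` (not even on the place `P`);
* `mltj6_lawQ_div` : the exact law in the divided form `sl(div Φ z)_P = slope_P(z) − (ord_{W'} z − ord_W z) / w`;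
* **`mltj6_princ`** : `MltJ6LawQ →` for every principal divisor `D` there is a constant `c ∈ ℚ` with
  `sl(D)_P ∈ c + ℤ` for every supersingular place `P` (= first branch of a node of the level `⊤`; the condition
  is the unfolded form of `P ∈ mltjSS 𝔓 K hK h49` of `Contracts/L2JL.lean`).
-/
import Mathlib
import Fermat.Agent.Lib.MLT.L2.P6.LawQ
import Fermat.Agent.Lib.T2.Gal.Sigma

set_option autoImplicit false
set_option linter.unusedSectionVars false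
set_option linter.unusedVariables false
set_option linter.style.haveILetI false
set_option synthInstance.maxHeartbeats 400000
set_option maxHeartbeats 1000000

open HahnSeries ModularCurve Fermat.Agent.T1 Fermat.Agent.T2 Fermat.Agent.T4 Fermat.Agent.TW
  Fermat.Agent.S05Lib Fermat.Agent.S24Lib IntermediateField AlgebraicCurve Fermat.Agent.Curve Module
  Fermat.Agent.S33 Fermat.Agent.S33Q Fermat.Agent.Delta Fermat.Agent.Curve.PlaceAux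

noncomputable section

namespace Fermat.Agent.MLT

local notation "Qb" => AlgebraicClosure ℚ
local notation "GQ" => (AlgebraicClosure ℚ ≃ₐ[ℚ] AlgebraicClosure ℚ)

attribute [local instance] t2i_dvr t2i_isAlgClosed t2i_charP t2i_fact
attribute [local instance 10000] dliAlgF dliAlgE

section Indep

variable {𝔓 : FFPlace} {N' : ℕ} [NeZero N'] {h : ¬ 𝔓.p ∣ N'} {h49 : 4 ∣ N' ∨ 9 ∣ N'}
  {P P' : Place (IsLocalRing.ResidueField ↥𝔓.P) ↥(tbBarF 𝔓 N')}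
  {H : Subgroup 𝔓.I} [H.FiniteIndex] (d : MltJ6NodeAt 𝔓 N' h h49 H P)
  (d' : MltJ6NodeAt 𝔓 N' h h49 H P')

/-- **the thickness depends only on the level** -/
theorem mltj6_nodeAt_w_indep : d.𝒩.w = d'.𝒩.w := by
  have hc0 : ((d'.ϖ : ↥(tbFixO 𝔓 H)) : ↥(tbFix 𝔓 H)) ≠ 0 := by
    intro h0
    have : d'.ϖ = 0 := Subtype.ext h0
    exact d'.hϖ.ne_zero this
  have h1 := mltj6_ord_const d hc0
  have h2 : dlOrd d.𝒩.O ((d'.ϖ : ↥(tbFixO 𝔓 H)) : ↥(tbFix 𝔓 H)) = 1 := by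
    rw [mltj6_dlOrd_congr (mltj6_nodeAt_O d)]
    exact dlOrd_coe_irreducible (tbFixO 𝔓 H) d'.hϖ
  rw [h2] at h1
  have hw := mltj6_w_mul_ord d
  have hw' := mltj6_w_mul_ord d'
  rw [h1] at hw'
  have h3 : (d.𝒩.w : ℚ) = (d'.𝒩.w : ℚ) := by
    have hv0 : 𝔓.v.ord (((d.ϖ : ↥(tbFixO 𝔓 H)) : ↥(tbFix 𝔓 H)) : Qb) ≠ 0 := by
      intro h0
      rw [h0, mul_zero] at hw
      exact zero_ne_one hw
    apply mul_right_cancel₀ hv0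
    rw [hw]
    push_cast at hw'
    linarith
  exact_mod_cast h3

theorem mltj6_nodeAt_W_eq : d.𝒩.W =
    taOv (tbFixO 𝔓 H) (tbFixRes 𝔓 H) (tbFixRes_surjective 𝔓 H) (N' * 𝔓.p) :=
  (mltj6_nodeAt_W d).trans (dlxChart1_V₁ 𝔓 H d.hϖ N' h h49 d.su d.hx d.hxb)

theorem mltj6_nodeAt_W'_eq : d.𝒩.W' =
    dliO0 (tbFixO 𝔓 H) (tbFixRes 𝔓 H) (tbFixRes_surjective 𝔓 H) (t2iALFix 𝔓 H N' h) :=
  (mltj6_nodeAt_W' d).trans (dlxChart1_V₂ 𝔓 H d.hϖ N' h h49 d.su d.hx d.hxb)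

/-- the order at `W` depends only on the level -/
theorem mltj6_nodeAt_oW_indep (z : ↥(tbLevF 𝔓 (N' * 𝔓.p) H)) : d.𝒩.oW z = d'.𝒩.oW z := by
  have hW : d.𝒩.W = d'.𝒩.W := (mltj6_nodeAt_W_eq d).trans (mltj6_nodeAt_W_eq d').symm
  show dlOrd d.𝒩.W z = dlOrd d'.𝒩.W z
  exact mltj6_dlOrd_congr hW z

/-- the order at `W'` depends only on the level -/
theorem mltj6_nodeAt_oW'_indep (z : ↥(tbLevF 𝔓 (N' * 𝔓.p) H)) : d.𝒩.oW' z = d'.𝒩.oW' z := by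
  have hW : d.𝒩.W' = d'.𝒩.W' := (mltj6_nodeAt_W'_eq d).trans (mltj6_nodeAt_W'_eq d').symm
  show dlOrd d.𝒩.W' z = dlOrd d'.𝒩.W' z
  exact mltj6_dlOrd_congr hW z

end Indep

/-- **the exact law, divided form**: `sl(div Φ z)_P = slope_P(z) − (ord_{W'} z − ord_W z) / w` -/
theorem mltj6_lawQ_div (hL : MltJ6LawQ) {𝔓 : FFPlace} {N' : ℕ} [NeZero N'] {h : ¬ 𝔓.p ∣ N'}
    {h49 : 4 ∣ N' ∨ 9 ∣ N'} {P : Place (IsLocalRing.ResidueField ↥𝔓.P) ↥(tbBarF 𝔓 N')}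
    {H : Subgroup 𝔓.I} [H.FiniteIndex] (d : MltJ6NodeAt 𝔓 N' h h49 H P)
    {z : ↥(tbLevF 𝔓 (N' * 𝔓.p) H)} (hz : z ≠ 0)
    (D : Divisor Qb ↥(modularFunctionFieldBar (N' * 𝔓.p)))
    (hD : ∀ v : Place Qb ↥(modularFunctionFieldBar (N' * 𝔓.p)),
      D v = v.ord (tbPhiF 𝔓 (N' * 𝔓.p) H z)) :
    mltj6Sl 𝔓 N' h h49 D P =
      (d.𝒩.slope z : ℚ) - ((d.𝒩.oW' z - d.𝒩.oW z : ℤ) : ℚ) / (d.𝒩.w : ℚ) := by
  have h1 := hL 𝔓 N' h h49 H P d z hz D hD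
  have hw0 : (d.𝒩.w : ℚ) ≠ 0 := by exact_mod_cast d.𝒩.hw.ne'
  have h2 : mltj6Sl 𝔓 N' h h49 D P =
      ((d.𝒩.slope z * d.𝒩.w - (d.𝒩.oW' z - d.𝒩.oW z) : ℤ) : ℚ) / (d.𝒩.w : ℚ) := by
    rw [eq_div_iff hw0]
    exact h1
  rw [h2]
  push_cast
  field_simp

/-- **the field `princ` of `MltjSlope`** for `sl = mltj6Sl`, `w = 1` -/
theorem mltj6_princ (hL : MltJ6LawQ) (𝔓 : FFPlace) (K : ℕ) [NeZero K] (hK : ¬ 𝔓.p ∣ K)
    (h49 : 4 ∣ K ∨ 9 ∣ K) (D : Divisor Qb ↥(modularFunctionFieldBar (K * 𝔓.p)))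
    (hD : D ∈ Divisor.principal) :
    ∃ c : ℚ, ∀ P : Place (IsLocalRing.ResidueField ↥𝔓.P) ↥(tbBarF 𝔓 K),
      (∃ (n : ℕ) (su : T2Setup (t2iBase2Fix 𝔓 ⊤ K hK) (Fin n))
        (hx : su.x = t2gaX 𝔓 ⊤ K hK (𝔓.p ^ 2)) (hxb : su.xb = (s33qXi 𝔓 K, s33qXi 𝔓 K)),
        ∃ Q, (P, Q) ∈ (dlgDataH 𝔓 ⊤ K hK h49 su hx hxb).nodes) →
      ∃ n : ℤ, mltj6Sl 𝔓 K hK h49 D P = c + n := by
  classical
  obtain ⟨g, hg0, hgD⟩ := hD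
  obtain ⟨H, hfin, -, -, hT⟩ := t2gs_exists_level 𝔓 (K * 𝔓.p) ⊤ {g}
  haveI := hfin
  obtain ⟨z, hz⟩ := hT g (Finset.mem_singleton_self g)
  have hz0 : z ≠ 0 := by
    rintro rfl
    rw [map_zero] at hz
    exact hg0 hz.symm
  have hDz : ∀ v : Place Qb ↥(modularFunctionFieldBar (K * 𝔓.p)),
      D v = v.ord (tbPhiF 𝔓 (K * 𝔓.p) H z) := by
    intro v
    rw [hgD v, hz]
  by_cases hne : ∃ P₀ : Place (IsLocalRing.ResidueField ↥𝔓.P) ↥(tbBarF 𝔓 K),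
      ∃ (n : ℕ) (su : T2Setup (t2iBase2Fix 𝔓 ⊤ K hK) (Fin n))
        (hx : su.x = t2gaX 𝔓 ⊤ K hK (𝔓.p ^ 2)) (hxb : su.xb = (s33qXi 𝔓 K, s33qXi 𝔓 K)),
        ∃ Q, (P₀, Q) ∈ (dlgDataH 𝔓 ⊤ K hK h49 su hx hxb).nodes
  · obtain ⟨P₀, n₀, su₀, hx₀, hxb₀, Q₀, hs₀⟩ := hne
    obtain ⟨d₀⟩ := mltj6_exists_nodeAt_of_node 𝔓 K hK h49 su₀ hx₀ hxb₀ hs₀ H
    refine ⟨-(((d₀.𝒩.oW' z - d₀.𝒩.oW z : ℤ) : ℚ) / (d₀.𝒩.w : ℚ)), ?_⟩
    rintro P ⟨n, su, hx, hxb, Q, hs⟩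
    obtain ⟨d⟩ := mltj6_exists_nodeAt_of_node 𝔓 K hK h49 su hx hxb hs H
    refine ⟨d.𝒩.slope z, ?_⟩
    rw [mltj6_lawQ_div hL d hz0 D hDz, mltj6_nodeAt_w_indep d d₀, mltj6_nodeAt_oW_indep d d₀,
      mltj6_nodeAt_oW'_indep d d₀]
    ring
  · exact ⟨0, fun P hP => absurd ⟨P, hP⟩ hne⟩

end Fermat.Agent.MLT
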