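/-
MLT / [L2] / P6 (helper8), part 18: **P6 CLOSED**: the exact conservation law over `ℚ̄` and the field `princ` of
`MltjSlope`, unconditionally.

* **`mltj6_lawQ_main : MltJ6LawQ`** = `mltj6_lawQ` with helper1's `mltj8_levelFix`, `mltj8_valRat` (P8/Rational) and
  helper2's `mltj7_placeUniq` (P7/PlaceUniqH);
* **`mltj6_princAt 𝔓 K hK h49 : Mltj8PrincAt 𝔓 K hK h49`** (helper1's literal of P8/Slope = the field `princ` of
  helper9's `MltjSlope` for `sl := mltj6Sl`, `w := 1`).
-/
import Mathlib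
import Fermat.Agent.Lib.MLT.L2.P6.Princ
import Fermat.Agent.Lib.MLT.L2.P7.PlaceUniqH
import Fermat.Agent.Lib.MLT.L2.P8.Rational
import Fermat.Agent.Lib.MLT.L2.P8.Slope

set_option autoImplicit false
set_option linter.unusedSectionVars false
set_option linter.unusedVariables false
set_option linter.style.haveILetI false
set_option synthInstance.maxHeartbeats 400000
set_option maxHeartbeats 1000000

noncomputable section

namespace Fermat.Agent.MLT

/-- **THE EXACT CONSERVATION LAW over `ℚ̄`, at every level** -/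
theorem mltj6_lawQ_main : MltJ6LawQ :=
  mltj6_lawQ mltj8_levelFix mltj8_valRat (mltj7_placeUniq mltj8_valRat)

/-- **the field `princ` of `MltjSlope`** for the slope map of P6 -/
theorem mltj6_princAt (𝔓 : Fermat.Agent.TW.FFPlace) (K : ℕ) [NeZero K] (hK : ¬ 𝔓.p ∣ K)
    (h49 : 4 ∣ K ∨ 9 ∣ K) : Mltj8PrincAt 𝔓 K hK h49 := by
  intro D hD
  obtain ⟨c, hc⟩ := mltj6_princ mltj6_lawQ_main 𝔓 K hK h49 D hD
  exact ⟨c, fun P hP => hc P hP⟩

end Fermat.Agent.MLT
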