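/-
MLT / [L2] / P6 (helper8), part 4: **the thickness and the slopes depend only on the local ring**
(abstract).  `𝒩 𝒩' : DlNode L F` two normal forms of the same `DlLocal`
(`𝒩'.toDlLocal = 𝒩.toDlLocal`; e.g. two choices of `DlCross.toNode`).  Then

* `mltj6_indep_isU_t` : `t' = t · unit`;
* `mltj6_indep_w`     : `w' = w`;
* `mltj6_indep_slope` : `slope' z = slope z`;
* `mltj6_w_eq_one`    : a local equation `b` of the branch `W'` (`ord_W b = 0`, `ord_W' b = 1`, no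
  horizontal part) forces `w = 1` (REGULARITY ⇒ thickness one).
-/
import Fermat.Agent.Lib.MLT.L2.P6.NodeLaw

set_option autoImplicit false
set_option linter.style.haveILetI false
set_option linter.unusedSectionVars false
set_option linter.unusedVariables false

namespace Fermat.Agent.MLT

open Fermat.Agent.T4 Fermat.Agent.Delta

variable {L F : Type*} [Field L] [Field F] [Algebra L F]

/-- a local equation of the branch `W'` forces the thickness to be `1` -/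
theorem mltj6_w_eq_one (𝒩 : DlNode L F) {b : F} (hb : b ≠ 0) (hW : 𝒩.oW b = 0)
    (hW' : 𝒩.oW' b = 1)
    (hH : ∀ (V : ValuationSubring F) (hV : V ∈ 𝒩.hor), 𝒩.oH V hV b = 0) : 𝒩.w = 1 := by
  have h1 := dln_slope_law 𝒩 hb hH
  rw [hW, hW', sub_zero] at h1
  have h2 : (0 : ℤ) < 𝒩.w := by exact_mod_cast 𝒩.hw
  have h3 : ((𝒩.w : ℤ)) ∣ 1 := ⟨𝒩.slope b, by rw [h1]; ring⟩
  have h4 : (𝒩.w : ℤ) = 1 := by
    have := Int.le_of_dvd one_pos h3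
    omega
  exact_mod_cast h4

section Indep

variable (𝒩 𝒩' : DlNode L F) (h : 𝒩'.toDlLocal = 𝒩.toDlLocal)

include h in
theorem mltj6_indep_aux :
    (𝒩'.w : ℤ) = 𝒩.slope 𝒩'.t * 𝒩.w ∧ 𝒩.IsU (𝒩'.t / 𝒩.t ^ (𝒩.slope 𝒩'.t)) := by
  have hW : 𝒩.oW 𝒩'.t = 0 := by
    have := 𝒩'.oW_t
    rwa [h] at this
  have hW' : 𝒩.oW' 𝒩'.t = 𝒩'.w := by
    have := 𝒩'.oW'_t
    rwa [h] at this
  have hH : ∀ (V : ValuationSubring F) (hV : V ∈ 𝒩.hor), 𝒩.oH V hV 𝒩'.t = 0 := by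
    intro V hV
    have hV' : V ∈ 𝒩'.hor := by rw [h]; exact hV
    exact 𝒩'.oH_t hV'
  have h1 := dln_slope_law 𝒩 𝒩'.t_ne_zero hH
  have h2 := dln_slope_form 𝒩 𝒩'.t_ne_zero hH
  rw [hW, hW', sub_zero] at h1
  rw [hW, zpow_zero, one_mul] at h2
  exact ⟨h1, h2⟩

include h in
theorem mltj6_indep_slope_t : 𝒩.slope 𝒩'.t = 1 := by
  obtain ⟨h1, -⟩ := mltj6_indep_aux 𝒩 𝒩' h
  obtain ⟨h2, -⟩ := mltj6_indep_aux 𝒩' 𝒩 h.symm
  have hw : (0 : ℤ) < 𝒩.w := by exact_mod_cast 𝒩.hw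
  have hw' : (0 : ℤ) < 𝒩'.w := by exact_mod_cast 𝒩'.hw
  have hμ : 0 < 𝒩.slope 𝒩'.t := by
    by_contra hcon
    push Not at hcon
    nlinarith
  have hμ' : 0 < 𝒩'.slope 𝒩.t := by
    by_contra hcon
    push Not at hcon
    nlinarith
  have h3 : 𝒩.slope 𝒩'.t * 𝒩'.slope 𝒩.t = 1 := by
    have : (𝒩.w : ℤ) = 𝒩'.slope 𝒩.t * (𝒩.slope 𝒩'.t * 𝒩.w) := by rw [← h1]; exact h2
    have h4 : (𝒩.w : ℤ) * (𝒩.slope 𝒩'.t * 𝒩'.slope 𝒩.t) = 𝒩.w * 1 := by linarith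
    exact mul_left_cancel₀ hw.ne' h4
  exact Int.eq_one_of_mul_eq_one_right hμ.le h3

include h in
/-- **the thickness depends only on the local ring** -/
theorem mltj6_indep_w : 𝒩'.w = 𝒩.w := by
  obtain ⟨h1, -⟩ := mltj6_indep_aux 𝒩 𝒩' h
  rw [mltj6_indep_slope_t 𝒩 𝒩' h, one_mul] at h1
  exact_mod_cast h1

include h in
/-- `t' = t · unit` -/
theorem mltj6_indep_isU_t : 𝒩.IsU (𝒩'.t / 𝒩.t) := by
  obtain ⟨-, h1⟩ := mltj6_indep_aux 𝒩 𝒩' h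
  rwa [mltj6_indep_slope_t 𝒩 𝒩' h, zpow_one] at h1

include h in
/-- **the slopes depend only on the local ring** -/
theorem mltj6_indep_slope (z : F) : 𝒩'.slope z = 𝒩.slope z := by
  by_cases hz : z = 0
  · rw [hz, 𝒩.slope_zero, 𝒩'.slope_zero]
  obtain ⟨u, hu, hc⟩ := 𝒩.slope_spec hz
  have hU := mltj6_indep_isU_t 𝒩 𝒩' h
  set m := 𝒩.slope z with hm
  -- `t ^ m u = t' ^ m (u₀ ^ (-m) u)`
  have hu' : 𝒩'.IsU ((𝒩'.t / 𝒩.t) ^ (-m) * u) := by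
    rw [h]
    exact (hU.zpow 𝒩.toDlLocal (-m)).mul 𝒩.toDlLocal hu
  refine 𝒩'.slope_eq hz hu' ?_
  have e1 : 𝒩'.nrm z = 𝒩.nrm z := by
    unfold DlNode.nrm
    rw [h]
  have e2 : 𝒩'.t ^ m * ((𝒩'.t / 𝒩.t) ^ (-m) * u) = 𝒩.t ^ m * u := by
    have h1 := 𝒩.t_ne_zero
    have h2 := 𝒩'.t_ne_zero
    rw [← mul_assoc, zpow_neg, div_zpow]
    have h3 := zpow_ne_zero m h1
    have h4 := zpow_ne_zero m h2
    field_simp
  rw [e1, e2, h]
  exact hc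

end Indep

end Fermat.Agent.MLT
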